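/-
S16, lower bound [A], block (iii): the operator `U_p` (`p ∣ N`) on `Hom(Γ₀(N), A)`.

* `uSys N p hpN : CosetSys (jGL N) (ZMod p)`: the coset system of `U_p`, with representatives
  `heckeMatrix p x.val = [1 x; 0 p]`, permutation the prelude's `affinePerm`, cocycle `uCoc`.
* `uAdd N p hpN : (Additive Γ₀(N) →+ A) →+ (Additive Γ₀(N) →+ A)`: the transfer along `uSys`,
  `uAdd φ g = ∑ x, φ (uCoc g x)`; functorial in `A`, stable on `parHomAdd N A`.
* `uCoc_lowerRight`, `uCoc_upperLeft`: the diagonal entries of `uCoc g x` agree with those of `g`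
  modulo `p` (so for a homomorphism `ψ` which factors through the lower right entry mod `p`:
  `uAdd ψ = p • ψ`, see `uAdd_eq_nsmul_of_factors`).
* `pml_heckeULin : pml N (U_p f) = uAdd (pml N f)` (the period map is `U_p`-equivariant),
  `uAdd_charInvolution`, `uAdd_periodHomPair`, and the commutation relations of `uAdd` with
  `heckeAdd` and with itself on `parabolicHoms ℂ Γ₀(N) ℂ` (through S21 and the prelude).
-/
import Fermat.Agent.N4F.Tors.PeriodHecke
import Fermat.Prelude.Thm_CuspForm_heckeTLin_heckeULin_comm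
import Fermat.Prelude.Thm_CuspForm_heckeULin_comm

set_option autoImplicit false

open UpperHalfPlane hiding I
open Matrix.SpecialLinearGroup ModularForm CongruenceSubgroup Complex
open scoped MatrixGroups ModularForm OnePoint Real

namespace Fermat.Agent.S16.Lower.USystem

open P2MW.S_ModularForm_heckeT_slash_eq_self_of_mem_Gamma0.ModularForm.HeckeSlashInvariance
open Fermat.Agent.N4F.Tors.HeckeHom Fermat.Agent.N4F.Tors.PeriodHecke Fermat.Agent.M2.ES
open Fermat.Agent.S22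

/-! ### The coset system of `U_p` on `Γ₀(N)`, `p ∣ N` -/

section Sys

variable (N : ℕ) (p : ℕ) [Fact p.Prime]

omit [Fact p.Prime] in
theorem lowerLeft_dvd (hpN : p ∣ N) (g : ↥(Gamma0 N)) : (p : ℤ) ∣ (g : SL(2, ℤ)) 1 0 := by
  have hcN : (N : ℤ) ∣ (g : SL(2, ℤ)) 1 0 :=
    (ZMod.intCast_zmod_eq_zero_iff_dvd _ _).mp (Gamma0_mem.mp g.2)
  exact (Int.natCast_dvd_natCast.mpr hpN).trans hcN

theorem lowerLeft_zmod_eq_zero (hpN : p ∣ N) (g : ↥(Gamma0 N)) :
    ((((g : SL(2, ℤ)) 1 0 : ℤ)) : ZMod p) = 0 :=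
  (ZMod.intCast_zmod_eq_zero_iff_dvd _ _).mpr (lowerLeft_dvd N p hpN g)

/-- the permutation of `ZMod p` attached to `g ∈ Γ₀(N)`: `x ↦ d (b + d x)` -/
noncomputable def uPerm (hpN : p ∣ N) (g : ↥(Gamma0 N)) : Equiv.Perm (ZMod p) :=
  affinePerm (g : SL(2, ℤ)) (lowerLeft_zmod_eq_zero N p hpN g)

theorem uPerm_apply (hpN : p ∣ N) (g : ↥(Gamma0 N)) (x : ZMod p) :
    uPerm N p hpN g x = ((((g : SL(2, ℤ)) 1 1 : ℤ)) : ZMod p) *
      (((((g : SL(2, ℤ)) 0 1 : ℤ)) : ZMod p) + ((((g : SL(2, ℤ)) 1 1 : ℤ)) : ZMod p) * x) := rfl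

theorem exists_uCoc (hpN : p ∣ N) (g : ↥(Gamma0 N)) (x : ZMod p) :
    ∃ c : ↥(Gamma0 N), heckeMatrix p x.val * jGL N g =
      jGL N c * heckeMatrix p (uPerm N p hpN g x).val := by
  obtain ⟨g', hg', h⟩ := heckeMatrix_mul_of_dvd (g : SL(2, ℤ)) (lowerLeft_dvd N p hpN g) x
  refine ⟨⟨g', ?_⟩, h⟩
  rw [Gamma0_mem, hg']
  push_cast
  rw [Gamma0_mem.mp g.2, mul_zero]

/-- the cocycle of the `U_p` coset system -/
noncomputable def uCoc (hpN : p ∣ N) (g : ↥(Gamma0 N)) (x : ZMod p) : ↥(Gamma0 N) :=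
  (exists_uCoc N p hpN g x).choose

theorem heckeMatrix_mul_eq (hpN : p ∣ N) (g : ↥(Gamma0 N)) (x : ZMod p) :
    heckeMatrix p x.val * mapGL ℝ (g : SL(2, ℤ)) =
      mapGL ℝ (uCoc N p hpN g x : SL(2, ℤ)) * heckeMatrix p (uPerm N p hpN g x).val :=
  (exists_uCoc N p hpN g x).choose_spec

/-- the cosets `Γ₀(N) * heckeMatrix p x` are pairwise distinct -/
theorem heckeMatrix_inj (x x' : ZMod p) (g : SL(2, ℤ))
    (h : heckeMatrix p x.val = mapGL ℝ g * heckeMatrix p x'.val) : x = x' := by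
  have h' : heckeRep p (x : OnePoint (ZMod p)) =
      mapGL ℝ g * heckeRep p (x' : OnePoint (ZMod p)) := by
    rw [heckeRep_coe, heckeRep_coe]; exact h
  exact OnePoint.coe_injective (heckeRep_inj _ _ g h')

/-- **The coset system of `U_p`** on `Γ₀(N)`, `p ∣ N`. -/
noncomputable def uSys (hpN : p ∣ N) : CosetSys (jGL N) (ZMod p) where
  rep x := heckeMatrix p x.val
  perm g x := uPerm N p hpN g x
  coc := uCoc N p hpN
  rep_mul := heckeMatrix_mul_eq N p hpN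
  rep_inj x x' g h := heckeMatrix_inj p x x' (g : SL(2, ℤ)) h

@[simp] theorem uSys_rep (hpN : p ∣ N) (x : ZMod p) :
    (uSys N p hpN).rep x = heckeMatrix p x.val := rfl

@[simp] theorem uSys_perm (hpN : p ∣ N) (g : ↥(Gamma0 N)) (x : ZMod p) :
    (uSys N p hpN).perm g x = uPerm N p hpN g x := rfl

@[simp] theorem uSys_coc (hpN : p ∣ N) (g : ↥(Gamma0 N)) (x : ZMod p) :
    (uSys N p hpN).coc g x = uCoc N p hpN g x := rfl

/-- cocycle identity of the `U_p` coset system -/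
theorem uCoc_mul (hpN : p ∣ N) (g h : ↥(Gamma0 N)) (x : ZMod p) :
    uCoc N p hpN (g * h) x = uCoc N p hpN g x * uCoc N p hpN h (uPerm N p hpN g x) :=
  (uSys N p hpN).coc_mul (jGL_injective N) g h x

theorem uCoc_one (hpN : p ∣ N) (x : ZMod p) : uCoc N p hpN 1 x = 1 :=
  (uSys N p hpN).coc_one (jGL_injective N) x

theorem uPerm_mul (hpN : p ∣ N) (g h : ↥(Gamma0 N)) (x : ZMod p) :
    uPerm N p hpN (g * h) x = uPerm N p hpN h (uPerm N p hpN g x) :=
  (uSys N p hpN).perm_mul g h x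

/-- uniqueness of the cocycle -/
theorem uCoc_eq_of_eq (hpN : p ∣ N) {g c : ↥(Gamma0 N)} {x x' : ZMod p}
    (h : heckeMatrix p x.val * mapGL ℝ (g : SL(2, ℤ)) =
      mapGL ℝ (c : SL(2, ℤ)) * heckeMatrix p x'.val) :
    uCoc N p hpN g x = c ∧ uPerm N p hpN g x = x' :=
  ⟨(uSys N p hpN).coc_eq_of_eq (jGL_injective N) h, (uSys N p hpN).perm_eq_of_eq h⟩

/-! ### The entries of the cocycle -/

/-- the entries of `uCoc g x`, over `ℤ` -/
theorem uCoc_entries (hpN : p ∣ N) (g : ↥(Gamma0 N)) (x : ZMod p) :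
    (uCoc N p hpN g x : SL(2, ℤ)) 0 0 =
        (g : SL(2, ℤ)) 0 0 + (x.val : ℤ) * (g : SL(2, ℤ)) 1 0 ∧
      (uCoc N p hpN g x : SL(2, ℤ)) 1 0 = (p : ℤ) * (g : SL(2, ℤ)) 1 0 ∧
      (g : SL(2, ℤ)) 1 1 = (uCoc N p hpN g x : SL(2, ℤ)) 1 1 +
        (g : SL(2, ℤ)) 1 0 * ((uPerm N p hpN g x).val : ℤ) := by
  have hp : p ≠ 0 := (Fact.out : p.Prime).ne_zero
  have hpR : (p : ℝ) ≠ 0 := by exact_mod_cast hp
  have h := heckeMatrix_mul_eq N p hpN g x
  have h00 := entry_eq h 0 0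
  have h10 := entry_eq h 1 0
  have h11 := entry_eq h 1 1
  rw [mul_entry, mul_entry, mapGL_apply, mapGL_apply, mapGL_apply, mapGL_apply] at h00 h10 h11
  simp only [val_heckeMatrix hp, Matrix.of_apply, Matrix.cons_val', Matrix.cons_val_zero,
    Matrix.cons_val_one, Matrix.cons_val_fin_one, mul_one, mul_zero, add_zero, one_mul,
    zero_mul, zero_add] at h00 h10 h11
  have e00 : (uCoc N p hpN g x : SL(2, ℤ)) 0 0 =
      (g : SL(2, ℤ)) 0 0 + (x.val : ℤ) * (g : SL(2, ℤ)) 1 0 := by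
    exact_mod_cast h00.symm
  have e10 : (uCoc N p hpN g x : SL(2, ℤ)) 1 0 = (p : ℤ) * (g : SL(2, ℤ)) 1 0 := by
    exact_mod_cast h10.symm
  refine ⟨e00, e10, ?_⟩
  have h11' : (p : ℤ) * (g : SL(2, ℤ)) 1 1 =
      (uCoc N p hpN g x : SL(2, ℤ)) 1 0 * ((uPerm N p hpN g x).val : ℤ) +
        (uCoc N p hpN g x : SL(2, ℤ)) 1 1 * (p : ℤ) := by
    exact_mod_cast h11
  rw [e10] at h11'
  have hpZ : (p : ℤ) ≠ 0 := by exact_mod_cast hp
  apply mul_left_cancel₀ hpZ
  linear_combination h11'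

/-- the lower right entry of the cocycle agrees with that of `g` modulo `p` -/
theorem uCoc_lowerRight (hpN : p ∣ N) (g : ↥(Gamma0 N)) (x : ZMod p) :
    ((((uCoc N p hpN g x : SL(2, ℤ)) 1 1 : ℤ)) : ZMod p) =
      ((((g : SL(2, ℤ)) 1 1 : ℤ)) : ZMod p) := by
  have h := (uCoc_entries N p hpN g x).2.2
  have h0 := lowerLeft_zmod_eq_zero N p hpN g
  have h1 : ((((g : SL(2, ℤ)) 1 1 : ℤ)) : ZMod p) =
      ((((uCoc N p hpN g x : SL(2, ℤ)) 1 1 +
        (g : SL(2, ℤ)) 1 0 * ((uPerm N p hpN g x).val : ℤ) : ℤ)) : ZMod p) := by rw [← h]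
  push_cast at h1
  rw [h0, zero_mul, add_zero] at h1
  exact h1.symm

/-- the upper left entry of the cocycle agrees with that of `g` modulo `p` -/
theorem uCoc_upperLeft (hpN : p ∣ N) (g : ↥(Gamma0 N)) (x : ZMod p) :
    ((((uCoc N p hpN g x : SL(2, ℤ)) 0 0 : ℤ)) : ZMod p) =
      ((((g : SL(2, ℤ)) 0 0 : ℤ)) : ZMod p) := by
  have h := (uCoc_entries N p hpN g x).1
  have h0 := lowerLeft_zmod_eq_zero N p hpN g
  have h1 : ((((uCoc N p hpN g x : SL(2, ℤ)) 0 0 : ℤ)) : ZMod p) =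
      ((((g : SL(2, ℤ)) 0 0 + (x.val : ℤ) * (g : SL(2, ℤ)) 1 0 : ℤ)) : ZMod p) := by rw [h]
  push_cast at h1
  rw [h0, mul_zero, add_zero] at h1
  exact h1

end Sys

/-! ### The operator `U_p` on homomorphisms -/

section Operator

variable (N : ℕ) (p : ℕ) [Fact p.Prime]

/-- **The operator `U_p`, `p ∣ N`, on `Hom(Γ₀(N), M)`**: `(U_p φ)(g) = ∏ x, φ (uCoc g x)`. -/
noncomputable def uHom (hpN : p ∣ N) {M : Type*} [CommGroup M] :
    (↥(Gamma0 N) →* M) →* (↥(Gamma0 N) →* M) :=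
  (uSys N p hpN).transferEnd (jGL_injective N)

theorem uHom_apply (hpN : p ∣ N) {M : Type*} [CommGroup M] (φ : ↥(Gamma0 N) →* M)
    (g : ↥(Gamma0 N)) :
    uHom N p hpN φ g = ∏ x : ZMod p, φ (uCoc N p hpN g x) := rfl

theorem uHom_comp (hpN : p ∣ N) {M M' : Type*} [CommGroup M] [CommGroup M']
    (f : M →* M') (φ : ↥(Gamma0 N) →* M) :
    uHom N p hpN (f.comp φ) = f.comp (uHom N p hpN φ) :=
  (uSys N p hpN).transferHom_comp (jGL_injective N) f φ

theorem uHom_mem_parHom (hpN : p ∣ N) {M : Type*} [CommGroup M] {φ : ↥(Gamma0 N) →* M}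
    (hφ : φ ∈ parHom N M) : uHom N p hpN φ ∈ parHom N M := by
  intro g hg
  exact (uSys N p hpN).transferHom_eq_one_of_mem (jGL_injective N) (parEllSet N)
    (parEllSet_stable N) φ (fun g hg => hφ g hg) hg

/-- **The operator `U_p`, `p ∣ N`, on `Hom(Γ₀(N), A)`**, additive form:
`(U_p φ)(g) = ∑ x, φ (uCoc g x)`. -/
noncomputable def uAdd (hpN : p ∣ N) {A : Type*} [AddCommGroup A] :
    (Additive ↥(Gamma0 N) →+ A) →+ (Additive ↥(Gamma0 N) →+ A) where
  toFun φ := MonoidHom.toAdditiveLeft (uHom N p hpN (AddMonoidHom.toMultiplicativeRight φ))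
  map_zero' := by
    have h : AddMonoidHom.toMultiplicativeRight (0 : Additive ↥(Gamma0 N) →+ A) =
        (1 : ↥(Gamma0 N) →* Multiplicative A) := rfl
    rw [h, map_one]
    rfl
  map_add' φ ψ := by
    have h : AddMonoidHom.toMultiplicativeRight (φ + ψ) =
        AddMonoidHom.toMultiplicativeRight φ * AddMonoidHom.toMultiplicativeRight ψ := rfl
    rw [h, map_mul]
    rfl

theorem uAdd_apply (hpN : p ∣ N) {A : Type*} [AddCommGroup A]
    (φ : Additive ↥(Gamma0 N) →+ A) (g : ↥(Gamma0 N)) :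
    uAdd N p hpN φ (Additive.ofMul g) =
      ∑ x : ZMod p, φ (Additive.ofMul (uCoc N p hpN g x)) := by
  show Multiplicative.toAdd (uHom N p hpN (AddMonoidHom.toMultiplicativeRight φ) g) = _
  rw [uHom_apply, toAdd_prod]
  rfl

theorem uAdd_comp (hpN : p ∣ N) {A B : Type*} [AddCommGroup A] [AddCommGroup B]
    (f : A →+ B) (φ : Additive ↥(Gamma0 N) →+ A) :
    uAdd N p hpN (f.comp φ) = f.comp (uAdd N p hpN φ) := by
  refine AddMonoidHom.ext fun g => ?_
  obtain ⟨g, rfl⟩ := Additive.ofMul.surjective g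
  rw [uAdd_apply, AddMonoidHom.comp_apply, uAdd_apply, map_sum]
  rfl

theorem uAdd_mem_parHomAdd (hpN : p ∣ N) {A : Type*} [AddCommGroup A]
    {φ : Additive ↥(Gamma0 N) →+ A} (hφ : φ ∈ parHomAdd N A) :
    uAdd N p hpN φ ∈ parHomAdd N A := by
  rw [← toMultiplicativeRight_mem_parHom] at hφ ⊢
  exact uHom_mem_parHom N p hpN hφ

/-- `U_p` on parabolic homomorphisms. -/
noncomputable def uPar (hpN : p ∣ N) (A : Type*) [AddCommGroup A] :
    parHomAdd N A →+ parHomAdd N A where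
  toFun φ := ⟨uAdd N p hpN φ.1, uAdd_mem_parHomAdd N p hpN φ.2⟩
  map_zero' := Subtype.ext (map_zero _)
  map_add' _ _ := Subtype.ext (map_add _ _ _)

@[simp] theorem coe_uPar (hpN : p ∣ N) {A : Type*} [AddCommGroup A] (φ : parHomAdd N A) :
    ((uPar N p hpN A φ : parHomAdd N A) : Additive ↥(Gamma0 N) →+ A) = uAdd N p hpN φ.1 := rfl

theorem parHomAddMap_uPar (hpN : p ∣ N) {A B : Type*} [AddCommGroup A] [AddCommGroup B]
    (f : A →+ B) (φ : parHomAdd N A) :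
    parHomAddMap N f (uPar N p hpN A φ) = uPar N p hpN B (parHomAddMap N f φ) :=
  Subtype.ext (uAdd_comp N p hpN f φ.1).symm

/-- If `ψ` only depends on the lower right entry modulo `p`, then `U_p ψ = p • ψ`. -/
theorem uAdd_eq_nsmul_of_factors (hpN : p ∣ N) {A : Type*} [AddCommGroup A]
    (ψ : Additive ↥(Gamma0 N) →+ A)
    (hψ : ∀ g h : ↥(Gamma0 N), ((((g : SL(2, ℤ)) 1 1 : ℤ)) : ZMod p) =
      ((((h : SL(2, ℤ)) 1 1 : ℤ)) : ZMod p) → ψ (Additive.ofMul g) = ψ (Additive.ofMul h)) :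
    uAdd N p hpN ψ = p • ψ := by
  refine AddMonoidHom.ext fun g => ?_
  obtain ⟨g, rfl⟩ := Additive.ofMul.surjective g
  rw [uAdd_apply, AddMonoidHom.nsmul_apply,
    Finset.sum_congr rfl fun x _ => hψ _ g (uCoc_lowerRight N p hpN g x), Finset.sum_const,
    Finset.card_univ, ZMod.card]

end Operator

/-! ### The period map is `U_p`-equivariant -/

section Prim

variable (N : ℕ) [NeZero N] {p : ℕ} [Fact p.Prime]

local notation "S₂" => CuspForm (Gamma0 N) 2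

/-- the primitive of `U_p f` is `z ↦ ∑ x, (prim f) (heckeMatrix p x • z)` -/
theorem prim_heckeULin (hp : p.Prime) (hpN : p ∣ N) (f : S₂) (z : ℍ) :
    prim N (CuspForm.heckeULin 2 hpN f) z =
      ∑ x : ZMod p, prim N f (heckeMatrix p x.val • z) := by
  have hp0 : (p : ℂ) ≠ 0 := by exact_mod_cast hp.ne_zero
  have h := Hecke.eichlerFun_heckeULin N 0 hp hpN f
  have h' : prim N (CuspForm.heckeULin 2 hpN f) =
      ((p : ℂ) ^ (0 + 1)) • heckeU (-((0 : ℕ) : ℤ)) p (prim N f) := h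
  rw [h', zero_add, pow_one, Nat.cast_zero, neg_zero, heckeU_eq_sum_zmod (0 : ℤ) (prim N f)]
  simp only [Pi.smul_apply, Finset.sum_apply, smul_eq_mul, slash_heckeMatrix_apply 0 hp.ne_zero,
    Finset.mul_sum]
  refine Finset.sum_congr rfl fun x _ => ?_
  rw [← mul_assoc, mul_inv_cancel₀ hp0, one_mul]

omit [NeZero N] in
/-- the action on `ℍ` of the coset identity -/
theorem heckeMatrix_smul_smul (hpN : p ∣ N) (g : ↥(Gamma0 N)) (x : ZMod p) (z : ℍ) :
    heckeMatrix p x.val • ((g : SL(2, ℤ)) • z) =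
      (uCoc N p hpN g x : SL(2, ℤ)) • (heckeMatrix p (uPerm N p hpN g x).val • z) := by
  have h := heckeMatrix_mul_eq N p hpN g x
  calc heckeMatrix p x.val • ((g : SL(2, ℤ)) • z)
      = heckeMatrix p x.val • (mapGL ℝ (g : SL(2, ℤ)) • z) := rfl
    _ = (heckeMatrix p x.val * mapGL ℝ (g : SL(2, ℤ))) • z := (mul_smul _ _ _).symm
    _ = (mapGL ℝ (uCoc N p hpN g x : SL(2, ℤ)) *
          heckeMatrix p (uPerm N p hpN g x).val) • z := by rw [h]
    _ = mapGL ℝ (uCoc N p hpN g x : SL(2, ℤ)) •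
          (heckeMatrix p (uPerm N p hpN g x).val • z) := mul_smul _ _ _
    _ = _ := rfl

/-- **The period map is `U_p`-equivariant**: `pml (U_p f) = uAdd (pml f)`. -/
theorem pml_heckeULin (hp : p.Prime) (hpN : p ∣ N) (f : S₂) :
    pml N (CuspForm.heckeULin 2 hpN f) = uAdd N p hpN (pml N f) := by
  refine AddMonoidHom.ext fun g => ?_
  obtain ⟨g, rfl⟩ := Additive.ofMul.surjective g
  rw [uAdd_apply, pml_apply N _ g UpperHalfPlane.I, prim_heckeULin N hp, prim_heckeULin N hp,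
    ← Finset.sum_sub_distrib]
  set z : ℍ := UpperHalfPlane.I with hz
  have h1 : ∀ x : ZMod p,
      prim N f (heckeMatrix p x.val • ((g : SL(2, ℤ)) • z)) - prim N f (heckeMatrix p x.val • z) =
        pml N f (Additive.ofMul (uCoc N p hpN g x)) +
          (prim N f (heckeMatrix p (uPerm N p hpN g x).val • z) -
            prim N f (heckeMatrix p x.val • z)) := by
    intro x
    rw [heckeMatrix_smul_smul N hpN g x z,
      pml_apply N f (uCoc N p hpN g x) (heckeMatrix p (uPerm N p hpN g x).val • z)]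
    ring
  rw [Finset.sum_congr rfl fun x _ => h1 x, Finset.sum_add_distrib, Finset.sum_sub_distrib]
  have h2 : ∑ x : ZMod p, prim N f (heckeMatrix p (uPerm N p hpN g x).val • z) =
      ∑ x : ZMod p, prim N f (heckeMatrix p x.val • z) :=
    Equiv.sum_comp (uPerm N p hpN g) (fun x => prim N f (heckeMatrix p x.val • z))
  rw [h2, sub_self, add_zero]

end Prim

/-! ### `uAdd` commutes with the prelude's `charInvolution` on parabolic homomorphisms -/

section Involution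

open ModularCurve ModularCurve.Period

variable (N : ℕ) {p : ℕ} [Fact p.Prime]

/-- conjugating `heckeMatrix p x` by `diag(1,-1)` gives `heckeMatrix p (-x)`, up to a
translation -/
theorem exists_conj_heckeMatrix (x : ZMod p) :
    ∃ τ : ↥(Gamma0 N), (((τ : SL(2, ℤ)) : Matrix (Fin 2) (Fin 2) ℤ).trace ^ 2 = 4) ∧
      mapGL ℝ (τ : SL(2, ℤ)) * heckeMatrix p (-x).val * deltaGL =
        deltaGL * heckeMatrix p x.val := by
  obtain ⟨τ, hτ, h⟩ := exists_conj_heckeRep N (x : OnePoint (ZMod p))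
  refine ⟨τ, hτ, ?_⟩
  rw [negOP_coe, heckeRep_coe, heckeRep_coe] at h
  exact h

/-- the cocycle of the conjugate -/
theorem uCoc_jConj (hpN : p ∣ N) (g : ↥(Gamma0 N)) (x : ZMod p) :
    ∃ τ τ' : ↥(Gamma0 N), (((τ : SL(2, ℤ)) : Matrix (Fin 2) (Fin 2) ℤ).trace ^ 2 = 4) ∧
      (((τ' : SL(2, ℤ)) : Matrix (Fin 2) (Fin 2) ℤ).trace ^ 2 = 4) ∧
      uCoc N p hpN (jConjGamma0 N g) (-x) = τ⁻¹ * jConjGamma0 N (uCoc N p hpN g x) * τ' := by
  obtain ⟨τ, hτ, hx⟩ := exists_conj_heckeMatrix N x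
  obtain ⟨τ', hτ', hy⟩ := exists_conj_heckeMatrix N (uPerm N p hpN g x)
  refine ⟨τ, τ', hτ, hτ', ?_⟩
  set c := uCoc N p hpN g x with hc
  set y := uPerm N p hpN g x with hy'
  have hcm := heckeMatrix_mul_eq N p hpN g x
  rw [← hc, ← hy'] at hcm
  have hδg := mapGL_jConjSL_mul_delta (g : SL(2, ℤ))
  have hδc := mapGL_jConjSL_mul_delta (c : SL(2, ℤ))
  have hA : mapGL ℝ (τ : SL(2, ℤ)) *
      (heckeMatrix p (-x).val * mapGL ℝ (jConjSL (g : SL(2, ℤ)))) *
      deltaGL = mapGL ℝ (jConjSL (c : SL(2, ℤ))) * mapGL ℝ (τ' : SL(2, ℤ)) *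
        heckeMatrix p (-y).val * deltaGL := by
    calc mapGL ℝ (τ : SL(2, ℤ)) *
          (heckeMatrix p (-x).val * mapGL ℝ (jConjSL (g : SL(2, ℤ)))) * deltaGL
        = mapGL ℝ (τ : SL(2, ℤ)) * heckeMatrix p (-x).val *
            (mapGL ℝ (jConjSL (g : SL(2, ℤ))) * deltaGL) := by group
      _ = mapGL ℝ (τ : SL(2, ℤ)) * heckeMatrix p (-x).val *
            (deltaGL * mapGL ℝ (g : SL(2, ℤ))) := by rw [hδg]
      _ = (mapGL ℝ (τ : SL(2, ℤ)) * heckeMatrix p (-x).val * deltaGL) *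
            mapGL ℝ (g : SL(2, ℤ)) := by group
      _ = (deltaGL * heckeMatrix p x.val) * mapGL ℝ (g : SL(2, ℤ)) := by rw [hx]
      _ = deltaGL * (heckeMatrix p x.val * mapGL ℝ (g : SL(2, ℤ))) := by group
      _ = deltaGL * (mapGL ℝ (c : SL(2, ℤ)) * heckeMatrix p y.val) := by rw [hcm]
      _ = (deltaGL * mapGL ℝ (c : SL(2, ℤ))) * heckeMatrix p y.val := by group
      _ = (mapGL ℝ (jConjSL (c : SL(2, ℤ))) * deltaGL) * heckeMatrix p y.val := by rw [hδc]
      _ = mapGL ℝ (jConjSL (c : SL(2, ℤ))) * (deltaGL * heckeMatrix p y.val) := by group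
      _ = mapGL ℝ (jConjSL (c : SL(2, ℤ))) *
            (mapGL ℝ (τ' : SL(2, ℤ)) * heckeMatrix p (-y).val * deltaGL) := by rw [hy]
      _ = _ := by group
  have hB := mul_right_cancel hA
  have hC : heckeMatrix p (-x).val * mapGL ℝ ((jConjGamma0 N g : ↥(Gamma0 N)) : SL(2, ℤ)) =
      mapGL ℝ ((τ⁻¹ * jConjGamma0 N c * τ' : ↥(Gamma0 N)) : SL(2, ℤ)) *
        heckeMatrix p (-y).val := by
    have h1 : ((τ⁻¹ * jConjGamma0 N c * τ' : ↥(Gamma0 N)) : SL(2, ℤ)) =
        (τ : SL(2, ℤ))⁻¹ * jConjSL (c : SL(2, ℤ)) * (τ' : SL(2, ℤ)) := rfl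
    rw [h1, map_mul, map_mul, map_inv, jConjGamma0_coe]
    rw [mul_assoc, mul_assoc, eq_inv_mul_iff_mul_eq, hB]
    group
  exact (uCoc_eq_of_eq N p hpN hC).1

/-- **`uAdd` commutes with `charInvolution`** on parabolic homomorphisms. -/
theorem uAdd_charInvolution (hpN : p ∣ N) (R : Type*) [Semiring R] {A : Type*}
    [AddCommGroup A] [Module R A] {ψ : Additive ↥(Gamma0 N) →+ A}
    (hψ : IsParabolicHom (Gamma0 N) ψ) :
    uAdd N p hpN (charInvolution N R A ψ) = charInvolution N R A (uAdd N p hpN ψ) := by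
  refine AddMonoidHom.ext fun g => ?_
  obtain ⟨g, rfl⟩ := Additive.ofMul.surjective g
  rw [uAdd_apply, charInvolution_apply, toMul_ofMul, uAdd_apply]
  rw [← Equiv.sum_comp (Equiv.neg (ZMod p))
    (fun x => ψ (Additive.ofMul (uCoc N p hpN (jConjGamma0 N g) x)))]
  refine Finset.sum_congr rfl fun x _ => ?_
  rw [charInvolution_apply, toMul_ofMul]
  obtain ⟨τ, τ', hτ, hτ', h⟩ := uCoc_jConj N hpN g x
  show ψ (Additive.ofMul (jConjGamma0 N (uCoc N p hpN g x))) =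
    ψ (Additive.ofMul (uCoc N p hpN (jConjGamma0 N g) (-x)))
  rw [h, ofMul_mul, ofMul_mul, ofMul_inv, map_add, map_add, map_neg,
    isParabolicHom_trace N hψ hτ, isParabolicHom_trace N hψ hτ', neg_zero, zero_add, add_zero]

/-- `uAdd` on the image of the Eichler–Shimura map `periodHomPair`. -/
theorem uAdd_periodHomPair [NeZero N] (hp : p.Prime) (hpN : p ∣ N)
    (f g : CuspForm (Gamma0 N) 2) :
    uAdd N p hpN (periodHomPair N (f, g)) =
      periodHomPair N (CuspForm.heckeULin 2 hpN f, CuspForm.heckeULin 2 hpN g) := by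
  rw [periodHomPair_eq, LinearMap.coprod_apply, LinearMap.coprod_apply]
  simp only [LinearMap.comp_apply, LinearMap.add_apply, LinearMap.sub_apply, LinearMap.id_apply]
  rw [map_add, map_add, map_sub,
    uAdd_charInvolution N hpN ℂ (pml_mem_parabolicHoms N f),
    uAdd_charInvolution N hpN ℂ (pml_mem_parabolicHoms N g),
    pml_heckeULin N hp, pml_heckeULin N hp]

/-- `U_p` commutes with `T_q` (`q ∤ N`) on `parabolicHoms ℂ Γ₀(N) ℂ`. -/
theorem uAdd_heckeAdd_comm_of_mem_parabolicHoms [NeZero N] {q : ℕ} [Fact q.Prime]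
    (hpN : p ∣ N) (hqN : ¬ q ∣ N) {ψ : Additive ↥(Gamma0 N) →+ ℂ}
    (hψ : ψ ∈ parabolicHoms ℂ (Gamma0 N) ℂ) :
    uAdd N p hpN (heckeAdd N q hqN ψ) = heckeAdd N q hqN (uAdd N p hpN ψ) := by
  have hp : p.Prime := Fact.out
  have hq : q.Prime := Fact.out
  rw [← (Fermat.Agent.S21.result N).2] at hψ
  obtain ⟨⟨f, g⟩, rfl⟩ := hψ
  rw [heckeAdd_periodHomPair N hq hqN, uAdd_periodHomPair N hp hpN,
    uAdd_periodHomPair N hp hpN, heckeAdd_periodHomPair N hq hqN]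
  have hc := CuspForm.heckeTLin_heckeULin_comm (N := N) 2 hq hqN hpN
  have hcf : ∀ v : CuspForm (Gamma0 N) 2,
      CuspForm.heckeULin 2 hpN (CuspForm.heckeTLin 2 hq hqN v) =
        CuspForm.heckeTLin 2 hq hqN (CuspForm.heckeULin 2 hpN v) := fun v => by
    have := congrArg (fun T : Module.End ℂ (CuspForm (Gamma0 N) 2) => T v) hc.eq
    exact this.symm
  rw [hcf f, hcf g]

/-- `U_p` and `U_q` commute on `parabolicHoms ℂ Γ₀(N) ℂ`. -/
theorem uAdd_comm_of_mem_parabolicHoms [NeZero N] {q : ℕ} [Fact q.Prime]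
    (hpN : p ∣ N) (hqN : q ∣ N) {ψ : Additive ↥(Gamma0 N) →+ ℂ}
    (hψ : ψ ∈ parabolicHoms ℂ (Gamma0 N) ℂ) :
    uAdd N p hpN (uAdd N q hqN ψ) = uAdd N q hqN (uAdd N p hpN ψ) := by
  have hp : p.Prime := Fact.out
  have hq : q.Prime := Fact.out
  rw [← (Fermat.Agent.S21.result N).2] at hψ
  obtain ⟨⟨f, g⟩, rfl⟩ := hψ
  rw [uAdd_periodHomPair N hq hqN, uAdd_periodHomPair N hp hpN,
    uAdd_periodHomPair N hp hpN, uAdd_periodHomPair N hq hqN]
  have hc := CuspForm.heckeULin_comm (N := N) 2 hpN hqN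
  have hcf : ∀ v : CuspForm (Gamma0 N) 2,
      CuspForm.heckeULin 2 hpN (CuspForm.heckeULin 2 hqN v) =
        CuspForm.heckeULin 2 hqN (CuspForm.heckeULin 2 hpN v) := fun v => by
    have := congrArg (fun T : Module.End ℂ (CuspForm (Gamma0 N) 2) => T v) hc.eq
    exact this
  rw [hcf f, hcf g]

end Involution

end Fermat.Agent.S16.Lower.USystem
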