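import Mathlib
import Fermat.Prelude.Def_ModularCurve_ModularUnit

/-!
# S16, lower bound, block (L3): the Shimura character of `Γ₀(p)`

For a prime `p` and `n = eisensteinNumerator p = (p - 1) / gcd (p - 1, 12)` we construct an additive
homomorphism `psi p : Additive Γ₀(p) →+ ZMod n`, `γ ↦ χ (d_γ mod p)`, where
`χ : (ZMod p)ˣ → ZMod n` is a surjective homomorphism whose kernel contains every `u` with
`u ^ 12 = 1`.  It is surjective, and vanishes on elements of finite order (`γ ^ 12 = 1`), on `-1`,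
and on elements of trace `± 2` (parabolic elements).

Everything about `d_γ` is done for an arbitrary level `N` (`dHom N : Γ₀(N) →* (ZMod N)ˣ`).
-/

set_option autoImplicit false

open scoped MatrixGroups
open CongruenceSubgroup Matrix.SpecialLinearGroup

namespace Fermat.Agent.S16.Lower.Shimura

/-! ### The lower right entry as a homomorphism to the units of `ZMod N` -/

/-- `γ ↦ d_γ mod N`, as a homomorphism `Γ₀(N) →* (ZMod N)ˣ`. -/
noncomputable def dHom (N : ℕ) : ↥(Gamma0 N) →* (ZMod N)ˣ := (Gamma0Map N).toHomUnits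

@[simp] theorem coe_dHom (N : ℕ) (γ : ↥(Gamma0 N)) :
    ((dHom N γ : (ZMod N)ˣ) : ZMod N) = (((γ : SL(2, ℤ)) 1 1 : ℤ) : ZMod N) := rfl

theorem dHom_eq_iff (N : ℕ) (γ : ↥(Gamma0 N)) (u : (ZMod N)ˣ) :
    dHom N γ = u ↔ (((γ : SL(2, ℤ)) 1 1 : ℤ) : ZMod N) = (u : ZMod N) := by
  rw [← Units.val_inj, coe_dHom]

/-- the upper left entry is the inverse of the lower right entry modulo `N` -/
theorem coe_dHom_inv (N : ℕ) (γ : ↥(Gamma0 N)) :
    (((dHom N γ)⁻¹ : (ZMod N)ˣ) : ZMod N) = (((γ : SL(2, ℤ)) 0 0 : ℤ) : ZMod N) := by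
  have hc : (((γ : SL(2, ℤ)) 1 0 : ℤ) : ZMod N) = 0 := Gamma0_mem.mp γ.2
  have hdet : ((γ : SL(2, ℤ)) 0 0 * (γ : SL(2, ℤ)) 1 1 - (γ : SL(2, ℤ)) 0 1 * (γ : SL(2, ℤ)) 1 0 : ℤ) = 1 := by
    have h := (γ : SL(2, ℤ)).det_coe
    rwa [Matrix.det_fin_two] at h
  have hdet' := congrArg (Int.cast : ℤ → ZMod N) hdet
  push_cast at hdet'
  have hmul : ((dHom N γ : (ZMod N)ˣ) : ZMod N) * (((γ : SL(2, ℤ)) 0 0 : ℤ) : ZMod N) = 1 := by
    rw [coe_dHom]
    linear_combination hdet' + (((γ : SL(2, ℤ)) 0 1 : ℤ) : ZMod N) * hc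
  rw [← Units.inv_eq_of_mul_eq_one_right hmul]

/-! ### A surjection from a finite cyclic group onto `ZMod n` -/

section Cyclic

/-- the discrete logarithm `Additive G →+ ZMod (Nat.card G)` of a cyclic group -/
noncomputable def logHom (G : Type*) [CommGroup G] [IsCyclic G] :
    Additive G →+ ZMod (Nat.card G) where
  toFun a := Multiplicative.toAdd
    ((zmodCyclicMulEquiv (G := G) inferInstance).symm (Additive.toMul a))
  map_zero' := by
    rw [toMul_zero, map_one]
    rfl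
  map_add' a b := by
    rw [toMul_add, map_mul]
    rfl

theorem logHom_apply (G : Type*) [CommGroup G] [IsCyclic G] (a : Additive G) :
    logHom G a = Multiplicative.toAdd
      ((zmodCyclicMulEquiv (G := G) inferInstance).symm (Additive.toMul a)) := rfl

theorem logHom_injective (G : Type*) [CommGroup G] [IsCyclic G] :
    Function.Injective (logHom G) := by
  intro a b h
  rw [logHom_apply, logHom_apply] at h
  have h' := (zmodCyclicMulEquiv (G := G) inferInstance).symm.injective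
    (Multiplicative.toAdd.injective h)
  exact Additive.toMul.injective h'

theorem logHom_surjective (G : Type*) [CommGroup G] [IsCyclic G] :
    Function.Surjective (logHom G) := by
  intro z
  obtain ⟨u, hu⟩ := (zmodCyclicMulEquiv (G := G) inferInstance).symm.surjective
    (Multiplicative.ofAdd z)
  refine ⟨Additive.ofMul u, ?_⟩
  rw [logHom_apply, toMul_ofMul, hu, toAdd_ofAdd]

/-- if `g • z = 0` in `ZMod (g * n)`, `0 < g`, then `z` maps to `0` in `ZMod n` -/
theorem castHom_eq_zero_of_nsmul_eq_zero {m n g : ℕ} (hg : 0 < g) (hm : m = g * n)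
    (hnm : n ∣ m) (z : ZMod m) (hz : g • z = 0) : ZMod.castHom hnm (ZMod n) z = 0 := by
  rcases Nat.eq_zero_or_pos n with rfl | hn
  · -- `m = 0`, `ZMod 0 = ℤ`
    rw [Nat.mul_zero] at hm
    subst hm
    have hz0 : z = 0 := by
      rcases smul_eq_zero.mp hz with h | h
      · exact absurd h hg.ne'
      · exact h
    rw [hz0, map_zero]
  · have hmpos : 0 < m := hm ▸ Nat.mul_pos hg hn
    have : NeZero m := ⟨hmpos.ne'⟩
    have h1 : ((g * z.val : ℕ) : ZMod m) = 0 := by
      push_cast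
      rw [ZMod.natCast_zmod_val, ← nsmul_eq_mul]
      exact hz
    rw [ZMod.natCast_eq_zero_iff] at h1
    have h1' : g * n ∣ g * z.val := hm ▸ h1
    have h2 : n ∣ z.val := Nat.dvd_of_mul_dvd_mul_left hg h1'
    rw [ZMod.castHom_apply, ZMod.cast_eq_val, ZMod.natCast_eq_zero_iff]
    exact h2

/-- the surjection of a finite cyclic group onto `ZMod n`, `n ∣ Nat.card G` -/
noncomputable def cycQuot (G : Type*) [CommGroup G] [IsCyclic G] {n : ℕ} (hn : n ∣ Nat.card G) :
    Additive G →+ ZMod n :=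
  (ZMod.castHom hn (ZMod n)).toAddMonoidHom.comp (logHom G)

theorem cycQuot_apply (G : Type*) [CommGroup G] [IsCyclic G] {n : ℕ} (hn : n ∣ Nat.card G)
    (a : Additive G) : cycQuot G hn a = ZMod.castHom hn (ZMod n) (logHom G a) := rfl

theorem cycQuot_surjective (G : Type*) [CommGroup G] [IsCyclic G] {n : ℕ}
    (hn : n ∣ Nat.card G) : Function.Surjective (cycQuot G hn) := by
  intro z
  obtain ⟨y, hy⟩ := ZMod.castHom_surjective hn z
  obtain ⟨a, ha⟩ := logHom_surjective G y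
  exact ⟨a, by rw [cycQuot_apply, ha, hy]⟩

/-- elements killed by `g = Nat.card G / n` are in the kernel of `cycQuot` -/
theorem cycQuot_eq_zero_of_pow_eq_one (G : Type*) [CommGroup G] [IsCyclic G] {n g : ℕ}
    (hn : n ∣ Nat.card G) (hg : 0 < g) (hcard : Nat.card G = g * n) (u : G) (hu : u ^ g = 1) :
    cycQuot G hn (Additive.ofMul u) = 0 := by
  rw [cycQuot_apply]
  refine castHom_eq_zero_of_nsmul_eq_zero hg hcard hn _ ?_
  rw [← map_nsmul, ← ofMul_pow, hu, ofMul_one, map_zero]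

end Cyclic

/-! ### The Shimura character -/

section Prime

open ModularCurve

variable (p : ℕ) [Fact p.Prime]

theorem card_units_zmod : Nat.card (ZMod p)ˣ = p - 1 := by
  rw [Nat.card_eq_fintype_card, ZMod.card_units_eq_totient, Nat.totient_prime Fact.out]

theorem eisensteinNumerator_dvd_card : eisensteinNumerator p ∣ Nat.card (ZMod p)ˣ := by
  rw [card_units_zmod]
  exact eisensteinNumerator_dvd p

theorem card_units_eq_gcd_mul :
    Nat.card (ZMod p)ˣ = Nat.gcd (p - 1) 12 * eisensteinNumerator p := by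
  rw [card_units_zmod, eisensteinNumerator, Nat.mul_div_cancel' (Nat.gcd_dvd_left _ _)]

omit [Fact p.Prime] in
theorem gcd_pos : 0 < Nat.gcd (p - 1) 12 := Nat.gcd_pos_of_pos_right _ (by norm_num)

/-- the character `χ : (ZMod p)ˣ → ZMod n`, `n = eisensteinNumerator p` -/
noncomputable def chi : Additive (ZMod p)ˣ →+ ZMod (eisensteinNumerator p) :=
  cycQuot (ZMod p)ˣ (eisensteinNumerator_dvd_card p)

theorem chi_surjective : Function.Surjective (chi p) := cycQuot_surjective _ _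

/-- `χ` kills every unit of order dividing `12` -/
theorem chi_eq_zero_of_pow_twelve (u : (ZMod p)ˣ) (hu : u ^ 12 = 1) :
    chi p (Additive.ofMul u) = 0 := by
  refine cycQuot_eq_zero_of_pow_eq_one _ _ (gcd_pos p) (card_units_eq_gcd_mul p) u ?_
  have h1 : u ^ (p - 1) = 1 := ZMod.units_pow_card_sub_one_eq_one p u
  have h2 : orderOf u ∣ Nat.gcd (p - 1) 12 :=
    Nat.dvd_gcd (orderOf_dvd_of_pow_eq_one h1) (orderOf_dvd_of_pow_eq_one hu)
  exact orderOf_dvd_iff_pow_eq_one.mp h2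

/-- **The Shimura character** `ψ : Γ₀(p) → ZMod n`, `γ ↦ χ(d_γ)`. -/
noncomputable def psi : Additive ↥(Gamma0 p) →+ ZMod (eisensteinNumerator p) :=
  (chi p).comp (MonoidHom.toAdditive (dHom p))

theorem psi_apply (γ : ↥(Gamma0 p)) :
    psi p (Additive.ofMul γ) = chi p (Additive.ofMul (dHom p γ)) := rfl

/-- `ψ` only depends on `d_γ mod p` -/
theorem psi_eq_of_dHom_eq {γ δ : ↥(Gamma0 p)} (h : dHom p γ = dHom p δ) :
    psi p (Additive.ofMul γ) = psi p (Additive.ofMul δ) := by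
  rw [psi_apply, psi_apply, h]

/-- `ψ` vanishes on elements of finite order (their order divides `12`) -/
theorem psi_eq_zero_of_pow_twelve (γ : ↥(Gamma0 p)) (h : γ ^ 12 = 1) :
    psi p (Additive.ofMul γ) = 0 := by
  rw [psi_apply]
  refine chi_eq_zero_of_pow_twelve p _ ?_
  rw [← map_pow, h, map_one]

theorem psi_eq_zero_of_pow_four (γ : ↥(Gamma0 p)) (h : γ ^ 4 = 1) :
    psi p (Additive.ofMul γ) = 0 :=
  psi_eq_zero_of_pow_twelve p γ (by rw [show 12 = 4 * 3 from rfl, pow_mul, h, one_pow])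

theorem psi_eq_zero_of_pow_six (γ : ↥(Gamma0 p)) (h : γ ^ 6 = 1) :
    psi p (Additive.ofMul γ) = 0 :=
  psi_eq_zero_of_pow_twelve p γ (by rw [show 12 = 6 * 2 from rfl, pow_mul, h, one_pow])

/-- the product of the diagonal entries of `γ ∈ Γ₀(p)` is `1` modulo `p` -/
theorem diag_mul_eq_one (γ : ↥(Gamma0 p)) :
    (((γ : SL(2, ℤ)) 0 0 : ℤ) : ZMod p) * (((γ : SL(2, ℤ)) 1 1 : ℤ) : ZMod p) = 1 := by
  rw [← coe_dHom_inv, ← coe_dHom, ← Units.val_mul, inv_mul_cancel, Units.val_one]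

/-- `ψ` vanishes on elements of trace `2` (parabolic elements) -/
theorem psi_eq_zero_of_trace_eq_two (γ : ↥(Gamma0 p))
    (h : (γ : SL(2, ℤ)) 0 0 + (γ : SL(2, ℤ)) 1 1 = 2) : psi p (Additive.ofMul γ) = 0 := by
  have h1 := diag_mul_eq_one p γ
  have h2 := congrArg (Int.cast : ℤ → ZMod p) h
  push_cast at h2
  have h3 : ((((γ : SL(2, ℤ)) 1 1 : ℤ) : ZMod p) - 1) ^ 2 = 0 := by
    linear_combination (((γ : SL(2, ℤ)) 1 1 : ℤ) : ZMod p) * h2 - h1
  have h4 : (((γ : SL(2, ℤ)) 1 1 : ℤ) : ZMod p) = 1 := by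
    have := pow_eq_zero_iff (two_ne_zero) |>.mp h3
    exact sub_eq_zero.mp this
  have h5 : dHom p γ = 1 := by
    rw [dHom_eq_iff, h4, Units.val_one]
  rw [psi_apply, h5, ofMul_one, map_zero]

/-- `ψ` vanishes on elements of trace `-2` -/
theorem psi_eq_zero_of_trace_eq_neg_two (γ : ↥(Gamma0 p))
    (h : (γ : SL(2, ℤ)) 0 0 + (γ : SL(2, ℤ)) 1 1 = -2) : psi p (Additive.ofMul γ) = 0 := by
  have h1 := diag_mul_eq_one p γ
  have h2 := congrArg (Int.cast : ℤ → ZMod p) h
  push_cast at h2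
  have h3 : ((((γ : SL(2, ℤ)) 1 1 : ℤ) : ZMod p) + 1) ^ 2 = 0 := by
    linear_combination (((γ : SL(2, ℤ)) 1 1 : ℤ) : ZMod p) * h2 - h1
  have h4 : (((γ : SL(2, ℤ)) 1 1 : ℤ) : ZMod p) = -1 := by
    have := pow_eq_zero_iff (two_ne_zero) |>.mp h3
    exact eq_neg_of_add_eq_zero_left this
  have h5 : dHom p γ = -1 := by
    rw [dHom_eq_iff, h4, Units.val_neg, Units.val_one]
  rw [psi_apply, h5]
  exact chi_eq_zero_of_pow_twelve p (-1) (by norm_num)

/-- every unit modulo `p` is `d_γ` for some `γ ∈ Γ₀(p)` -/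
theorem dHom_surjective : Function.Surjective (dHom p) := by
  intro u
  have hp : p.Prime := Fact.out
  have hcop : Nat.Coprime (u : ZMod p).val p := by
    rw [← ZMod.isUnit_iff_coprime, ZMod.natCast_zmod_val]
    exact u.isUnit
  have hcop' : IsCoprime (((u : ZMod p).val : ℕ) : ℤ) (p : ℤ) :=
    Nat.isCoprime_iff_coprime.mpr hcop
  obtain ⟨a, b, hab⟩ := hcop'
  let M : Matrix (Fin 2) (Fin 2) ℤ := !![a, -b; (p : ℤ), (((u : ZMod p).val : ℕ) : ℤ)]
  have hdet : M.det = 1 := by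
    rw [Matrix.det_fin_two_of]
    linear_combination hab
  let g : SL(2, ℤ) := ⟨M, hdet⟩
  have hg : g ∈ Gamma0 p := by
    rw [Gamma0_mem]
    show ((M 1 0 : ℤ) : ZMod p) = 0
    simp [M]
  refine ⟨⟨g, hg⟩, ?_⟩
  rw [dHom_eq_iff]
  show ((M 1 1 : ℤ) : ZMod p) = (u : ZMod p)
  simp [M]

theorem psi_surjective : Function.Surjective (psi p) := by
  intro z
  obtain ⟨a, ha⟩ := chi_surjective p z
  obtain ⟨γ, hγ⟩ := dHom_surjective p (Additive.toMul a)
  refine ⟨Additive.ofMul γ, ?_⟩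
  rw [psi_apply, hγ, ofMul_toMul, ha]

end Prime

end Fermat.Agent.S16.Lower.Shimura
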