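import Fermat.Agent.M2.ES.S23Cond
import Fermat.Agent.S22.HeckeLattice
import Fermat.Agent.S16.Lower.Shimura

/-!
# S16, lower bound, block (L4): the Hecke operators and the Shimura character

For `γ ∈ Γ₀(N)` and a prime `ℓ ∤ N` there are `g'_x ∈ Γ₀(N)` (`x ∈ ℙ¹(𝔽_ℓ)`) with
`lam γ ∘ T_ℓ = ∑ₓ lam (g'_x)` (period functionals of weight 2, `S23Cond.lam`) and
`∏ₓ d(g'_x) = d(γ)^(ℓ+1)` in `(ZMod N)ˣ`.  For a prime `q ∣ N`: `lam γ ∘ U_q = ∑ₓ lam (g'_x)`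
(`x ∈ ZMod q`) with `d(g'_x) = d(γ)` for all `x`.  Consequently, for `N = p` prime,
`∑ₓ ψ(g'_x) = (ℓ+1) ψ(γ)` resp. `= ψ(γ)` for the Shimura character `ψ`.
-/

set_option autoImplicit false

open UpperHalfPlane hiding I
open Matrix.SpecialLinearGroup ModularForm Filter Topology Polynomial Complex
open scoped MatrixGroups ModularForm Manifold OnePoint Real
open Derivative

namespace Fermat.Agent.S16.Lower.HeckePsi

open P2MW.S_ModularForm_heckeT_slash_eq_self_of_mem_Gamma0.ModularForm.HeckeSlashInvariance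
open Fermat.Agent.S22 Fermat.Agent.S22.Hecke Fermat.Agent.M2.ES.S23Cond
open Fermat.Agent.S16.Lower.Shimura

/-! ### `T_ℓ`: the coset identity with prescribed coset data -/

section T

variable {N ℓ : ℕ} [Fact ℓ.Prime]

/-- `heckeT_slash_sub_eq_sum_unif` for prescribed coset data `g'`. -/
theorem heckeT_slash_sub_eq_sum_of (κ : ℤ) (g : SL(2, ℤ)) (g' : OnePoint (ZMod ℓ) → SL(2, ℤ))
    (hmul : ∀ x, heckeRep ℓ x * mapGL ℝ g = mapGL ℝ (g' x) * heckeRep ℓ (redMatrix ℓ g • x))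
    (E : ℍ → ℂ) :
    (heckeT κ ℓ E) ∣[κ] (mapGL ℝ g) - heckeT κ ℓ E =
      ∑ x : OnePoint (ZMod ℓ),
        (E ∣[κ] (mapGL ℝ (g' x)) - E) ∣[κ] heckeRep ℓ (redMatrix ℓ g • x) := by
  have h1 : (heckeT κ ℓ E) ∣[κ] (mapGL ℝ g) =
      ∑ x : OnePoint (ZMod ℓ), (E ∣[κ] (mapGL ℝ (g' x))) ∣[κ] heckeRep ℓ (redMatrix ℓ g • x) := by
    rw [heckeT_eq_sum_onePoint κ E, SlashAction.sum_slash]
    refine Finset.sum_congr rfl fun x _ => ?_
    rw [← SlashAction.slash_mul, hmul x, SlashAction.slash_mul]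
  have h2 : heckeT κ ℓ E = ∑ x : OnePoint (ZMod ℓ), E ∣[κ] heckeRep ℓ (redMatrix ℓ g • x) := by
    rw [heckeT_eq_sum_onePoint κ E]
    exact (Equiv.sum_comp (MulAction.toPerm (redMatrix ℓ g)) (fun x => E ∣[κ] heckeRep ℓ x)).symm
  rw [h1]
  nth_rewrite 1 [h2]
  rw [← Finset.sum_sub_distrib]
  refine Finset.sum_congr rfl fun x _ => ?_
  rw [sub_slash]

end T

section TPeriod

variable (N : ℕ) [NeZero N] (w : ℕ)

local notation "Vw" => CuspForm (CongruenceSubgroup.Gamma0 N) ((w : ℤ) + 2)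

/-- `periodPoly_comp_heckeTLin` for prescribed coset data `g'`. -/
theorem periodPoly_comp_heckeTLin_of {ℓ : ℕ} [hℓ : Fact ℓ.Prime] (hℓN : ¬ ℓ ∣ N)
    (γ : CongruenceSubgroup.Gamma0 N)
    (g' : OnePoint (ZMod ℓ) → CongruenceSubgroup.Gamma0 N)
    (hmul : ∀ x, heckeRep ℓ x * mapGL ℝ (γ : SL(2, ℤ)) =
        mapGL ℝ ((g' x : CongruenceSubgroup.Gamma0 N) : SL(2, ℤ)) *
          heckeRep ℓ (redMatrix ℓ (γ : SL(2, ℤ)) • x)) :
    (periodPoly N w γ) ∘ₗ (CuspForm.heckeTLin ((w : ℤ) + 2) hℓ.out hℓN) =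
      ∑ x : OnePoint (ZMod ℓ),
        (polyAct w (heckeIntMat ℓ (redMatrix ℓ (γ : SL(2, ℤ)) • x))) ∘ₗ
          (periodPoly N w (g' x)) := by
  have hsum := heckeT_slash_sub_eq_sum_of (-(w : ℤ)) (γ : SL(2, ℤ))
    (fun x => ((g' x : CongruenceSubgroup.Gamma0 N) : SL(2, ℤ))) hmul
  ext1 f
  apply polyFun_injective
  rw [LinearMap.comp_apply, polyFun_periodPoly, eichlerFun_heckeTLin, LinearMap.sum_apply,
    polyFun_sum, slash_SL_eq_mapGL, smul_slash_of_det_pos _ (det_mapGL_pos _), ← smul_sub,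
    hsum, Finset.smul_sum]
  refine Finset.sum_congr rfl fun x _ => ?_
  rw [LinearMap.comp_apply, ← polyFun_slash_heckeRep w hℓ.out.ne_zero _
    (natDegree_periodPoly_le N w (g' x) f), polyFun_periodPoly]
  rfl

end TPeriod

/-! ### Weight 2: period functionals -/

section Lam

variable (N : ℕ) [NeZero N]

/-- in weight `2` (`w = 0`) the matrix action on the constant coefficient is trivial -/
theorem coeffFunctional_polyAct_zero {V : Type*} [AddCommGroup V] [Module ℂ V]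
    (M : Matrix (Fin 2) (Fin 2) ℤ) (q : V →ₗ[ℂ] ℂ[X]) :
    coeffFunctional ((polyAct 0 M) ∘ₗ q) 0 = coeffFunctional q 0 := by
  rw [coeffFunctional_polyAct_comp, Finset.sum_range_one]
  simp [basisPoly]

/-- `lam γ ∘ T_ℓ = ∑ₓ lam (g'_x)` for prescribed coset data `g'`. -/
theorem lam_comp_heckeTLin_of {ℓ : ℕ} [hℓ : Fact ℓ.Prime] (hℓN : ¬ ℓ ∣ N)
    (γ : CongruenceSubgroup.Gamma0 N)
    (g' : OnePoint (ZMod ℓ) → CongruenceSubgroup.Gamma0 N)
    (hmul : ∀ x, heckeRep ℓ x * mapGL ℝ (γ : SL(2, ℤ)) =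
        mapGL ℝ ((g' x : CongruenceSubgroup.Gamma0 N) : SL(2, ℤ)) *
          heckeRep ℓ (redMatrix ℓ (γ : SL(2, ℤ)) • x)) :
    (lam N γ).comp (CuspForm.heckeTLin 2 hℓ.out hℓN) =
      ∑ x : OnePoint (ZMod ℓ), lam N (g' x) := by
  have h := periodPoly_comp_heckeTLin_of N 0 hℓN γ g' hmul
  have h1 : (lam N γ).comp (CuspForm.heckeTLin 2 hℓ.out hℓN) =
      coeffFunctional ((periodPoly N 0 γ) ∘ₗ
        (CuspForm.heckeTLin (((0 : ℕ) : ℤ) + 2) hℓ.out hℓN)) 0 := by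
    rw [← coeffFunctional_periodPoly]
    rfl
  rw [h1, h]
  have h2 : coeffFunctional (∑ x : OnePoint (ZMod ℓ),
      (polyAct 0 (heckeIntMat ℓ (redMatrix ℓ (γ : SL(2, ℤ)) • x))) ∘ₗ (periodPoly N 0 (g' x))) 0 =
      ∑ x : OnePoint (ZMod ℓ), coeffFunctional
        ((polyAct 0 (heckeIntMat ℓ (redMatrix ℓ (γ : SL(2, ℤ)) • x))) ∘ₗ
          (periodPoly N 0 (g' x))) 0 := by
    ext f
    simp only [coeffFunctional_apply, LinearMap.sum_apply, Polynomial.finsetSum_coeff]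
  rw [h2]
  refine Finset.sum_congr rfl fun x _ => ?_
  rw [coeffFunctional_polyAct_zero, coeffFunctional_periodPoly]

end Lam

/-! ### The lower right entries of the coset data -/

section Entries

variable {N ℓ : ℕ}

/-- the real matrix of `heckeRep ℓ x` is the cast of the integer matrix `heckeIntMat ℓ x` -/
theorem val_heckeRep_eq_map (hℓ : ℓ ≠ 0) (x : OnePoint (ZMod ℓ)) :
    ((heckeRep ℓ x : GL (Fin 2) ℝ) : Matrix (Fin 2) (Fin 2) ℝ) =
      (heckeIntMat ℓ x).map (Int.castRingHom ℝ) := by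
  induction x using OnePoint.rec with
  | infty =>
    rw [heckeRep_infty, val_heckeDiagMatrix hℓ, heckeIntMat_infty]
    ext i j
    fin_cases i <;> fin_cases j <;> simp
  | coe j =>
    rw [heckeRep_coe, val_heckeMatrix hℓ, heckeIntMat_coe]
    ext i k
    fin_cases i <;> fin_cases k <;> simp

/-- the coset identity over `ℝ` descends to an identity of integer matrices -/
theorem intMat_mul_eq_of_heckeRep_mul (hℓ : ℓ ≠ 0) (g g' : SL(2, ℤ)) (x y : OnePoint (ZMod ℓ))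
    (h : heckeRep ℓ x * mapGL ℝ g = mapGL ℝ g' * heckeRep ℓ y) :
    heckeIntMat ℓ x * (g : Matrix (Fin 2) (Fin 2) ℤ) =
      (g' : Matrix (Fin 2) (Fin 2) ℤ) * heckeIntMat ℓ y := by
  have h1 := congrArg (fun A : GL (Fin 2) ℝ => (A : Matrix (Fin 2) (Fin 2) ℝ)) h
  simp only [Matrix.GeneralLinearGroup.coe_mul, mapGL_coe_matrix, val_heckeRep_eq_map hℓ] at h1
  have h2 : (heckeIntMat ℓ x * (g : Matrix (Fin 2) (Fin 2) ℤ)).map (Int.castRingHom ℝ) =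
      ((g' : Matrix (Fin 2) (Fin 2) ℤ) * heckeIntMat ℓ y).map (Int.castRingHom ℝ) := by
    rw [Matrix.map_mul, Matrix.map_mul]
    exact h1
  exact Matrix.map_injective (Int.cast_injective (α := ℝ)) h2

theorem heckeIntMat_one_zero (x : OnePoint (ZMod ℓ)) : heckeIntMat ℓ x 1 0 = 0 := by
  induction x using OnePoint.rec with
  | infty => simp
  | coe j => simp

/-- the lower right entry of the coset representative, modulo `N` -/
noncomputable def deltaZ (N ℓ : ℕ) (x : OnePoint (ZMod ℓ)) : ZMod N :=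
  ((heckeIntMat ℓ x 1 1 : ℤ) : ZMod N)

theorem deltaZ_infty : deltaZ N ℓ ∞ = 1 := by simp [deltaZ]

theorem deltaZ_coe (j : ZMod ℓ) : deltaZ N ℓ (j : OnePoint (ZMod ℓ)) = (ℓ : ZMod N) := by
  simp [deltaZ]

/-- `δ(x) · d(g) = d(g') · δ(y)` modulo `N` -/
theorem deltaZ_mul_eq (hℓ : ℓ ≠ 0) (g g' : SL(2, ℤ)) (hg' : g' ∈ CongruenceSubgroup.Gamma0 N)
    (x y : OnePoint (ZMod ℓ))
    (h : heckeRep ℓ x * mapGL ℝ g = mapGL ℝ g' * heckeRep ℓ y) :
    deltaZ N ℓ x * ((g 1 1 : ℤ) : ZMod N) = ((g' 1 1 : ℤ) : ZMod N) * deltaZ N ℓ y := by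
  have h1 := intMat_mul_eq_of_heckeRep_mul hℓ g g' x y h
  have h2 := congrFun (congrFun h1 1) 1
  rw [Matrix.mul_apply, Matrix.mul_apply, Fin.sum_univ_two, Fin.sum_univ_two,
    heckeIntMat_one_zero, zero_mul, zero_add] at h2
  have h3 := congrArg (Int.cast : ℤ → ZMod N) h2
  push_cast at h3
  have hc : ((g' 1 0 : ℤ) : ZMod N) = 0 := CongruenceSubgroup.Gamma0_mem.mp hg'
  unfold deltaZ
  rw [h3, hc, zero_mul, zero_add]

theorem isUnit_natCast_of_not_dvd (hℓ : ℓ.Prime) (hℓN : ¬ ℓ ∣ N) : IsUnit ((ℓ : ℕ) : ZMod N) :=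
  (ZMod.isUnit_iff_coprime ℓ N).mpr ((Nat.Prime.coprime_iff_not_dvd hℓ).mpr hℓN)

theorem isUnit_deltaZ (hℓ : ℓ.Prime) (hℓN : ¬ ℓ ∣ N) (x : OnePoint (ZMod ℓ)) :
    IsUnit (deltaZ N ℓ x) := by
  induction x using OnePoint.rec with
  | infty => rw [deltaZ_infty]; exact isUnit_one
  | coe j => rw [deltaZ_coe]; exact isUnit_natCast_of_not_dvd hℓ hℓN

/-- the lower right entry of the coset representative as a unit modulo `N` -/
noncomputable def deltaU (hℓ : ℓ.Prime) (hℓN : ¬ ℓ ∣ N) (x : OnePoint (ZMod ℓ)) : (ZMod N)ˣ :=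
  (isUnit_deltaZ hℓ hℓN x).unit

/-- `δ(x) · d(γ) = d(g') · δ(y)` in `(ZMod N)ˣ` -/
theorem deltaU_mul_eq (hℓ : ℓ.Prime) (hℓN : ¬ ℓ ∣ N) (γ γ' : CongruenceSubgroup.Gamma0 N)
    (x y : OnePoint (ZMod ℓ))
    (h : heckeRep ℓ x * mapGL ℝ (γ : SL(2, ℤ)) = mapGL ℝ (γ' : SL(2, ℤ)) * heckeRep ℓ y) :
    deltaU hℓ hℓN x * dHom N γ = dHom N γ' * deltaU hℓ hℓN y := by
  rw [← Units.val_inj, Units.val_mul, Units.val_mul, coe_dHom, coe_dHom]
  exact deltaZ_mul_eq hℓ.ne_zero (γ : SL(2, ℤ)) (γ' : SL(2, ℤ)) γ'.2 x y h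

/-- **Product formula for `T_ℓ`**: `∏ₓ d(g'_x) = d(γ)^(ℓ+1)` in `(ZMod N)ˣ`. -/
theorem prod_dHom_eq_pow [hℓ : Fact ℓ.Prime] (hℓN : ¬ ℓ ∣ N) (γ : CongruenceSubgroup.Gamma0 N)
    (g' : OnePoint (ZMod ℓ) → CongruenceSubgroup.Gamma0 N)
    (hmul : ∀ x, heckeRep ℓ x * mapGL ℝ (γ : SL(2, ℤ)) =
        mapGL ℝ ((g' x : CongruenceSubgroup.Gamma0 N) : SL(2, ℤ)) *
          heckeRep ℓ (redMatrix ℓ (γ : SL(2, ℤ)) • x)) :
    ∏ x : OnePoint (ZMod ℓ), dHom N (g' x) = dHom N γ ^ (ℓ + 1) := by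
  have h1 : ∀ x : OnePoint (ZMod ℓ), deltaU hℓ.out hℓN x * dHom N γ =
      dHom N (g' x) * deltaU hℓ.out hℓN (redMatrix ℓ (γ : SL(2, ℤ)) • x) :=
    fun x => deltaU_mul_eq hℓ.out hℓN γ (g' x) x _ (hmul x)
  have h2 : ∏ x : OnePoint (ZMod ℓ), (deltaU hℓ.out hℓN x * dHom N γ) =
      ∏ x : OnePoint (ZMod ℓ),
        (dHom N (g' x) * deltaU hℓ.out hℓN (redMatrix ℓ (γ : SL(2, ℤ)) • x)) :=
    Finset.prod_congr rfl fun x _ => h1 x
  rw [Finset.prod_mul_distrib, Finset.prod_mul_distrib, Finset.prod_const] at h2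
  have h3 : ∏ x : OnePoint (ZMod ℓ), deltaU hℓ.out hℓN (redMatrix ℓ (γ : SL(2, ℤ)) • x) =
      ∏ x : OnePoint (ZMod ℓ), deltaU hℓ.out hℓN x :=
    Equiv.prod_comp (MulAction.toPerm (redMatrix ℓ (γ : SL(2, ℤ))))
      (fun x => deltaU hℓ.out hℓN x)
  rw [h3] at h2
  have hcard : (Finset.univ : Finset (OnePoint (ZMod ℓ))).card = ℓ + 1 := by
    rw [Finset.card_univ]
    show Fintype.card (Option (ZMod ℓ)) = ℓ + 1
    rw [Fintype.card_option, ZMod.card]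
  rw [hcard, mul_comm] at h2
  exact (mul_right_cancel h2).symm

end Entries

/-! ### `T_ℓ`: existence of coset data with the product formula -/

section TExists

variable (N : ℕ) [NeZero N]

/-- **`T_ℓ` and the period functionals**: for `γ ∈ Γ₀(N)`, `ℓ ∤ N` prime, there are
`g'_x ∈ Γ₀(N)` with `lam γ ∘ T_ℓ = ∑ₓ lam (g'_x)` and `∏ₓ d(g'_x) = d(γ)^(ℓ+1)`. -/
theorem exists_lam_comp_heckeT {ℓ : ℕ} [hℓ : Fact ℓ.Prime] (hℓN : ¬ ℓ ∣ N)
    (γ : CongruenceSubgroup.Gamma0 N) :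
    ∃ g' : OnePoint (ZMod ℓ) → CongruenceSubgroup.Gamma0 N,
      (lam N γ).comp (CuspForm.heckeTLin 2 hℓ.out hℓN) = ∑ x : OnePoint (ZMod ℓ), lam N (g' x) ∧
      ∏ x : OnePoint (ZMod ℓ), dHom N (g' x) = dHom N γ ^ (ℓ + 1) := by
  have hcN : (N : ℤ) ∣ (γ : SL(2, ℤ)) 1 0 :=
    (ZMod.intCast_zmod_eq_zero_iff_dvd _ _).mp (CongruenceSubgroup.Gamma0_mem.mp γ.2)
  choose g' hg'N hmul using fun x => heckeRep_mul hℓN (γ : SL(2, ℤ)) hcN x
  let g'' : OnePoint (ZMod ℓ) → CongruenceSubgroup.Gamma0 N := fun x =>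
    ⟨g' x, CongruenceSubgroup.Gamma0_mem.mpr
      ((ZMod.intCast_zmod_eq_zero_iff_dvd _ _).mpr (hg'N x))⟩
  exact ⟨g'', lam_comp_heckeTLin_of N hℓN γ g'' hmul, prod_dHom_eq_pow hℓN γ g'' hmul⟩

end TExists

/-! ### `U_q`, `q ∣ N` -/

section U

variable {N q : ℕ} [NeZero q]

/-- `heckeU_slash_sub_eq_sum_unif` for prescribed coset data `g'`. -/
theorem heckeU_slash_sub_eq_sum_of (κ : ℤ) (g : SL(2, ℤ)) (hc : ((g 1 0 : ℤ) : ZMod q) = 0)
    (g' : ZMod q → SL(2, ℤ))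
    (hmul : ∀ x : ZMod q, heckeMatrix q x.val * mapGL ℝ g =
      mapGL ℝ (g' x) * heckeMatrix q (affinePerm g hc x).val)
    (E : ℍ → ℂ) :
    (heckeU κ q E) ∣[κ] (mapGL ℝ g) - heckeU κ q E =
      ∑ x : ZMod q, (E ∣[κ] (mapGL ℝ (g' x)) - E) ∣[κ] heckeMatrix q (affinePerm g hc x).val := by
  have h1 : (heckeU κ q E) ∣[κ] (mapGL ℝ g) =
      ∑ x : ZMod q, (E ∣[κ] (mapGL ℝ (g' x))) ∣[κ] heckeMatrix q (affinePerm g hc x).val := by
    rw [heckeU_eq_sum_zmod κ E, SlashAction.sum_slash]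
    refine Finset.sum_congr rfl fun x _ => ?_
    rw [← SlashAction.slash_mul, hmul x, SlashAction.slash_mul]
  have h2 : heckeU κ q E = ∑ x : ZMod q, E ∣[κ] heckeMatrix q (affinePerm g hc x).val := by
    rw [heckeU_eq_sum_zmod κ E]
    exact (Equiv.sum_comp (affinePerm g hc) (fun x => E ∣[κ] heckeMatrix q x.val)).symm
  rw [h1]
  nth_rewrite 1 [h2]
  rw [← Finset.sum_sub_distrib]
  refine Finset.sum_congr rfl fun x _ => ?_
  rw [sub_slash]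

end U

section UPeriod

variable (N : ℕ) [NeZero N] (w : ℕ)

local notation "Vw" => CuspForm (CongruenceSubgroup.Gamma0 N) ((w : ℤ) + 2)

/-- `periodPoly_comp_heckeULin` for prescribed coset data `g'`. -/
theorem periodPoly_comp_heckeULin_of {q : ℕ} [NeZero q] (hq : q.Prime) (hqN : q ∣ N)
    (γ : CongruenceSubgroup.Gamma0 N) (hc : (((γ : SL(2, ℤ)) 1 0 : ℤ) : ZMod q) = 0)
    (g' : ZMod q → CongruenceSubgroup.Gamma0 N)
    (hmul : ∀ x : ZMod q, heckeMatrix q x.val * mapGL ℝ (γ : SL(2, ℤ)) =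
      mapGL ℝ ((g' x : CongruenceSubgroup.Gamma0 N) : SL(2, ℤ)) *
        heckeMatrix q (affinePerm (γ : SL(2, ℤ)) hc x).val) :
    (periodPoly N w γ) ∘ₗ (CuspForm.heckeULin ((w : ℤ) + 2) hqN) =
      ∑ x : ZMod q,
        (polyAct w !![1, ((affinePerm (γ : SL(2, ℤ)) hc x).val : ℤ); 0, (q : ℤ)]) ∘ₗ
          (periodPoly N w (g' x)) := by
  have hsum := heckeU_slash_sub_eq_sum_of (-(w : ℤ)) (γ : SL(2, ℤ)) hc
    (fun x => ((g' x : CongruenceSubgroup.Gamma0 N) : SL(2, ℤ))) hmul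
  ext1 f
  apply polyFun_injective
  rw [LinearMap.comp_apply, polyFun_periodPoly, eichlerFun_heckeULin N w hq, LinearMap.sum_apply,
    polyFun_sum, slash_SL_eq_mapGL, smul_slash_of_det_pos _ (det_mapGL_pos _), ← smul_sub,
    hsum, Finset.smul_sum]
  refine Finset.sum_congr rfl fun x _ => ?_
  rw [LinearMap.comp_apply, ← polyFun_slash_heckeMatrix w hq.ne_zero _
    (natDegree_periodPoly_le N w (g' x) f), polyFun_periodPoly]
  rfl

end UPeriod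

section ULam

variable (N : ℕ) [NeZero N]

/-- `lam γ ∘ U_q = ∑ₓ lam (g'_x)` for prescribed coset data `g'`. -/
theorem lam_comp_heckeULin_of {q : ℕ} [NeZero q] (hq : q.Prime) (hqN : q ∣ N)
    (γ : CongruenceSubgroup.Gamma0 N) (hc : (((γ : SL(2, ℤ)) 1 0 : ℤ) : ZMod q) = 0)
    (g' : ZMod q → CongruenceSubgroup.Gamma0 N)
    (hmul : ∀ x : ZMod q, heckeMatrix q x.val * mapGL ℝ (γ : SL(2, ℤ)) =
      mapGL ℝ ((g' x : CongruenceSubgroup.Gamma0 N) : SL(2, ℤ)) *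
        heckeMatrix q (affinePerm (γ : SL(2, ℤ)) hc x).val) :
    (lam N γ).comp (CuspForm.heckeULin 2 hqN) = ∑ x : ZMod q, lam N (g' x) := by
  have h := periodPoly_comp_heckeULin_of N 0 hq hqN γ hc g' hmul
  have h1 : (lam N γ).comp (CuspForm.heckeULin 2 hqN) =
      coeffFunctional ((periodPoly N 0 γ) ∘ₗ
        (CuspForm.heckeULin (((0 : ℕ) : ℤ) + 2) hqN)) 0 := by
    rw [← coeffFunctional_periodPoly]
    rfl
  rw [h1, h]
  have h2 : coeffFunctional (∑ x : ZMod q,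
      (polyAct 0 !![1, ((affinePerm (γ : SL(2, ℤ)) hc x).val : ℤ); 0, (q : ℤ)]) ∘ₗ
        (periodPoly N 0 (g' x))) 0 =
      ∑ x : ZMod q, coeffFunctional
        ((polyAct 0 !![1, ((affinePerm (γ : SL(2, ℤ)) hc x).val : ℤ); 0, (q : ℤ)]) ∘ₗ
          (periodPoly N 0 (g' x))) 0 := by
    ext f
    simp only [coeffFunctional_apply, LinearMap.sum_apply, Polynomial.finsetSum_coeff]
  rw [h2]
  refine Finset.sum_congr rfl fun x _ => ?_
  rw [coeffFunctional_polyAct_zero, coeffFunctional_periodPoly]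

omit [NeZero N] in
/-- for the `U_q` coset data the upper left entry is unchanged modulo `N` -/
theorem dHom_eq_of_heckeMatrix_mul {q : ℕ} (hq : q ≠ 0) (γ γ' : CongruenceSubgroup.Gamma0 N)
    (x y : ZMod q)
    (h : heckeMatrix q x.val * mapGL ℝ (γ : SL(2, ℤ)) =
      mapGL ℝ (γ' : SL(2, ℤ)) * heckeMatrix q y.val) :
    dHom N γ' = dHom N γ := by
  have h1 := intMat_mul_eq_of_heckeRep_mul hq (γ : SL(2, ℤ)) (γ' : SL(2, ℤ))
    (x : OnePoint (ZMod q)) (y : OnePoint (ZMod q)) h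
  have h2 := congrFun (congrFun h1 0) 0
  rw [Matrix.mul_apply, Matrix.mul_apply, Fin.sum_univ_two, Fin.sum_univ_two,
    heckeIntMat_coe, heckeIntMat_coe] at h2
  simp only [Matrix.of_apply, Matrix.cons_val_zero, Matrix.cons_val_one, Matrix.cons_val',
    Matrix.cons_val_fin_one, one_mul, mul_one, mul_zero, add_zero] at h2
  have h3 := congrArg (Int.cast : ℤ → ZMod N) h2
  push_cast at h3
  have hc : (((γ : SL(2, ℤ)) 1 0 : ℤ) : ZMod N) = 0 := CongruenceSubgroup.Gamma0_mem.mp γ.2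
  rw [hc, mul_zero, add_zero] at h3
  have h4 : ((dHom N γ')⁻¹ : (ZMod N)ˣ) = (dHom N γ)⁻¹ := by
    rw [← Units.val_inj, coe_dHom_inv, coe_dHom_inv]
    exact h3.symm
  exact inv_injective h4

/-- **`U_q` and the period functionals**: for `γ ∈ Γ₀(N)`, `q ∣ N` prime, there are
`g'_x ∈ Γ₀(N)` (`x ∈ ZMod q`) with `lam γ ∘ U_q = ∑ₓ lam (g'_x)` and `d(g'_x) = d(γ)`. -/
theorem exists_lam_comp_heckeU {q : ℕ} (hq : q.Prime) (hqN : q ∣ N)
    (γ : CongruenceSubgroup.Gamma0 N) :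
    haveI : NeZero q := ⟨hq.ne_zero⟩
    ∃ g' : ZMod q → CongruenceSubgroup.Gamma0 N,
      (lam N γ).comp (CuspForm.heckeULin 2 hqN) = ∑ x : ZMod q, lam N (g' x) ∧
      ∀ x, dHom N (g' x) = dHom N γ := by
  have : NeZero q := ⟨hq.ne_zero⟩
  have hcN : (N : ℤ) ∣ (γ : SL(2, ℤ)) 1 0 :=
    (ZMod.intCast_zmod_eq_zero_iff_dvd _ _).mp (CongruenceSubgroup.Gamma0_mem.mp γ.2)
  have hc : (q : ℤ) ∣ (γ : SL(2, ℤ)) 1 0 := (Int.natCast_dvd_natCast.mpr hqN).trans hcN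
  have hc0 : (((γ : SL(2, ℤ)) 1 0 : ℤ) : ZMod q) = 0 :=
    (ZMod.intCast_zmod_eq_zero_iff_dvd _ _).mpr hc
  choose g' hg' hmul using fun x => heckeMatrix_mul_of_dvd (γ : SL(2, ℤ)) hc x
  have hg'N : ∀ x, g' x ∈ CongruenceSubgroup.Gamma0 N := fun x => by
    rw [CongruenceSubgroup.Gamma0_mem, hg' x]
    push_cast
    rw [CongruenceSubgroup.Gamma0_mem.mp γ.2, mul_zero]
  let g'' : ZMod q → CongruenceSubgroup.Gamma0 N := fun x => ⟨g' x, hg'N x⟩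
  refine ⟨g'', lam_comp_heckeULin_of N hq hqN γ hc0 g'' hmul, fun x => ?_⟩
  exact dHom_eq_of_heckeMatrix_mul N hq.ne_zero γ (g'' x) x _ (hmul x)

end ULam

/-! ### Prime level: the Shimura character -/

section Psi

open ModularCurve

variable (p : ℕ) [Fact p.Prime]

/-- **`T_ℓ ψ = (ℓ + 1) ψ`** on period functionals: `lam γ ∘ T_ℓ = ∑ₓ lam (g'_x)` with
`∑ₓ ψ(g'_x) = (ℓ+1) • ψ(γ)`. -/
theorem exists_lam_comp_heckeT_psi {ℓ : ℕ} [hℓ : Fact ℓ.Prime] (hℓp : ¬ ℓ ∣ p)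
    (γ : CongruenceSubgroup.Gamma0 p) :
    ∃ g' : OnePoint (ZMod ℓ) → CongruenceSubgroup.Gamma0 p,
      (lam p γ).comp (CuspForm.heckeTLin 2 hℓ.out hℓp) = ∑ x : OnePoint (ZMod ℓ), lam p (g' x) ∧
      ∑ x : OnePoint (ZMod ℓ), psi p (Additive.ofMul (g' x)) =
        (ℓ + 1) • psi p (Additive.ofMul γ) := by
  obtain ⟨g', h1, h2⟩ := exists_lam_comp_heckeT p hℓp γ
  refine ⟨g', h1, ?_⟩
  simp only [psi_apply]
  rw [← map_sum, ← ofMul_prod, h2, ofMul_pow, map_nsmul]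

/-- `p ≡ 1` modulo `eisensteinNumerator p` -/
theorem natCast_self_eq_one : ((p : ℕ) : ZMod (eisensteinNumerator p)) = 1 := by
  have hp : 1 ≤ p := (Fact.out : p.Prime).one_lt.le
  have h : ((p - 1 : ℕ) : ZMod (eisensteinNumerator p)) = 0 :=
    (ZMod.natCast_eq_zero_iff _ _).mpr (eisensteinNumerator_dvd p)
  have h2 : p = (p - 1) + 1 := by omega
  have h3 := congrArg (Nat.cast : ℕ → ZMod (eisensteinNumerator p)) h2
  rw [Nat.cast_add, h, zero_add, Nat.cast_one] at h3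
  exact h3

/-- **`U_p ψ = ψ`** on period functionals: `lam γ ∘ U_p = ∑ₓ lam (g'_x)` with
`∑ₓ ψ(g'_x) = ψ(γ)`. -/
theorem exists_lam_comp_heckeU_psi (γ : CongruenceSubgroup.Gamma0 p) :
    ∃ g' : ZMod p → CongruenceSubgroup.Gamma0 p,
      (lam p γ).comp (CuspForm.heckeULin 2 (dvd_refl p)) = ∑ x : ZMod p, lam p (g' x) ∧
      ∑ x : ZMod p, psi p (Additive.ofMul (g' x)) = psi p (Additive.ofMul γ) := by
  obtain ⟨g', h1, h2⟩ := exists_lam_comp_heckeU p (Fact.out : p.Prime) (dvd_refl p) γ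
  refine ⟨g', h1, ?_⟩
  have h3 : ∀ x : ZMod p, psi p (Additive.ofMul (g' x)) = psi p (Additive.ofMul γ) :=
    fun x => psi_eq_of_dHom_eq p (h2 x)
  rw [Finset.sum_congr rfl fun x _ => h3 x, Finset.sum_const, Finset.card_univ, ZMod.card,
    nsmul_eq_mul, natCast_self_eq_one, one_mul]

end Psi

end Fermat.Agent.S16.Lower.HeckePsi
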