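/-
S16, lower bound [A], node (A5a) (helper25): the cohomological bound of `M2/ES/CohomBound`
over an ARBITRARY field.

`CohomBound.finrank_add_orbCount_le` needs `CharZero K` only to show that the Shapiro cocycle of a
homomorphism takes values in `range (L g - 1)` at `g = S, U` (finite order: divide by the order) and
at `g = T` (divide by a period).  Here we derive the same membership, over any field, from the
hypothesis that the homomorphism kills the conjugates of ALL powers of `g` lying in `Γ`
(`mem_range_of_period_sums`: a function whose sums over all periods vanish is a coboundary for the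
cyclic group generated by `g`).  The dimension count is then verbatim the same.
-/
import Mathlib
import Fermat.Agent.M2.ES.CohomBound

set_option autoImplicit false
set_option linter.unusedSectionVars false
set_option linter.style.longLine false
set_option linter.style.haveILetI false

noncomputable section

namespace Fermat.Agent.S16.Lower.CohomBoundGen

open Module Fermat.Agent.M2.ES Fermat.Agent.M2.ES.CohomBound

/-! ### Period sums -/

section PeriodSums

variable {G : Type*} [Group G] {X : Type*} [MulAction G X] (K : Type*) [Field K]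

/-- **Characteristic-free coboundary criterion for a cyclic group acting on a finite set**: if the
sums of `f` over all "periods" `x, g x, …, g^(r-1) x` (`g ^ r • x = x`) vanish then
`f = (L g - 1) v` for some `v`. -/
theorem mem_range_of_period_sums [Finite X] (g : G) (f : X → K)
    (h : ∀ (x : X) (r : ℕ), 0 < r → g ^ r • x = x →
      ∑ i ∈ Finset.range r, f (g ^ i • x) = 0) :
    f ∈ LinearMap.range (L (X := X) K g - 1) := by
  classical
  obtain ⟨n, hn, hfix⟩ : ∃ n : ℕ, 0 < n ∧ ∀ x : X, g ^ n • x = x := by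
    haveI : Finite (Equiv.Perm X) := inferInstance
    refine ⟨orderOf (MulAction.toPermHom G X g), orderOf_pos _, fun x => ?_⟩
    have h := pow_orderOf_eq_one (MulAction.toPermHom G X g)
    rw [← map_pow] at h
    have := congrArg (fun σ : Equiv.Perm X => σ x) h
    simpa using this
  -- partial sums along the forward orbit of `b`
  let F : X → ℕ → K := fun b m => ∑ i ∈ Finset.range m, f (g ^ i • b)
  have key : ∀ (b : X) (m d : ℕ), g ^ (m + d) • b = g ^ m • b → F b (m + d) = F b m := by
    intro b m d hd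
    rcases Nat.eq_zero_or_pos d with rfl | hd0
    · rfl
    have h1 : g ^ d • (g ^ m • b) = g ^ m • b := by
      rw [← mul_smul, ← pow_add, add_comm]; exact hd
    have h2 := h (g ^ m • b) d hd0 h1
    change ∑ i ∈ Finset.range (m + d), f (g ^ i • b) = ∑ i ∈ Finset.range m, f (g ^ i • b)
    rw [Finset.sum_range_add, add_eq_left, ← h2]
    refine Finset.sum_congr rfl fun i _ => ?_
    rw [← mul_smul, ← pow_add, add_comm]
  have hF : ∀ (b : X) (m m' : ℕ), g ^ m • b = g ^ m' • b → F b m = F b m' := by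
    intro b m m' hmm
    rcases le_total m m' with hle | hle
    · obtain ⟨d, rfl⟩ := Nat.exists_eq_add_of_le hle
      exact (key b m d hmm.symm).symm
    · obtain ⟨d, rfl⟩ := Nat.exists_eq_add_of_le hle
      exact key b m' d hmm
  -- base points of the orbits
  let b : X → X := fun x =>
    (Quotient.mk'' x : MulAction.orbitRel.Quotient (Subgroup.zpowers g) X).out
  have hzp : ∀ (z : ℤ) (y : X), ∃ k : ℕ, g ^ k • y = g ^ z • y := by
    intro z y
    refine ⟨(z % (n : ℤ)).toNat, ?_⟩
    have hn' : (0 : ℤ) < (n : ℤ) := by exact_mod_cast hn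
    have h1 : ((z % (n : ℤ)).toNat : ℤ) = z % (n : ℤ) :=
      Int.toNat_of_nonneg (Int.emod_nonneg z hn'.ne')
    have h2 : z = (z % (n : ℤ)).toNat + (n : ℤ) * (z / (n : ℤ)) := by
      rw [h1]; exact (Int.emod_add_mul_ediv z n).symm
    have h3 : ∀ (w : ℤ) (y : X), (g ^ n) ^ w • y = y := by
      intro w y
      induction w using Int.induction_on with
      | zero => simp
      | succ i ih => rw [zpow_add_one, mul_smul, hfix, ih]
      | pred i ih =>
        rw [zpow_sub_one, mul_smul]
        have : (g ^ n)⁻¹ • y = y := by rw [inv_smul_eq_iff, hfix]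
        rw [this, ih]
    have h4 : g ^ z = g ^ (z % (n : ℤ)).toNat * (g ^ n) ^ (z / (n : ℤ)) := by
      conv_lhs => rw [h2]
      rw [zpow_add, zpow_mul, zpow_natCast, zpow_natCast]
    rw [h4, mul_smul, h3]
  have hb : ∀ x, ∃ k : ℕ, g ^ k • b x = x := by
    intro x
    have h1 : (Quotient.mk'' (b x) : MulAction.orbitRel.Quotient (Subgroup.zpowers g) X)
        = Quotient.mk'' x := Quotient.out_eq' _
    have h2 : (MulAction.orbitRel (Subgroup.zpowers g) X) (b x) x := Quotient.exact' h1
    rw [MulAction.orbitRel_apply] at h2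
    obtain ⟨⟨a, ha⟩, hax⟩ := h2
    obtain ⟨z, rfl⟩ := Subgroup.mem_zpowers_iff.mp ha
    -- `g ^ z • x = b x`, so `x = g ^ (-z) • b x`
    have h3 : x = g ^ (-z) • b x := by
      rw [zpow_neg, eq_inv_smul_iff]; exact hax
    obtain ⟨k, hk⟩ := hzp (-z) (b x)
    exact ⟨k, by rw [hk, ← h3]⟩
  have hbg : ∀ x, b (g • x) = b x := by
    intro x
    have : (Quotient.mk'' (g • x) : MulAction.orbitRel.Quotient (Subgroup.zpowers g) X)
        = Quotient.mk'' x := by
      apply Quotient.sound'
      exact ⟨⟨g, Subgroup.mem_zpowers g⟩, rfl⟩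
    change (Quotient.mk'' (g • x) : MulAction.orbitRel.Quotient (Subgroup.zpowers g) X).out = _
    rw [this]
  let k : X → ℕ := fun x => Nat.find (hb x)
  have hk : ∀ x, g ^ k x • b x = x := fun x => Nat.find_spec (hb x)
  refine ⟨fun x => F (b x) (k x), ?_⟩
  funext x
  simp only [LinearMap.sub_apply, CohomBound.L_apply, Module.End.one_apply, Pi.sub_apply]
  rw [hbg x]
  have h1 : g ^ (k (g • x)) • b x = g ^ (k x + 1) • b x := by
    have h2 := hk (g • x)
    rw [hbg] at h2
    rw [h2, pow_succ', mul_smul, hk x]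
  rw [hF _ _ _ h1]
  change ∑ i ∈ Finset.range (k x + 1), f (g ^ i • b x) - ∑ i ∈ Finset.range (k x), f (g ^ i • b x)
    = f x
  rw [Finset.sum_range_succ, add_sub_cancel_left, hk x]

variable {K}

/-- A cocycle which vanishes at `(g ^ r, x)` whenever `g ^ r` fixes `x` takes a value in
`range (L g - 1)` at `g` (no hypothesis on the characteristic). -/
theorem IsCocycle.mem_range_of_fixed [Finite X] {c : G → X → K} (hc : IsCocycle K c) (g : G)
    (h : ∀ (x : X) (r : ℕ), 0 < r → g ^ r • x = x → c (g ^ r) x = 0) :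
    c g ∈ LinearMap.range (L (X := X) K g - 1) := by
  apply mem_range_of_period_sums
  intro x r hr hx
  have h1 := h x r hr hx
  rw [hc.map_pow, LinearMap.sum_apply, Finset.sum_apply] at h1
  rw [← h1]
  refine Finset.sum_congr rfl fun i _ => ?_
  rw [← L_pow, CohomBound.L_apply]

end PeriodSums

/-! ### The Shapiro cocycle at an element all of whose conjugate powers are killed -/

section Main

variable {G : Type*} [Group G] {X : Type*} [MulAction G X] [MulAction.IsPretransitive G X]
  (K : Type*) [Field K] (x0 : X) (Γ : Subgroup G) (hΓ : ∀ g, g ∈ Γ ↔ g • x0 = x0)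

theorem psi_mem_range_of_killed [Finite X] (g : G) (p : (Additive Γ →+ K) × (X → K))
    (hp : ∀ γ : Γ, (∃ (a : G) (n : ℕ), (γ : G) = a⁻¹ * g ^ n * a) → p.1 (Additive.ofMul γ) = 0) :
    psi K x0 Γ hΓ g p ∈ LinearMap.range (L (X := X) K g - 1) := by
  refine IsCocycle.mem_range_of_fixed (psi_isCocycle K x0 Γ hΓ p) g ?_
  intro x r _ hx
  rw [psi_apply]
  simp only [Pi.add_apply, LinearMap.sub_apply, CohomBound.L_apply, Module.End.one_apply,
    Pi.sub_apply, hx, sub_self, add_zero, coc_apply]
  apply hp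
  exact ⟨rep G x0 x, r, rfl⟩

end Main

/-! ### The abstract bound over an arbitrary field -/

section Abstract

variable {G : Type*} [Group G] {X : Type*} [Finite X] [MulAction G X]
  [MulAction.IsPretransitive G X]
  (K : Type*) [Field K] (x0 : X) (Γ : Subgroup G) (hΓ : ∀ g, g ∈ Γ ↔ g • x0 = x0)
  (S U T : G)
  (P : Submodule K (Additive Γ →+ K))
  (hPS : ∀ φ ∈ P, ∀ γ : Γ, (∃ (g : G) (n : ℕ), (γ : G) = g⁻¹ * S ^ n * g) →
    φ (Additive.ofMul γ) = 0)
  (hPU : ∀ φ ∈ P, ∀ γ : Γ, (∃ (g : G) (n : ℕ), (γ : G) = g⁻¹ * U ^ n * g) →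
    φ (Additive.ofMul γ) = 0)
  (hPT : ∀ φ ∈ P, ∀ γ : Γ, (∃ (g : G) (n : ℕ), (γ : G) = g⁻¹ * T ^ n * g) →
    φ (Additive.ofMul γ) = 0)

/-- inclusion of the domain `P × V0` into pairs -/
def inclG : (↥P × ↥(V0 K x0)) →ₗ[K] (Additive Γ →+ K) × (X → K) :=
  P.subtype.prodMap (V0 K x0).subtype

/-- the comparison map `(φ, v) ↦ (ψ_S, ψ_U, ψ_T)` -/
def ThetaG : (↥P × ↥(V0 K x0)) →ₗ[K] Tgt (X := X) K S U T :=
  (LinearMap.codRestrict _ (psi K x0 Γ hΓ S ∘ₗ inclG K x0 Γ P)
      (fun d => psi_mem_range_of_killed K x0 Γ hΓ S _ (hPS _ d.1.2))).prod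
    ((LinearMap.codRestrict _ (psi K x0 Γ hΓ U ∘ₗ inclG K x0 Γ P)
      (fun d => psi_mem_range_of_killed K x0 Γ hΓ U _ (hPU _ d.1.2))).prod
    (LinearMap.codRestrict _ (psi K x0 Γ hΓ T ∘ₗ inclG K x0 Γ P)
      (fun d => psi_mem_range_of_killed K x0 Γ hΓ T _ (hPT _ d.1.2))))

theorem ThetaG_injective (hgen : Subgroup.closure {S, U} = ⊤) :
    Function.Injective (ThetaG K x0 Γ hΓ S U T P hPS hPU hPT) := by
  rw [injective_iff_map_eq_zero]
  intro d hd
  have h1 : psi K x0 Γ hΓ S (inclG K x0 Γ P d) = 0 := by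
    have := congrArg (fun m : Tgt (X := X) K S U T => (m.1 : X → K)) hd
    exact this
  have h2 : psi K x0 Γ hΓ U (inclG K x0 Γ P d) = 0 := by
    have := congrArg (fun m : Tgt (X := X) K S U T => (m.2.1 : X → K)) hd
    exact this
  obtain ⟨h3, h4⟩ := eq_zero_of_psi_eq_zero K x0 Γ hΓ hgen _ h1 h2
  have h5 : (d.2 : X → K) x0 = 0 := (mem_V0 K x0).mp d.2.2
  apply Prod.ext
  · apply Subtype.ext
    exact h3
  · apply Subtype.ext
    funext x
    have := h4 x
    simp only [inclG, LinearMap.prodMap_apply, Submodule.subtype_apply] at this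
    rw [this, h5]
    rfl

theorem bigPi_ThetaG (hT : T = S⁻¹ * U) (d : ↥P × ↥(V0 K x0)) :
    bigPi K S U T (ThetaG K x0 Γ hΓ S U T P hPS hPU hPT d) = 0 := by
  have hc := psi_isCocycle K x0 Γ hΓ (inclG K x0 Γ P d)
  have := hc.map_inv_mul S U
  rw [← hT] at this
  rw [bigPi_apply]
  change psi K x0 Γ hΓ U (inclG K x0 Γ P d) - L K T (psi K x0 Γ hΓ S (inclG K x0 Γ P d))
    - psi K x0 Γ hΓ T (inclG K x0 Γ P d) = 0
  rw [this]
  abel

include x0 hΓ hPS hPU hPT in
/-- **The abstract bound, over any field.** -/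
theorem finrank_add_orbCount_le_gen (hgen : Subgroup.closure {S, U} = ⊤) (hT : T = S⁻¹ * U) :
    Module.Finite K P ∧
      finrank K P + orbCount X S + orbCount X U + orbCount X T ≤ Nat.card X + 2 := by
  classical
  haveI : Fintype X := Fintype.ofFinite _
  haveI : Nonempty X := ⟨x0⟩
  have hinj := ThetaG_injective K x0 Γ hΓ S U T P hPS hPU hPT hgen
  haveI : Module.Finite K (↥P × ↥(V0 K x0)) := Module.Finite.of_injective _ hinj
  haveI : Module.Finite K P :=
    Module.Finite.of_surjective (LinearMap.fst K ↥P ↥(V0 K x0)) LinearMap.fst_surjective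
  refine ⟨inferInstance, ?_⟩
  haveI : Module.Free K P := Module.Free.of_divisionRing K P
  have h1 : LinearMap.range (ThetaG K x0 Γ hΓ S U T P hPS hPU hPT) ≤
      LinearMap.ker (bigPi (X := X) K S U T) := by
    rintro _ ⟨d, rfl⟩
    exact bigPi_ThetaG K x0 Γ hΓ S U T P hPS hPU hPT hT d
  have h2 := Submodule.finrank_mono h1
  rw [LinearMap.finrank_range_of_inj hinj, Module.finrank_prod] at h2
  have h3 := LinearMap.finrank_range_add_finrank_ker (bigPi (X := X) K S U T)
  have h4 := Submodule.finrank_mono (ker_sumL_le_range_bigPi (G := G) (X := X) K S U T hgen hT)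
  have h5 := finrank_ker_sumL (X := X) K
  have h6 := finrank_V0 K x0
  have h7 := finrank_Tgt (X := X) K S U T
  have h8 : 0 < Nat.card X := Nat.card_pos
  omega

end Abstract

end Fermat.Agent.S16.Lower.CohomBoundGen

end
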