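/-
S16, lower bound [A], node (A5b) (helper25): abstract lifting of homomorphisms `X →+ ZMod n`
killing a set `S` to integral homomorphisms killing `S`.

* `exists_lift_of_prime`: if every "additive map modulo `ℓ`" killing `S` modulo `ℓ` is congruent
  to an integral homomorphism killing `S`, for every prime `ℓ`, then the same holds modulo every
  `n ≥ 1` (dévissage `f = λ₁ + ℓ f'`, pure integer arithmetic — no `ZMod (ℓ * m)` bookkeeping).
* `redHom_surjective_of_finrank_le`: reduction mod `ℓ` of the lattice `Λ = killing X S ℤ ℤ` is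
  ONTO `killing X S (ZMod ℓ) (ZMod ℓ)` as soon as the latter has dimension `≤ rank Λ`
  (`Λ / ℓ Λ` injects, `HomLattice.redHom_eq_zero`).
* `exists_lift_zmod`: the two together, in `ZMod n` form.
-/
import Mathlib
import Fermat.Agent.N4F.Tors.HomLattice

set_option autoImplicit false
set_option linter.unusedSectionVars false
set_option linter.style.longLine false

noncomputable section

namespace Fermat.Agent.S16.Lower.LiftAbstract

open Module Fermat.Agent.N4F.Tors.HomLattice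

variable {X : Type*} [AddGroup X] (S : Set X)

/-! ### Additive maps modulo `n` -/

/-- `f : X → ℤ` is additive modulo `n` and kills `S` modulo `n`. -/
def QuasiHom (n : ℕ) (f : X → ℤ) : Prop :=
  (∀ x y, (n : ℤ) ∣ f (x + y) - f x - f y) ∧ ∀ s ∈ S, (n : ℤ) ∣ f s

/-- **Dévissage.** -/
theorem exists_lift_of_prime
    (hprime : ∀ ℓ : ℕ, ℓ.Prime → ∀ f : X → ℤ, QuasiHom S ℓ f →
      ∃ lam : killing X S ℤ ℤ, ∀ x, (ℓ : ℤ) ∣ f x - (lam : X →+ ℤ) x) :
    ∀ n : ℕ, 0 < n → ∀ f : X → ℤ, QuasiHom S n f →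
      ∃ lam : killing X S ℤ ℤ, ∀ x, (n : ℤ) ∣ f x - (lam : X →+ ℤ) x := by
  intro n
  induction n using Nat.strong_induction_on with
  | _ n ih =>
    intro hn f hf
    rcases Nat.lt_or_ge 1 n with h1 | h1
    · -- `n = ℓ * m`
      have hn1 : n ≠ 1 := h1.ne'
      set ℓ := n.minFac with hℓdef
      have hℓ : ℓ.Prime := Nat.minFac_prime hn1
      obtain ⟨m, hm⟩ : ℓ ∣ n := Nat.minFac_dvd n
      have hm0 : 0 < m := by
        rcases Nat.eq_zero_or_pos m with rfl | h
        · rw [mul_zero] at hm; omega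
        · exact h
      have hmn : m < n := by
        rw [hm]
        exact lt_mul_of_one_lt_left hm0 hℓ.one_lt
      have hℓ0 : (ℓ : ℤ) ≠ 0 := by exact_mod_cast hℓ.ne_zero
      have hnZ : (n : ℤ) = (ℓ : ℤ) * (m : ℤ) := by exact_mod_cast hm
      have hℓn : (ℓ : ℤ) ∣ (n : ℤ) := ⟨m, hnZ⟩
      -- lift mod `ℓ`
      obtain ⟨lam1, hlam1⟩ := hprime ℓ hℓ f
        ⟨fun x y => hℓn.trans (hf.1 x y), fun s hs => hℓn.trans (hf.2 s hs)⟩
      -- the quotient `f' = (f - lam1) / ℓ`
      let f' : X → ℤ := fun x => (f x - (lam1 : X →+ ℤ) x) / (ℓ : ℤ)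
      have hf' : ∀ x, (ℓ : ℤ) * f' x = f x - (lam1 : X →+ ℤ) x :=
        fun x => Int.mul_ediv_cancel' (hlam1 x)
      have hq : QuasiHom S m f' := by
        constructor
        · intro x y
          apply Int.dvd_of_mul_dvd_mul_left hℓ0
          rw [← hnZ]
          have : (ℓ : ℤ) * (f' (x + y) - f' x - f' y) = f (x + y) - f x - f y := by
            rw [mul_sub, mul_sub, hf', hf', hf', map_add]
            ring
          rw [this]
          exact hf.1 x y
        · intro s hs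
          apply Int.dvd_of_mul_dvd_mul_left hℓ0
          rw [← hnZ, hf', lam1.2 s hs, sub_zero]
          exact hf.2 s hs
      obtain ⟨lam2, hlam2⟩ := ih m hmn hm0 f' hq
      refine ⟨lam1 + (ℓ : ℤ) • lam2, fun x => ?_⟩
      have : f x - ((lam1 + (ℓ : ℤ) • lam2 : killing X S ℤ ℤ) : X →+ ℤ) x
          = (ℓ : ℤ) * (f' x - (lam2 : X →+ ℤ) x) := by
        rw [mul_sub, hf']
        simp only [Submodule.coe_add, Submodule.coe_smul, AddMonoidHom.add_apply,
          AddMonoidHom.smul_apply, smul_eq_mul]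
        ring
      rw [this, hnZ]
      exact mul_dvd_mul_left _ (hlam2 x)
    · have : n = 1 := by omega
      subst this
      exact ⟨0, fun x => by simp⟩

/-! ### Reduction modulo a prime is onto when the dimensions allow it -/

section Prime

variable (ℓ : ℕ) [Fact ℓ.Prime] [AddGroup.FG X]

/-- If `dim_{𝔽_ℓ} Λ_{𝔽_ℓ} ≤ rank_ℤ Λ_ℤ` then reduction mod `ℓ` is onto. -/
theorem redHom_surjective_of_finrank_le
    [Module.Finite (ZMod ℓ) (killing X S (ZMod ℓ) (ZMod ℓ))]
    (h : finrank (ZMod ℓ) (killing X S (ZMod ℓ) (ZMod ℓ)) ≤ finrank ℤ (killing X S ℤ ℤ)) :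
    Function.Surjective (redHom (X := X) (S := S) ℓ) := by
  classical
  let b := Module.finBasis ℤ (killing X S ℤ ℤ)
  set r := finrank ℤ (killing X S ℤ ℤ) with hr
  let v : Fin r → killing X S (ZMod ℓ) (ZMod ℓ) := fun i => redHom ℓ (b i)
  -- `redHom` turns integer combinations into `ZMod ℓ`-combinations
  have hcomb : ∀ c : Fin r → ℤ,
      redHom (X := X) (S := S) ℓ (∑ i, c i • b i) = ∑ i, ((c i : ℤ) : ZMod ℓ) • v i := by
    intro c
    rw [map_sum]
    refine Finset.sum_congr rfl fun i _ => ?_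
    rw [map_zsmul]
    exact (Int.cast_smul_eq_zsmul (ZMod ℓ) (c i) (v i)).symm
  have hli : LinearIndependent (ZMod ℓ) v := by
    rw [Fintype.linearIndependent_iff]
    intro c hc i
    -- lift the coefficients
    let c' : Fin r → ℤ := fun j => ((c j).cast : ℤ)
    have hc' : ∀ j, ((c' j : ℤ) : ZMod ℓ) = c j := fun j => ZMod.intCast_zmod_cast (c j)
    have h0 : redHom (X := X) (S := S) ℓ (∑ j, c' j • b j) = 0 := by
      rw [hcomb]
      simp only [hc']
      exact hc
    obtain ⟨ψ', hψ'⟩ := redHom_eq_zero ℓ _ h0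
    have h1 := congrArg (fun z => b.repr z i) hψ'
    simp only [map_sum, map_smul, Basis.repr_self, Finsupp.smul_single, smul_eq_mul, mul_one,
      Finsupp.coe_finsetSum, Finset.sum_apply, Finsupp.single_apply, Finset.sum_ite_eq',
      Finset.mem_univ, if_true, Finsupp.coe_smul, Pi.smul_apply] at h1
    rw [← hc' i, h1, Int.cast_mul, Int.cast_natCast, ZMod.natCast_self, zero_mul]
  have hcard : Fintype.card (Fin r) = finrank (ZMod ℓ) (killing X S (ZMod ℓ) (ZMod ℓ)) := by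
    have h1 := hli.fintype_card_le_finrank
    rw [Fintype.card_fin] at h1 ⊢
    omega
  have hspan : Submodule.span (ZMod ℓ) (Set.range v) = ⊤ :=
    hli.span_eq_top_of_card_eq_finrank' hcard
  intro w
  have hw : w ∈ Submodule.span (ZMod ℓ) (Set.range v) := by rw [hspan]; trivial
  obtain ⟨c, rfl⟩ := (Submodule.mem_span_range_iff_exists_fun (ZMod ℓ)).mp hw
  refine ⟨∑ j, ((c j).cast : ℤ) • b j, ?_⟩
  rw [hcomb]
  refine Finset.sum_congr rfl fun j _ => ?_
  rw [ZMod.intCast_zmod_cast]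

end Prime

/-! ### `ZMod n` form -/

/-- the homomorphism `X →+ ZMod ℓ` of an additive map modulo `ℓ` -/
def homOfQuasi (ℓ : ℕ) (f : X → ℤ) (hf : QuasiHom S ℓ f) : X →+ ZMod ℓ :=
  AddMonoidHom.mk' (fun x => ((f x : ℤ) : ZMod ℓ)) (fun x y => by
    have h1 := hf.1 x y
    rw [← ZMod.intCast_zmod_eq_zero_iff_dvd] at h1 <;> try infer_instance
    · push_cast at h1
      linear_combination h1)

@[simp]
theorem homOfQuasi_apply (ℓ : ℕ) (f : X → ℤ) (hf : QuasiHom S ℓ f) (x : X) :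
    homOfQuasi S ℓ f hf x = ((f x : ℤ) : ZMod ℓ) := rfl

theorem homOfQuasi_mem_killing (ℓ : ℕ) (f : X → ℤ) (hf : QuasiHom S ℓ f) :
    homOfQuasi S ℓ f hf ∈ killing X S (ZMod ℓ) (ZMod ℓ) := by
  intro s hs
  rw [homOfQuasi_apply]
  exact (ZMod.intCast_zmod_eq_zero_iff_dvd _ _).mpr (hf.2 s hs)

/-- **Lifting modulo `n` from surjectivity of reduction modulo every prime.** -/
theorem exists_lift_zmod
    (hsurj : ∀ (ℓ : ℕ) [Fact ℓ.Prime], Function.Surjective (redHom (X := X) (S := S) ℓ))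
    (n : ℕ) [NeZero n] (ψ : X →+ ZMod n) (hψ : ψ ∈ killing X S (ZMod n) (ZMod n)) :
    ∃ lam : killing X S ℤ ℤ, ∀ x, (((lam : X →+ ℤ) x : ℤ) : ZMod n) = ψ x := by
  let f : X → ℤ := fun x => ((ψ x).cast : ℤ)
  have hfc : ∀ x, ((f x : ℤ) : ZMod n) = ψ x := fun x => ZMod.intCast_zmod_cast (ψ x)
  have hf : QuasiHom S n f := by
    constructor
    · intro x y
      rw [← ZMod.intCast_zmod_eq_zero_iff_dvd]
      push_cast
      rw [hfc, hfc, hfc, map_add]
      ring
    · intro s hs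
      rw [← ZMod.intCast_zmod_eq_zero_iff_dvd, hfc]
      exact hψ s hs
  have hprime : ∀ ℓ : ℕ, ℓ.Prime → ∀ g : X → ℤ, QuasiHom S ℓ g →
      ∃ lam : killing X S ℤ ℤ, ∀ x, (ℓ : ℤ) ∣ g x - (lam : X →+ ℤ) x := by
    intro ℓ hℓ g hg
    haveI : Fact ℓ.Prime := ⟨hℓ⟩
    obtain ⟨lam, hlam⟩ := hsurj ℓ ⟨homOfQuasi S ℓ g hg, homOfQuasi_mem_killing S ℓ g hg⟩
    refine ⟨lam, fun x => ?_⟩
    have h1 := congrArg (fun φ : killing X S (ZMod ℓ) (ZMod ℓ) => (φ : X →+ ZMod ℓ) x) hlam
    simp only [redHom_apply, homOfQuasi_apply] at h1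
    rw [← ZMod.intCast_zmod_eq_zero_iff_dvd]
    push_cast
    rw [h1, sub_self]
  obtain ⟨lam, hlam⟩ := exists_lift_of_prime S hprime n (Nat.pos_of_ne_zero (NeZero.ne n)) f hf
  refine ⟨lam, fun x => ?_⟩
  have h1 := (ZMod.intCast_zmod_eq_zero_iff_dvd _ n).mpr (hlam x)
  push_cast at h1
  rw [hfc, sub_eq_zero] at h1
  exact h1.symm

end Fermat.Agent.S16.Lower.LiftAbstract

end
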