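/-
S16, lower bound [A], node (A5) (helper25): **every homomorphism `Γ₀(N) → ℤ/n` killing the
parabolic and the finite-order elements lifts to an INTEGRAL homomorphism killing them**
(equivalently `Γ₀(N)^ab / ⟨par, ell⟩` is torsion-free).

Proof by counting, no presentation of `Γ₀(N)` needed:
* `CohomBoundGen.finrank_add_orbCount_le_gen` over `K = ZMod ℓ`:
  `dim Λ_{𝔽_ℓ} + orb S + orb ST + orb T ≤ index + 2`;
* over `ℂ` the same bound is an EQUALITY by S20 + S21 (dimension formula + Eichler–Shimura) and the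
  coset combinatorics of `Γ₀(N)` (`M2/P1Gamma0`), and `dim_ℂ Hom_par(Γ₀(N), ℂ) = rank_ℤ Λ`
  (`HomLattice.J_injective`, `range_J`);
* hence `dim Λ_{𝔽_ℓ} ≤ rank Λ` and `LiftAbstract` applies.
-/
import Mathlib
import Fermat.Agent.S16.Lower.CohomBoundGen
import Fermat.Agent.S16.Lower.LiftAbstract
import Fermat.Agent.N4F.Tors.ESHecke
import Fermat.Agent.S20
import Fermat.Agent.S21

set_option autoImplicit false
set_option linter.unusedSectionVars false
set_option linter.style.longLine false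

noncomputable section

open scoped MatrixGroups TensorProduct

namespace Fermat.Agent.S16.Lower.LiftGamma0

open Module CongruenceSubgroup ModularCurve ModularCurve.Period Matrix ModularGroup
open Fermat.Agent.N4F.Tors.HomLattice Fermat.Agent.N4F.Tors.ESHecke
  Fermat.Agent.N4F.Tors.HeckeHom Fermat.Agent.M2.ES Fermat.Agent.M2

variable (N : ℕ) [NeZero N]

/-! ### Over `ℂ`: the lattice has rank `dim Hom_par` -/

omit [NeZero N] in
/-- Over `ℂ`, killing the parabolic and finite-order elements = killing the parabolic ones. -/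
theorem killing_complex_eq :
    killing (Additive ↥(Gamma0 N)) (parEll N) ℂ ℂ = parabolicHoms ℂ (Gamma0 N) ℂ := by
  ext φ
  rw [mem_parabolicHoms_iff]
  constructor
  · intro h γ hγ
    exact h (Additive.ofMul γ) (Or.inl hγ)
  · intro h s hs
    obtain ⟨γ, rfl⟩ := Additive.ofMul.surjective s
    rcases hs with hs | hs
    · exact h γ hs
    · have hs' : IsOfFinOrder γ := by
        obtain ⟨n, hn, h⟩ := hs.exists_pow_eq_one
        refine isOfFinOrder_iff_pow_eq_one.mpr ⟨n, hn, Subtype.ext ?_⟩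
        rw [SubgroupClass.coe_pow]
        exact h
      obtain ⟨n, hn, h'⟩ := hs'.exists_pow_eq_one
      have h1 : n • φ (Additive.ofMul γ) = 0 := by
        rw [← map_nsmul, ← ofMul_pow, h', ofMul_one, map_zero]
      rcases smul_eq_zero.mp h1 with h2 | h2
      · exact absurd h2 hn.ne'
      · exact h2

/-- `rank_ℤ Λ = dim_ℂ Hom_par(Γ₀(N), ℂ)`. -/
theorem finrank_lattice_eq :
    finrank ℤ (killing (Additive ↥(Gamma0 N)) (parEll N) ℤ ℤ) =
      finrank ℂ (parabolicHoms ℂ (Gamma0 N) ℂ) := by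
  rw [← killing_complex_eq, ← range_J (X := Additive ↥(Gamma0 N)) (S := parEll N) ℂ,
    LinearMap.finrank_range_of_inj (J_injective ℂ), Module.finrank_baseChange]

/-! ### The bound is an equality over `ℂ` -/

/-- **S20 + S21 + coset combinatorics**: the cohomological bound is sharp. -/
theorem finrank_parabolicHoms_add_orb :
    finrank ℂ (parabolicHoms ℂ (Gamma0 N) ℂ) + CohomBound.orb (Gamma0 N) S
      + CohomBound.orb (Gamma0 N) (S * T) + CohomBound.orb (Gamma0 N) T =
      (Gamma0 N).index + 2 := by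
  have h20 := Fermat.Agent.S20.result N
  obtain ⟨hinj, hrange⟩ := Fermat.Agent.S21.result N
  have hneg : (-1 : SL(2, ℤ)) ∈ Gamma0 N := by
    rw [Gamma0_mem]; simp
  have hfin : Module.Finite ℂ (CuspForm (Gamma0 N) 2) := S21Cond.finite_cuspForm_two N
  have hdim : finrank ℂ (parabolicHoms ℂ (Gamma0 N) ℂ) =
      2 * finrank ℂ (CuspForm (Gamma0 N) 2) := by
    rw [← hrange, LinearMap.finrank_range_of_inj hinj, Module.finrank_prod]
    ring
  have h2 := CohomBound.two_mul_orb_S (Gamma0 N) hneg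
  have h3 := CohomBound.three_mul_orb_ST (Gamma0 N) hneg
  rw [P1.card_fixedBy_S_coset] at h2
  rw [P1.card_fixedBy_ST_coset] at h3
  have hT : CohomBound.orb (Gamma0 N) T = cuspCount N := P1.card_orbits_T_coset
  have hidx : (Gamma0 N).index = dedekindPsi N := P1.index_Gamma0 N (NeZero.ne N)
  rw [hidx] at h2 h3 ⊢
  rw [hT, hdim]
  unfold ModularCurve.genusFormula at h20
  have h2q : 2 * (CohomBound.orb (Gamma0 N) S : ℚ) = (dedekindPsi N : ℚ) + (nuTwo N : ℚ) := by
    exact_mod_cast h2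
  have h3q : 3 * (CohomBound.orb (Gamma0 N) (S * T) : ℚ)
      = (dedekindPsi N : ℚ) + 2 * (nuThree N : ℚ) := by exact_mod_cast h3
  have : ((2 * finrank ℂ (CuspForm (Gamma0 N) 2) + CohomBound.orb (Gamma0 N) S
      + CohomBound.orb (Gamma0 N) (S * T) + cuspCount N : ℕ) : ℚ) = ((dedekindPsi N + 2 : ℕ) : ℚ) := by
    push_cast
    rw [h20]
    linarith
  exact_mod_cast this

/-! ### Over `ZMod ℓ` -/

variable (ℓ : ℕ) [Fact ℓ.Prime]

theorem isParEll_conj_S_pow (g : SL(2, ℤ)) (n : ℕ) : IsParEll (g⁻¹ * S ^ n * g) := by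
  right
  refine isOfFinOrder_iff_pow_eq_one.mpr ⟨4, by norm_num, ?_⟩
  have : (g⁻¹ * S ^ n * g) ^ 4 = g⁻¹ * (S ^ n) ^ 4 * g := by
    simp only [pow_succ, pow_zero, one_mul]
    group
  rw [this, ← pow_mul, mul_comm, pow_mul, CohomBound.S_pow_four, one_pow, mul_one, inv_mul_cancel]

theorem isParEll_conj_ST_pow (g : SL(2, ℤ)) (n : ℕ) : IsParEll (g⁻¹ * (S * T) ^ n * g) := by
  right
  refine isOfFinOrder_iff_pow_eq_one.mpr ⟨6, by norm_num, ?_⟩
  have : (g⁻¹ * (S * T) ^ n * g) ^ 6 = g⁻¹ * ((S * T) ^ n) ^ 6 * g := by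
    simp only [pow_succ, pow_zero, one_mul]
    group
  rw [this, ← pow_mul, mul_comm, pow_mul, CohomBound.ST_pow_six, one_pow, mul_one, inv_mul_cancel]

theorem isParEll_conj_T_pow (g : SL(2, ℤ)) (n : ℕ) : IsParEll (g⁻¹ * T ^ n * g) := by
  left
  rw [CohomBound.trace_conj_T_pow]
  norm_num

/-- **The cohomological bound over `𝔽_ℓ`.** -/
theorem finite_and_finrank_killing_zmod_le :
    Module.Finite (ZMod ℓ) (killing (Additive ↥(Gamma0 N)) (parEll N) (ZMod ℓ) (ZMod ℓ)) ∧
      finrank (ZMod ℓ) (killing (Additive ↥(Gamma0 N)) (parEll N) (ZMod ℓ) (ZMod ℓ))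
        + CohomBound.orb (Gamma0 N) S + CohomBound.orb (Gamma0 N) (S * T)
        + CohomBound.orb (Gamma0 N) T ≤ (Gamma0 N).index + 2 := by
  haveI : Finite (SL(2, ℤ) ⧸ Gamma0 N) := Subgroup.finite_quotient_of_finiteIndex
  have key := CohomBoundGen.finrank_add_orbCount_le_gen (G := SL(2, ℤ)) (X := SL(2, ℤ) ⧸ Gamma0 N)
    (ZMod ℓ) ((1 : SL(2, ℤ)) : SL(2, ℤ) ⧸ Gamma0 N) (Gamma0 N)
    (CohomBound.mem_iff_smul_one (Gamma0 N)) S (S * T) T
    (killing (Additive ↥(Gamma0 N)) (parEll N) (ZMod ℓ) (ZMod ℓ)) ?_ ?_ ?_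
    CohomBound.closure_S_ST (by group)
  · exact key
  · rintro φ hφ γ ⟨g, n, hγ⟩
    apply hφ (Additive.ofMul γ)
    rw [mem_parEll, toMul_ofMul, hγ]
    exact isParEll_conj_S_pow g n
  · rintro φ hφ γ ⟨g, n, hγ⟩
    apply hφ (Additive.ofMul γ)
    rw [mem_parEll, toMul_ofMul, hγ]
    exact isParEll_conj_ST_pow g n
  · rintro φ hφ γ ⟨g, n, hγ⟩
    apply hφ (Additive.ofMul γ)
    rw [mem_parEll, toMul_ofMul, hγ]
    exact isParEll_conj_T_pow g n

/-- reduction mod `ℓ` of the lattice is onto -/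
theorem redHom_surjective :
    Function.Surjective
      (redHom (X := Additive ↥(Gamma0 N)) (S := parEll N) ℓ) := by
  obtain ⟨hfin, hle⟩ := finite_and_finrank_killing_zmod_le N ℓ
  haveI := hfin
  refine LiftAbstract.redHom_surjective_of_finrank_le (parEll N) ℓ ?_
  have h1 := finrank_parabolicHoms_add_orb N
  rw [finrank_lattice_eq]
  omega

/-! ### The lifting theorem -/

omit [Fact ℓ.Prime] in
/-- **(A5)**: every `ψ : Γ₀(N) → ℤ/n` killing the parabolic and the finite-order elements is the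
reduction of an integral homomorphism with the same property. -/
theorem exists_lift (n : ℕ) [NeZero n] (ψ : Additive ↥(Gamma0 N) →+ ZMod n)
    (hψ : ψ ∈ parHomAdd N (ZMod n)) :
    ∃ lam : Additive ↥(Gamma0 N) →+ ℤ, lam ∈ parHomAdd N ℤ ∧
      ∀ x, ((lam x : ℤ) : ZMod n) = ψ x := by
  obtain ⟨lam, hlam⟩ := LiftAbstract.exists_lift_zmod (parEll N)
    (fun ℓ _ => redHom_surjective N ℓ) n ψ ((mem_killing_iff N (R := ZMod n)).mpr hψ)
  exact ⟨lam.1, (mem_killing_iff N (R := ℤ)).mp lam.2, hlam⟩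

end Fermat.Agent.S16.Lower.LiftGamma0

end
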