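/-
S16, lower bound [LB], nodes (L4)+(L5) (helper25): **the Eisenstein evaluation modulo `n` factors
through the Hecke algebra of cusp forms**, hypothesis-driven on

* a "`U_p`-system" `USys p n` (helper22's `Lower/USystem`): `U_p` on `Hom(Γ₀(p), A)` for
  `A = ℤ, ℂ, ZMod n`, compatible with the coefficient maps, stable on `parHomAdd p ℤ`, and
  intertwined with `heckeULin` on cusp forms by `periodHomPair`;
* the Shimura character package (helper26's `Lower/Shimura` + `HeckePsi`): `ψ ∈ parHomAdd p (ZMod n)`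
  of exact order `n`, `T_ℓ ψ = (1 + ℓ) ψ` (`ℓ ≠ p`), `U_p ψ = ψ`.

Output: `dvd_aeval_of_heckeEvalForms_eq_zero`:
`heckeEvalForms p 2 t = 0 → (n : ℤ) ∣ aeval (eisensteinSystem p) t`.

Proof: lift `ψ` to `lam ∈ Λ = parHomAdd p ℤ` (`LiftGamma0.exists_lift`), write
`lam_ℂ = periodHomPair (f, g)` (S21) and follow `t` monomial by monomial on the three levels
`ℂ` (where it is `periodHomPair (E(t) f, E(t) g)`), `ℤ` and `ZMod n` (where it is `ε(t) ψ`).  No
commutativity of the operators on `Λ` is needed: commutativity lives in `heckeAlgebra p 2 ∅`.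
-/
import Mathlib
import Fermat.Agent.S16.Lower.LiftGamma0
import Fermat.Agent.N4F.Tors.PeriodHecke
import Fermat.Prelude.Def_CuspForm_HeckeEvalForms

set_option autoImplicit false
set_option linter.unusedSectionVars false
set_option linter.style.longLine false
set_option linter.style.haveILetI false

noncomputable section

open scoped MatrixGroups

namespace Fermat.Agent.S16.Lower.LowerCore

open CongruenceSubgroup ModularCurve ModularCurve.Period CuspForm
open Fermat.Agent.N4F.Tors.HeckeHom Fermat.Agent.N4F.Tors.PeriodHecke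

variable (p : ℕ) [Fact p.Prime]

instance : NeZero p := ⟨(Fact.out : p.Prime).ne_zero⟩

/-- What the lower bound needs from `U_p` on `Hom(Γ₀(p), A)`, `A = ℤ, ℂ, ZMod n`. -/
structure USys (n : ℕ) where
  /-- `U_p` on integral homomorphisms -/
  uZ : (Additive ↥(Gamma0 p) →+ ℤ) →+ (Additive ↥(Gamma0 p) →+ ℤ)
  /-- `U_p` on complex homomorphisms -/
  uC : (Additive ↥(Gamma0 p) →+ ℂ) →+ (Additive ↥(Gamma0 p) →+ ℂ)
  /-- `U_p` on homomorphisms mod `n` -/
  uN : (Additive ↥(Gamma0 p) →+ ZMod n) →+ (Additive ↥(Gamma0 p) →+ ZMod n)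
  uZ_mem : ∀ φ ∈ parHomAdd p ℤ, uZ φ ∈ parHomAdd p ℤ
  castC : ∀ φ, (Int.castAddHom ℂ).comp (uZ φ) = uC ((Int.castAddHom ℂ).comp φ)
  castN : ∀ φ, (Int.castAddHom (ZMod n)).comp (uZ φ) = uN ((Int.castAddHom (ZMod n)).comp φ)
  uC_periodHomPair : ∀ f g : CuspForm (Gamma0 p) 2,
    uC (periodHomPair p (f, g)) =
      periodHomPair p (heckeULin 2 (dvd_refl p) f, heckeULin 2 (dvd_refl p) g)

variable {p}

/-- the evaluation of a Hecke polynomial on cusp forms -/
def evalE (t : HeckeAlg) : Module.End ℂ (CuspForm (Gamma0 p) 2) :=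
  ((heckeEvalForms p 2 t : heckeAlgebra p 2 ∅) : Module.End ℂ (CuspForm (Gamma0 p) 2))

theorem evalE_add (s t : HeckeAlg) : evalE (p := p) (s + t) = evalE s + evalE t := by
  simp [evalE, map_add]

theorem evalE_mul (s t : HeckeAlg) : evalE (p := p) (s * t) = evalE s * evalE t := by
  simp [evalE, map_mul]

theorem evalE_C (a : ℤ) (f : CuspForm (Gamma0 p) 2) :
    evalE (p := p) (MvPolynomial.C a) f = a • f := by
  rw [evalE, heckeEvalForms_C]
  simp [Algebra.algebraMap_eq_smul_one]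

theorem evalE_X_of_ne (ℓ : Nat.Primes) (h : ¬ (ℓ : ℕ) ∣ p) :
    evalE (p := p) (MvPolynomial.X ℓ) = heckeTLin 2 ℓ.2 h := by
  have := heckeEvalForms_heckeGen_of_not_dvd (N := p) (k := 2) h
  unfold heckeGen at this
  rw [evalE, this]
  rfl

theorem evalE_X_of_dvd (ℓ : Nat.Primes) (h : (ℓ : ℕ) ∣ p) :
    evalE (p := p) (MvPolynomial.X ℓ) = heckeULin 2 h := by
  have := heckeEvalForms_heckeGen_of_dvd (N := p) (k := 2) h
  unfold heckeGen at this
  rw [evalE, this]
  rfl

/-- the Eisenstein evaluation -/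
def eps (p : ℕ) : HeckeAlg →ₐ[ℤ] ℤ := MvPolynomial.aeval (eisensteinSystem p)

theorem eps_X (ℓ : Nat.Primes) : eps p (MvPolynomial.X ℓ) = eisensteinSystem p ℓ := by
  simp [eps]

variable {n : ℕ} [NeZero n]

/-- **The core.** -/
theorem dvd_eps_of_evalE_eq_zero (U : USys p n)
    (ψ : Additive ↥(Gamma0 p) →+ ZMod n) (hψ : ψ ∈ parHomAdd p (ZMod n))
    (hord : ∀ a : ℤ, a • ψ = 0 → (n : ℤ) ∣ a)
    (hT : ∀ (ℓ : ℕ) [Fact ℓ.Prime] (hℓ : ¬ ℓ ∣ p), heckeAdd p ℓ hℓ ψ = ((1 : ℤ) + (ℓ : ℤ)) • ψ)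
    (hU : U.uN ψ = ψ)
    (t : HeckeAlg) (ht : evalE (p := p) t = 0) :
    (n : ℤ) ∣ eps p t := by
  -- the inductive statement
  have key : ∀ t : HeckeAlg, ∀ (lam : Additive ↥(Gamma0 p) →+ ℤ), lam ∈ parHomAdd p ℤ →
      ∀ (a : ℤ) (f g : CuspForm (Gamma0 p) 2),
      (Int.castAddHom ℂ).comp lam = periodHomPair p (f, g) →
      (Int.castAddHom (ZMod n)).comp lam = a • ψ →
      ∃ lam' : Additive ↥(Gamma0 p) →+ ℤ, lam' ∈ parHomAdd p ℤ ∧
        (Int.castAddHom ℂ).comp lam' = periodHomPair p (evalE t f, evalE t g) ∧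
        (Int.castAddHom (ZMod n)).comp lam' = (a * eps p t) • ψ := by
    intro t
    induction t using MvPolynomial.induction_on with
    | C c =>
      intro lam hlam a f g hC hN
      refine ⟨c • lam, (parHomAdd p ℤ).zsmul_mem hlam c, ?_, ?_⟩
      · rw [evalE_C, evalE_C, ← Prod.smul_mk, map_zsmul, ← hC]
        ext x
        simp
      · have : eps p (MvPolynomial.C c) = c := by simp [eps]
        rw [this, mul_comm, mul_smul, ← hN]
        ext x
        simp
    | add s t hs ht' =>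
      intro lam hlam a f g hC hN
      obtain ⟨l1, h1, h1C, h1N⟩ := hs lam hlam a f g hC hN
      obtain ⟨l2, h2, h2C, h2N⟩ := ht' lam hlam a f g hC hN
      refine ⟨l1 + l2, (parHomAdd p ℤ).add_mem h1 h2, ?_, ?_⟩
      · rw [AddMonoidHom.comp_add, h1C, h2C, evalE_add, LinearMap.add_apply, LinearMap.add_apply,
          ← map_add, Prod.mk_add_mk]
      · rw [AddMonoidHom.comp_add, h1N, h2N, map_add, mul_add, add_smul]
    | mul_X t ℓ ih =>
      intro lam hlam a f g hC hN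
      haveI : Fact (ℓ : ℕ).Prime := ⟨ℓ.2⟩
      by_cases hℓ : (ℓ : ℕ) ∣ p
      · -- `U_p`
        have hℓp : (ℓ : ℕ) = p :=
          ((Nat.dvd_prime (Fact.out : p.Prime)).mp hℓ).resolve_left ℓ.2.one_lt.ne'
        have hE : evalE (p := p) (MvPolynomial.X ℓ) = heckeULin 2 (dvd_refl p) := by
          rw [evalE_X_of_dvd ℓ hℓ]
          subst hℓp
          rfl
        have hC1 : (Int.castAddHom ℂ).comp (U.uZ lam) =
            periodHomPair p (heckeULin 2 (dvd_refl p) f, heckeULin 2 (dvd_refl p) g) := by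
          rw [U.castC, hC, U.uC_periodHomPair]
        have hN1 : (Int.castAddHom (ZMod n)).comp (U.uZ lam) = (a * 1) • ψ := by
          rw [U.castN, hN, map_zsmul, hU, mul_one]
        obtain ⟨l', h', hC', hN'⟩ := ih (U.uZ lam) (U.uZ_mem lam hlam) (a * 1) _ _ hC1 hN1
        refine ⟨l', h', ?_, ?_⟩
        · rw [hC', evalE_mul, hE]
          rfl
        · rw [hN', map_mul, eps_X, eisensteinSystem_of_dvd hℓ]
          congr 1
          ring
      · -- `T_ℓ`
        have hE : evalE (p := p) (MvPolynomial.X ℓ) = heckeTLin 2 ℓ.2 hℓ := evalE_X_of_ne ℓ hℓ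
        have hC1 : (Int.castAddHom ℂ).comp (heckeAdd p (ℓ : ℕ) hℓ lam) =
            periodHomPair p (heckeTLin 2 ℓ.2 hℓ f, heckeTLin 2 ℓ.2 hℓ g) := by
          rw [← heckeAdd_comp, hC, heckeAdd_periodHomPair p ℓ.2 hℓ]
        have hN1 : (Int.castAddHom (ZMod n)).comp (heckeAdd p (ℓ : ℕ) hℓ lam) =
            (a * ((1 : ℤ) + ((ℓ : ℕ) : ℤ))) • ψ := by
          rw [← heckeAdd_comp, hN, map_zsmul, hT (ℓ : ℕ) hℓ, smul_smul]
        obtain ⟨l', h', hC', hN'⟩ := ih (heckeAdd p (ℓ : ℕ) hℓ lam)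
          (heckeAdd_mem_parHomAdd p (ℓ : ℕ) hℓ hlam) _ _ _ hC1 hN1
        refine ⟨l', h', ?_, ?_⟩
        · rw [hC', evalE_mul, hE]
          rfl
        · rw [hN', map_mul, eps_X, eisensteinSystem_of_not_dvd hℓ]
          congr 1
          ring
  -- apply it to a lift of `ψ`
  obtain ⟨lam, hlam, hlamN⟩ := LiftGamma0.exists_lift p n ψ hψ
  have hpar : (Int.castAddHom ℂ).comp lam ∈ parabolicHoms ℂ (Gamma0 p) ℂ := by
    rw [mem_parabolicHoms_iff]
    intro γ hγ
    rw [AddMonoidHom.comp_apply, hlam γ (Or.inl hγ)]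
    simp
  rw [← (Fermat.Agent.S21.result p).2] at hpar
  obtain ⟨⟨f, g⟩, hfg⟩ := hpar
  have hN0 : (Int.castAddHom (ZMod n)).comp lam = (1 : ℤ) • ψ := by
    rw [one_smul]
    ext x
    exact hlamN x
  obtain ⟨lam', -, hC', hN'⟩ := key t lam hlam 1 f g hfg.symm hN0
  rw [ht, LinearMap.zero_apply, LinearMap.zero_apply] at hC'
  have hzero : lam' = 0 := by
    refine AddMonoidHom.ext fun x => ?_
    have h1 := DFunLike.congr_fun hC' x
    have h0 : periodHomPair p ((0 : CuspForm (Gamma0 p) 2), (0 : CuspForm (Gamma0 p) 2)) = 0 :=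
      map_zero _
    rw [h0] at h1
    simpa using h1
  rw [hzero, one_mul] at hN'
  apply hord
  rw [← hN']
  ext x
  simp

end Fermat.Agent.S16.Lower.LowerCore

end
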