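/-
S16, lower bound [LB], final adapter (helper25): `LowerCore.dvd_eps_of_evalE_eq_zero` in the exact
shape `hA` of helper12's `Reduction.card_eq_of_lower_of_upper`:

  `∀ t : HeckeAlg, Reduction.phi p t = 0 → ((eisensteinNumerator p : ℕ) : ℤ) ∣ Reduction.eps p t`,

still hypothesis-driven on the `U_p`-system and the Shimura character package.
(`phi p t = 0 → heckeEvalForms p 2 t = 0` is the injectivity of `latticeRestrictHom`, S23.)
-/
import Mathlib
import Fermat.Agent.S16.Lower.LowerCore
import Fermat.Agent.S16.Reduction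
import Fermat.Agent.S23

set_option autoImplicit false
set_option linter.unusedSectionVars false
set_option linter.style.longLine false

noncomputable section

open scoped MatrixGroups

namespace Fermat.Agent.S16.Lower.LowerHA

open CongruenceSubgroup ModularCurve ModularCurve.Period CuspForm
open Fermat.Agent.N4F.Tors.HeckeHom Fermat.Agent.S16.Lower.LowerCore

variable (p : ℕ) [Fact p.Prime]

theorem eisensteinNumerator_pos : 0 < eisensteinNumerator p := by
  have hp : 2 ≤ p := (Fact.out : p.Prime).two_le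
  unfold eisensteinNumerator
  apply Nat.div_pos
  · exact Nat.le_of_dvd (by omega) (Nat.gcd_dvd_left _ _)
  · exact Nat.gcd_pos_of_pos_left _ (by omega)

instance : NeZero (eisensteinNumerator p) := ⟨(eisensteinNumerator_pos p).ne'⟩

theorem evalE_eq_zero_of_phi_eq_zero (t : HeckeAlg) (ht : Reduction.phi p t = 0) :
    evalE (p := p) t = 0 := by
  have hinj := (latticeRestrictHom_bijective p ∅ (Fermat.Agent.S23.result p)).1
  have h0 : heckeEvalForms p 2 t = 0 := by
    apply hinj
    rw [map_zero]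
    exact ht
  rw [evalE, h0]
  rfl

theorem eps_eq (t : HeckeAlg) : Reduction.eps p t = LowerCore.eps p t := rfl

/-- **`hA` of `Reduction.card_eq_of_lower_of_upper`** from the `U_p`-system and the Shimura
character package at `n = eisensteinNumerator p`. -/
theorem hA_of_inputs (U : USys p (eisensteinNumerator p))
    (ψ : Additive ↥(Gamma0 p) →+ ZMod (eisensteinNumerator p))
    (hψ : ψ ∈ parHomAdd p (ZMod (eisensteinNumerator p)))
    (hord : ∀ a : ℤ, a • ψ = 0 → ((eisensteinNumerator p : ℕ) : ℤ) ∣ a)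
    (hT : ∀ (ℓ : ℕ) [Fact ℓ.Prime] (hℓ : ¬ ℓ ∣ p),
      heckeAdd p ℓ hℓ ψ = ((1 : ℤ) + (ℓ : ℤ)) • ψ)
    (hU : U.uN ψ = ψ) :
    ∀ t : HeckeAlg, Reduction.phi p t = 0 →
      ((eisensteinNumerator p : ℕ) : ℤ) ∣ Reduction.eps p t := by
  intro t ht
  rw [eps_eq]
  exact dvd_eps_of_evalE_eq_zero U ψ hψ hord hT hU t (evalE_eq_zero_of_phi_eq_zero p t ht)

/-- A surjective `ψ` has exact order `n`. -/
theorem hord_of_surjective {n : ℕ} [NeZero n] (ψ : Additive ↥(Gamma0 p) →+ ZMod n)
    (hsurj : Function.Surjective ψ) : ∀ a : ℤ, a • ψ = 0 → (n : ℤ) ∣ a := by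
  intro a ha
  obtain ⟨x, hx⟩ := hsurj 1
  have h1 := DFunLike.congr_fun ha x
  rw [AddMonoidHom.smul_apply, hx, AddMonoidHom.zero_apply, zsmul_eq_mul, mul_one] at h1
  exact (ZMod.intCast_zmod_eq_zero_iff_dvd a n).mp h1

end Fermat.Agent.S16.Lower.LowerHA

end
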