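/-
S16, lower bound [A]/[LB]: the `U_p`-system `LowerCore.USys p n` consumed by
`LowerCore.dvd_eps_of_evalE_eq_zero` / `LowerHA.hA_of_inputs`, built from `USystem.uAdd`
(level `N = p`), and the fixed-point property `U_p ψ = ψ` for every homomorphism
`ψ : Γ₀(p) → ZMod n`, `n ∣ p - 1`, which only depends on the lower right entry modulo `p`.
-/
import Fermat.Agent.S16.Lower.USystem
import Fermat.Agent.S16.Lower.LowerCore

set_option autoImplicit false

open scoped MatrixGroups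

namespace Fermat.Agent.S16.Lower.USysInst

open CongruenceSubgroup ModularCurve ModularCurve.Period
open Fermat.Agent.N4F.Tors.HeckeHom Fermat.Agent.S16.Lower.USystem
open Fermat.Agent.S16.Lower.LowerCore

variable (p : ℕ) [Fact p.Prime]

/-- **The `U_p`-system of `Γ₀(p)`**: all three operators are the transfer `USystem.uAdd`. -/
noncomputable def uSysInst (n : ℕ) : USys p n where
  uZ := uAdd p p (dvd_refl p)
  uC := uAdd p p (dvd_refl p)
  uN := uAdd p p (dvd_refl p)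
  uZ_mem φ hφ := uAdd_mem_parHomAdd p p (dvd_refl p) hφ
  castC φ := (uAdd_comp p p (dvd_refl p) (Int.castAddHom ℂ) φ).symm
  castN φ := (uAdd_comp p p (dvd_refl p) (Int.castAddHom (ZMod n)) φ).symm
  uC_periodHomPair f g := uAdd_periodHomPair p (Fact.out : p.Prime) (dvd_refl p) f g

@[simp] theorem uSysInst_uN (n : ℕ) : (uSysInst p n).uN = uAdd p p (dvd_refl p) := rfl

@[simp] theorem uSysInst_uZ (n : ℕ) : (uSysInst p n).uZ = uAdd p p (dvd_refl p) := rfl

@[simp] theorem uSysInst_uC (n : ℕ) : (uSysInst p n).uC = uAdd p p (dvd_refl p) := rfl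

/-- If `p • a = a` for all `a : A` and `ψ : Γ₀(p) → A` only depends on the lower right entry
modulo `p`, then `U_p ψ = ψ`. -/
theorem uAdd_eq_self_of_factors {A : Type*} [AddCommGroup A] (hA : ∀ a : A, p • a = a)
    (ψ : Additive ↥(Gamma0 p) →+ A)
    (hψ : ∀ g h : ↥(Gamma0 p), ((((g : SL(2, ℤ)) 1 1 : ℤ)) : ZMod p) =
      ((((h : SL(2, ℤ)) 1 1 : ℤ)) : ZMod p) → ψ (Additive.ofMul g) = ψ (Additive.ofMul h)) :
    uAdd p p (dvd_refl p) ψ = ψ := by
  rw [uAdd_eq_nsmul_of_factors p p (dvd_refl p) ψ hψ]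
  refine AddMonoidHom.ext fun x => ?_
  rw [AddMonoidHom.nsmul_apply, hA]

/-- **`U_p ψ = ψ`** for `ψ : Γ₀(p) → ZMod n`, `n ∣ p - 1`, depending only on the lower right
entry modulo `p` (e.g. the Shimura character). -/
theorem uN_eq_self (n : ℕ) (hn : n ∣ p - 1) (ψ : Additive ↥(Gamma0 p) →+ ZMod n)
    (hψ : ∀ g h : ↥(Gamma0 p), ((((g : SL(2, ℤ)) 1 1 : ℤ)) : ZMod p) =
      ((((h : SL(2, ℤ)) 1 1 : ℤ)) : ZMod p) → ψ (Additive.ofMul g) = ψ (Additive.ofMul h)) :
    (uSysInst p n).uN ψ = ψ := by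
  rw [uSysInst_uN]
  refine uAdd_eq_self_of_factors p (fun a => ?_) ψ hψ
  have hp1 : 1 ≤ p := (Fact.out : p.Prime).one_lt.le
  have hcast : ((p : ℕ) : ZMod n) = 1 := by
    have h0 : (((p - 1 : ℕ)) : ZMod n) = 0 := (ZMod.natCast_eq_zero_iff _ _).mpr hn
    have h1 : p = (p - 1) + 1 := by omega
    rw [h1, Nat.cast_add, h0, zero_add, Nat.cast_one]
  rw [nsmul_eq_mul, hcast, one_mul]

end Fermat.Agent.S16.Lower.USysInst
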