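import Mathlib
import Fermat.Agent.S16.Lower.Shimura
import Fermat.Agent.S16.Lower.HeckePsi
import Fermat.Agent.S16.Lower.USysInst
import Fermat.Agent.S16.Lower.LowerHA

/-!
# S16, lower bound: the Shimura character package and the closed lower bound

The Shimura character `psi p : Additive Γ₀(p) →+ ZMod (eisensteinNumerator p)` of
`Lower/Shimura.lean` in the exact shape consumed by `LowerHA.hA_of_inputs`:

* `psi_mem_parHomAdd` : `psi p` kills parabolic and elliptic elements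
  (an element of finite order of `SL(2, ℤ)` has `|trace| ≤ 2`, hence order dividing `12`);
* `heckeAdd_psi` : `T_ℓ ψ = (1 + ℓ) ψ` for the transfer operator `HeckeHom.heckeAdd`;
* `uN_psi` : `U_p ψ = ψ` for the `U_p`-system `USysInst.uSysInst`;
* `lower_hA` : hypothesis `hA` of `Reduction.card_eq_of_lower_of_upper`, unconditionally.
-/

set_option autoImplicit false

open scoped MatrixGroups
open CongruenceSubgroup Matrix.SpecialLinearGroup

namespace Fermat.Agent.S16.Lower.PsiPackage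

open ModularCurve
open Fermat.Agent.N4F.Tors.HeckeHom
open Fermat.Agent.S16.Lower.Shimura Fermat.Agent.S16.Lower.HeckePsi

/-! ### Elements of finite order of `SL(2, ℤ)` -/

section FiniteOrder

/-- if `|tr g| ≥ 3` the absolute values of the traces of the powers of `g` strictly increase -/
theorem abs_trace_pow_lt (g : SL(2, ℤ))
    (ht : 3 ≤ |(g : Matrix (Fin 2) (Fin 2) ℤ).trace|) (n : ℕ) :
    |((g : Matrix (Fin 2) (Fin 2) ℤ) ^ n).trace| + 1 ≤
      |((g : Matrix (Fin 2) (Fin 2) ℤ) ^ (n + 1)).trace| := by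
  induction n with
  | zero =>
    rw [pow_zero, zero_add, pow_one, Matrix.trace_one, Fintype.card_fin]
    norm_num
    linarith
  | succ n ih =>
    rw [trace_pow_succ_succ]
    set t := (g : Matrix (Fin 2) (Fin 2) ℤ).trace
    set a := ((g : Matrix (Fin 2) (Fin 2) ℤ) ^ (n + 1)).trace
    set b := ((g : Matrix (Fin 2) (Fin 2) ℤ) ^ n).trace
    have h1 : |t * a| - |b| ≤ |t * a - b| := abs_sub_abs_le_abs_sub _ _
    rw [abs_mul] at h1
    have h2 : 0 ≤ |a| := abs_nonneg a
    nlinarith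

theorem le_abs_trace_pow (g : SL(2, ℤ))
    (ht : 3 ≤ |(g : Matrix (Fin 2) (Fin 2) ℤ).trace|) (n : ℕ) :
    (n : ℤ) + 2 ≤ |((g : Matrix (Fin 2) (Fin 2) ℤ) ^ n).trace| := by
  induction n with
  | zero =>
    rw [pow_zero, Matrix.trace_one, Fintype.card_fin]
    norm_num
  | succ n ih =>
    have := abs_trace_pow_lt g ht n
    push_cast
    linarith

/-- an element of finite order of `SL(2, ℤ)` has `|trace| ≤ 2` -/
theorem abs_trace_le_two_of_isOfFinOrder (g : SL(2, ℤ)) (hg : IsOfFinOrder g) :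
    |(g : Matrix (Fin 2) (Fin 2) ℤ).trace| ≤ 2 := by
  by_contra hcon
  have ht : 3 ≤ |(g : Matrix (Fin 2) (Fin 2) ℤ).trace| := by omega
  obtain ⟨k, hk, hgk⟩ := hg.exists_pow_eq_one
  have h1 := le_abs_trace_pow g ht k
  have h2 : (g : Matrix (Fin 2) (Fin 2) ℤ) ^ k = 1 := by
    rw [← Matrix.SpecialLinearGroup.coe_pow, hgk, Matrix.SpecialLinearGroup.coe_one]
  rw [h2, Matrix.trace_one, Fintype.card_fin] at h1
  have h3 : (1 : ℤ) ≤ k := by exact_mod_cast hk
  norm_num at h1
  omega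

/-- an element of `SL(2, ℤ)` of trace `0`, `1` or `-1` has order dividing `12` -/
theorem pow_twelve_eq_one_of_trace (g : SL(2, ℤ))
    (ht : (g : Matrix (Fin 2) (Fin 2) ℤ).trace = 0 ∨ (g : Matrix (Fin 2) (Fin 2) ℤ).trace = 1 ∨
      (g : Matrix (Fin 2) (Fin 2) ℤ).trace = -1) : g ^ 12 = 1 := by
  apply Subtype.ext
  rw [Matrix.SpecialLinearGroup.coe_pow, Matrix.SpecialLinearGroup.coe_one]
  set M := (g : Matrix (Fin 2) (Fin 2) ℤ) with hM
  have h2 : M ^ 2 = M.trace • M - 1 := by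
    rw [pow_two]
    exact sq_eq_trace_smul_sub_one g
  rcases ht with h | h | h
  · rw [h, zero_smul, zero_sub] at h2
    rw [show 12 = 2 * 6 from rfl, pow_mul, h2]
    norm_num
  · rw [h, one_smul] at h2
    have h3 : M ^ 3 = -1 := by
      rw [show 3 = 2 + 1 from rfl, pow_succ, h2, sub_mul, one_mul, ← pow_two, h2]
      abel
    rw [show 12 = 3 * 4 from rfl, pow_mul, h3]
    norm_num
  · rw [h, neg_one_smul] at h2
    have h3 : M ^ 3 = 1 := by
      rw [show 3 = 2 + 1 from rfl, pow_succ, h2, sub_mul, one_mul, neg_mul, ← pow_two, h2]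
      abel
    rw [show 12 = 3 * 4 from rfl, pow_mul, h3, one_pow]

end FiniteOrder

/-! ### The package -/

section Package

variable (p : ℕ) [Fact p.Prime]

/-- **`ψ` kills parabolic and elliptic elements.** -/
theorem psi_mem_parHomAdd : psi p ∈ parHomAdd p (ZMod (eisensteinNumerator p)) := by
  intro g hg
  have htr : (g : SL(2, ℤ)) 0 0 + (g : SL(2, ℤ)) 1 1 =
      ((g : SL(2, ℤ)) : Matrix (Fin 2) (Fin 2) ℤ).trace := by
    rw [Matrix.trace_fin_two]
  have key : ∀ t : ℤ, ((g : SL(2, ℤ)) : Matrix (Fin 2) (Fin 2) ℤ).trace = t → |t| ≤ 2 →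
      psi p (Additive.ofMul g) = 0 := by
    intro t ht habs
    rw [abs_le] at habs
    have hcases : t = -2 ∨ t = -1 ∨ t = 0 ∨ t = 1 ∨ t = 2 := by omega
    rcases hcases with h | h | h | h | h
    · exact psi_eq_zero_of_trace_eq_neg_two p g (by rw [htr, ht, h])
    · refine psi_eq_zero_of_pow_twelve p g (Subtype.ext ?_)
      rw [SubgroupClass.coe_pow, OneMemClass.coe_one]
      exact pow_twelve_eq_one_of_trace _ (Or.inr (Or.inr (by rw [ht, h])))
    · refine psi_eq_zero_of_pow_twelve p g (Subtype.ext ?_)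
      rw [SubgroupClass.coe_pow, OneMemClass.coe_one]
      exact pow_twelve_eq_one_of_trace _ (Or.inl (by rw [ht, h]))
    · refine psi_eq_zero_of_pow_twelve p g (Subtype.ext ?_)
      rw [SubgroupClass.coe_pow, OneMemClass.coe_one]
      exact pow_twelve_eq_one_of_trace _ (Or.inr (Or.inl (by rw [ht, h])))
    · exact psi_eq_zero_of_trace_eq_two p g (by rw [htr, ht, h])
  rcases hg with h4 | hfin
  · refine key _ rfl ?_
    have h5 : |((g : SL(2, ℤ)) : Matrix (Fin 2) (Fin 2) ℤ).trace| ^ 2 = 2 ^ 2 := by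
      rw [sq_abs, h4]
      norm_num
    nlinarith [abs_nonneg ((g : SL(2, ℤ)) : Matrix (Fin 2) (Fin 2) ℤ).trace]
  · exact key _ rfl (abs_trace_le_two_of_isOfFinOrder _ hfin)

/-- **`T_ℓ ψ = (1 + ℓ) ψ`**, `ℓ ≠ p`. -/
theorem heckeAdd_psi {ℓ : ℕ} [hℓ : Fact ℓ.Prime] (hℓp : ¬ ℓ ∣ p) :
    heckeAdd p ℓ hℓp (psi p) = ((1 : ℤ) + (ℓ : ℤ)) • psi p := by
  refine AddMonoidHom.ext fun x => ?_
  obtain ⟨g, rfl⟩ := Additive.ofMul.surjective x
  rw [heckeAdd_apply]
  have hprod := prod_dHom_eq_pow hℓp g (heckeCoc p ℓ hℓp g) (heckeRep_mul_eq p ℓ hℓp g)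
  simp only [psi_apply]
  rw [← map_sum, ← ofMul_prod, hprod, ofMul_pow, map_nsmul, AddMonoidHom.smul_apply,
    ← psi_apply]
  have h1 : ((1 : ℤ) + (ℓ : ℤ)) = ((ℓ + 1 : ℕ) : ℤ) := by push_cast; ring
  rw [h1, natCast_zsmul]

/-- `ψ` only depends on the lower right entry modulo `p` -/
theorem psi_eq_of_lowerRight_eq (g h : ↥(Gamma0 p))
    (hgh : ((((g : SL(2, ℤ)) 1 1 : ℤ)) : ZMod p) = ((((h : SL(2, ℤ)) 1 1 : ℤ)) : ZMod p)) :
    psi p (Additive.ofMul g) = psi p (Additive.ofMul h) := by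
  refine psi_eq_of_dHom_eq p ?_
  rw [dHom_eq_iff, coe_dHom]
  exact hgh

/-- **`U_p ψ = ψ`** for the `U_p`-system of `Γ₀(p)`. -/
theorem uN_psi :
    (USysInst.uSysInst p (eisensteinNumerator p)).uN (psi p) = psi p :=
  USysInst.uN_eq_self p (eisensteinNumerator p) (eisensteinNumerator_dvd p) (psi p)
    (psi_eq_of_lowerRight_eq p)

/-- **The lower bound of S16**: if `t` acts as zero on the lattice of cusp forms of level
`Γ₀(p)`, then `eisensteinNumerator p` divides its Eisenstein eigenvalue. This is hypothesis `hA`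
of `Reduction.card_eq_of_lower_of_upper`. -/
theorem lower_hA : ∀ t : HeckeAlg, Reduction.phi p t = 0 →
    ((eisensteinNumerator p : ℕ) : ℤ) ∣ Reduction.eps p t :=
  LowerHA.hA_of_inputs p (USysInst.uSysInst p (eisensteinNumerator p)) (psi p)
    (psi_mem_parHomAdd p)
    (LowerHA.hord_of_surjective p (psi p) (psi_surjective p))
    (fun _ _ hℓ => heckeAdd_psi p hℓ)
    (uN_psi p)

end Package

end Fermat.Agent.S16.Lower.PsiPackage
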