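import Fermat.Agent.M2.ES.CohomBound

/-!
# S16 / lower bound, step L1: the cohomological bound of `M2/ES/CohomBound` over an arbitrary field

`CohomBound.finrank_add_orbCount_le` bounds the dimension of the space of homomorphisms
`Γ → K` vanishing on the parabolic elements, for a field `K` of characteristic zero.  The
characteristic is only used to show that the Shapiro cocycle takes values in `range (L g - 1)` at
`g = S, U, T`.  Over an arbitrary field the same holds as soon as the homomorphisms are also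
required to vanish on the conjugates of powers of `S` and `U` lying in `Γ` (the elements of finite
order).  This is the version proved here.
-/

set_option autoImplicit false
set_option linter.unusedSectionVars false
set_option linter.style.longLine false
set_option linter.style.haveILetI false

noncomputable section

namespace Fermat.Agent.S16.Lower.CohomBoundMod

open Module Fermat.Agent.M2.ES.CohomBound

/-! ### Orbit sums -/

section OrbitSum

variable {G : Type*} [Group G] {X : Type*} [Fintype X] [MulAction G X] (K : Type*) [Field K]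

open scoped Classical

/-- the orbit-sum map for the cyclic group generated by `g` -/
def orbSum (g : G) :
    (X → K) →ₗ[K] (MulAction.orbitRel.Quotient (Subgroup.zpowers g) X → K) :=
  { toFun := fun f q => ∑ x : X, if (Quotient.mk'' x : MulAction.orbitRel.Quotient _ X) = q
      then f x else 0
    map_add' := fun f f' => by
      funext q
      simp only [Pi.add_apply, ← Finset.sum_add_distrib]
      refine Finset.sum_congr rfl fun x _ => ?_
      split_ifs <;> simp
    map_smul' := fun c f => by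
      funext q
      simp only [Pi.smul_apply, smul_eq_mul, RingHom.id_apply, Finset.mul_sum]
      refine Finset.sum_congr rfl fun x _ => ?_
      split_ifs <;> simp }

theorem orbSum_apply (g : G) (f : X → K)
    (q : MulAction.orbitRel.Quotient (Subgroup.zpowers g) X) :
    orbSum K g f q = ∑ x : X, if (Quotient.mk'' x : MulAction.orbitRel.Quotient _ X) = q
      then f x else 0 := rfl

theorem orbSum_surjective (g : G) : Function.Surjective (orbSum (X := X) K g) := by
  classical
  intro c
  refine ⟨fun x => if x = Quotient.out (Quotient.mk'' x :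
    MulAction.orbitRel.Quotient (Subgroup.zpowers g) X) then c (Quotient.mk'' x) else 0, ?_⟩
  funext q
  rw [orbSum_apply]
  rw [Finset.sum_eq_single (Quotient.out q)]
  · have : (Quotient.mk'' (Quotient.out q) : MulAction.orbitRel.Quotient _ X) = q :=
      Quotient.out_eq' q
    simp [this]
  · intro x _ hx
    split_ifs with h1 h2
    · exfalso
      apply hx
      rw [h2, h1]
    · rfl
    · rfl
  · intro h
    exact absurd (Finset.mem_univ _) h

theorem quot_smul_eq (g : G) (x : X) :
    (Quotient.mk'' (g • x) : MulAction.orbitRel.Quotient (Subgroup.zpowers g) X) =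
      Quotient.mk'' x := by
  apply Quotient.sound'
  exact ⟨⟨g, Subgroup.mem_zpowers g⟩, rfl⟩

theorem range_le_ker_orbSum (g : G) :
    LinearMap.range (L (X := X) K g - 1) ≤ LinearMap.ker (orbSum (X := X) K g) := by
  classical
  rintro _ ⟨u, rfl⟩
  rw [LinearMap.mem_ker]
  funext q
  rw [orbSum_apply]
  simp only [LinearMap.sub_apply, Fermat.Agent.M2.ES.CohomBound.L_apply, Module.End.one_apply,
    Pi.sub_apply, Pi.zero_apply]
  have h1 : ∀ x : X, (if (Quotient.mk'' x : MulAction.orbitRel.Quotient _ X) = q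
      then u (g • x) - u x else 0) =
      (if (Quotient.mk'' (g • x) : MulAction.orbitRel.Quotient (Subgroup.zpowers g) X) = q
        then u (g • x) else 0) -
      (if (Quotient.mk'' x : MulAction.orbitRel.Quotient (Subgroup.zpowers g) X) = q
        then u x else 0) := by
    intro x
    rw [quot_smul_eq]
    split_ifs <;> simp
  rw [Finset.sum_congr rfl fun x _ => h1 x, Finset.sum_sub_distrib, sub_eq_zero]
  exact Equiv.sum_comp (MulAction.toPerm g)
    (fun x => if (Quotient.mk'' x : MulAction.orbitRel.Quotient (Subgroup.zpowers g) X) = q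
      then u x else 0)

theorem range_eq_ker_orbSum (g : G) :
    LinearMap.range (L (X := X) K g - 1) = LinearMap.ker (orbSum (X := X) K g) := by
  classical
  refine Submodule.eq_of_le_of_finrank_le (range_le_ker_orbSum K g) ?_
  have h1 := finrank_range_L_sub_one (X := X) K g
  have h2 := LinearMap.finrank_range_add_finrank_ker (orbSum (X := X) K g)
  rw [LinearMap.range_eq_top.mpr (orbSum_surjective K g), finrank_top,
    Module.finrank_fintype_fun_eq_card, Module.finrank_fintype_fun_eq_card] at h2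
  have h3 : orbCount X g = Fintype.card (MulAction.orbitRel.Quotient (Subgroup.zpowers g) X) := by
    rw [orbCount, Nat.card_eq_fintype_card]
  have h4 : Nat.card X = Fintype.card X := Nat.card_eq_fintype_card
  omega

theorem exists_pos_pow_smul_eq' (g : G) : ∃ n : ℕ, 0 < n ∧ ∀ x : X, g ^ n • x = x := by
  haveI : Finite (Equiv.Perm X) := inferInstance
  refine ⟨orderOf (MulAction.toPermHom G X g), orderOf_pos _, fun x => ?_⟩
  have h := pow_orderOf_eq_one (MulAction.toPermHom G X g)
  rw [← map_pow] at h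
  have := congrArg (fun σ : Equiv.Perm X => σ x) h
  simpa using this

/-- If all "period sums" of `f` vanish then so do all orbit sums. -/
theorem orbSum_eq_zero_of_period_sums (g : G) (f : X → K)
    (h : ∀ (x : X) (m : ℕ), g ^ m • x = x → ∑ i ∈ Finset.range m, f (g ^ i • x) = 0) :
    orbSum K g f = 0 := by
  classical
  funext q
  induction q using Quotient.inductionOn' with
  | h x =>
  rw [orbSum_apply, Pi.zero_apply, ← Finset.sum_filter]
  set m := Function.minimalPeriod (g • · : X → X) x with hm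
  have hper : g ^ m • x = x := by
    have := Function.iterate_minimalPeriod (f := (g • · : X → X)) (x := x)
    rwa [smul_iterate] at this
  have hmpos : 0 < m := by
    obtain ⟨n, hn, hfix⟩ := exists_pos_pow_smul_eq' (X := X) g
    refine Function.minimalPeriod_pos_of_mem_periodicPts (Function.mk_mem_periodicPts hn ?_)
    show (g • · : X → X)^[n] x = x
    rw [smul_iterate]
    exact hfix x
  have himage : Finset.univ.filter (fun y : X =>
      (Quotient.mk'' y : MulAction.orbitRel.Quotient (Subgroup.zpowers g) X) = Quotient.mk'' x) =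
      (Finset.range m).image (fun i => g ^ i • x) := by
    ext y
    simp only [Finset.mem_filter, Finset.mem_univ, true_and, Finset.mem_image, Finset.mem_range]
    constructor
    · intro hy
      have hy' : y ∈ MulAction.orbit (Subgroup.zpowers g) x := by
        have := Quotient.exact' hy
        exact this
      obtain ⟨⟨_, k, rfl⟩, hk⟩ := hy'
      have hk' : g ^ k • x = y := hk
      have hmod := MulAction.zpow_smul_mod_minimalPeriod g x k
      rw [← hm] at hmod
      have hm0 : (m : ℤ) ≠ 0 := by exact_mod_cast hmpos.ne'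
      have h0 : 0 ≤ k % (m : ℤ) := Int.emod_nonneg k hm0
      have h1 : k % (m : ℤ) < m := Int.emod_lt_of_pos k (by exact_mod_cast hmpos)
      refine ⟨(k % (m : ℤ)).toNat, ?_, ?_⟩
      · omega
      · rw [← hk', ← hmod, ← zpow_natCast, Int.toNat_of_nonneg h0]
    · rintro ⟨i, -, rfl⟩
      apply Quotient.sound'
      exact ⟨⟨g ^ i, Subgroup.pow_mem _ (Subgroup.mem_zpowers g) i⟩, rfl⟩
  rw [himage, Finset.sum_image]
  · exact h x m hper
  · intro i hi j hj hij
    have := Function.iterate_injOn_Iio_minimalPeriod (f := (g • · : X → X)) (x := x)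
    refine this (by simpa [← hm] using hi) (by simpa [← hm] using hj) ?_
    show (g • · : X → X)^[i] x = (g • · : X → X)^[j] x
    rw [smul_iterate, smul_iterate]
    exact hij

/-- **Orbit-sum criterion**: a function all of whose period sums vanish lies in
`range (L g - 1)`, over any field. -/
theorem mem_range_of_period_sums (g : G) (f : X → K)
    (h : ∀ (x : X) (m : ℕ), g ^ m • x = x → ∑ i ∈ Finset.range m, f (g ^ i • x) = 0) :
    f ∈ LinearMap.range (L (X := X) K g - 1) := by
  rw [range_eq_ker_orbSum, LinearMap.mem_ker]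
  exact orbSum_eq_zero_of_period_sums K g f h

end OrbitSum

/-! ### The abstract bound over an arbitrary field -/

section Abstract

variable {G : Type*} [Group G] {X : Type*} [Finite X] [MulAction G X]
  [MulAction.IsPretransitive G X]
  (K : Type*) [Field K] (x0 : X) (Γ : Subgroup G) (hΓ : ∀ g, g ∈ Γ ↔ g • x0 = x0)

theorem L_pow_apply (g : G) (i : ℕ) (f : X → K) (x : X) :
    ((L (X := X) K g) ^ i) f x = f (g ^ i • x) := by
  rw [← L_pow]
  rfl

/-- The cocycle attached to `(φ, v)` takes values in `range (L g - 1)` at `g` as soon as `φ`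
vanishes on the conjugates of powers of `g` lying in `Γ` (any field `K`). -/
theorem psi_mem_range_of_conj (g : G) (p : (Additive Γ →+ K) × (X → K))
    (hp : ∀ γ : Γ, (∃ (a : G) (n : ℕ), (γ : G) = a⁻¹ * g ^ n * a) → p.1 (Additive.ofMul γ) = 0) :
    psi K x0 Γ hΓ g p ∈ LinearMap.range (L (X := X) K g - 1) := by
  classical
  haveI : Fintype X := Fintype.ofFinite _
  refine mem_range_of_period_sums K g _ fun x m hx => ?_
  have hc := psi_isCocycle K x0 Γ hΓ p
  have h1 := congrFun (hc.map_pow g m) x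
  rw [LinearMap.sum_apply, Finset.sum_apply] at h1
  simp only [L_pow_apply] at h1
  rw [← h1, psi_apply]
  simp only [Pi.add_apply, LinearMap.sub_apply, Fermat.Agent.M2.ES.CohomBound.L_apply,
    Module.End.one_apply, Pi.sub_apply, hx, sub_self, add_zero, coc_apply]
  apply hp
  exact ⟨rep G x0 x, m, rfl⟩

variable (S U T : G)
  (P : Submodule K (Additive Γ →+ K))
  (hPS : ∀ φ ∈ P, ∀ γ : Γ, (∃ (g : G) (n : ℕ), (γ : G) = g⁻¹ * S ^ n * g) →
    φ (Additive.ofMul γ) = 0)
  (hPU : ∀ φ ∈ P, ∀ γ : Γ, (∃ (g : G) (n : ℕ), (γ : G) = g⁻¹ * U ^ n * g) →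
    φ (Additive.ofMul γ) = 0)
  (hPT : ∀ φ ∈ P, ∀ γ : Γ, (∃ (g : G) (n : ℕ), (γ : G) = g⁻¹ * T ^ n * g) →
    φ (Additive.ofMul γ) = 0)

/-- the comparison map `(φ, v) ↦ (ψ_S, ψ_U, ψ_T)` -/
def ThetaM : (↥P × ↥(V0 K x0)) →ₗ[K] Tgt (X := X) K S U T :=
  (LinearMap.codRestrict _ (psi K x0 Γ hΓ S ∘ₗ incl K x0 Γ P)
      (fun d => psi_mem_range_of_conj K x0 Γ hΓ S _ (hPS _ d.1.2))).prod
    ((LinearMap.codRestrict _ (psi K x0 Γ hΓ U ∘ₗ incl K x0 Γ P)
      (fun d => psi_mem_range_of_conj K x0 Γ hΓ U _ (hPU _ d.1.2))).prod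
    (LinearMap.codRestrict _ (psi K x0 Γ hΓ T ∘ₗ incl K x0 Γ P)
      (fun d => psi_mem_range_of_conj K x0 Γ hΓ T _ (hPT _ d.1.2))))

theorem ThetaM_injective (hgen : Subgroup.closure {S, U} = ⊤) :
    Function.Injective (ThetaM K x0 Γ hΓ S U T P hPS hPU hPT) := by
  rw [injective_iff_map_eq_zero]
  intro d hd
  have h1 : psi K x0 Γ hΓ S (incl K x0 Γ P d) = 0 := by
    have := congrArg (fun m : Tgt (X := X) K S U T => (m.1 : X → K)) hd
    exact this
  have h2 : psi K x0 Γ hΓ U (incl K x0 Γ P d) = 0 := by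
    have := congrArg (fun m : Tgt (X := X) K S U T => (m.2.1 : X → K)) hd
    exact this
  obtain ⟨h3, h4⟩ := eq_zero_of_psi_eq_zero K x0 Γ hΓ hgen _ h1 h2
  have h5 : (d.2 : X → K) x0 = 0 := (mem_V0 K x0).mp d.2.2
  apply Prod.ext
  · apply Subtype.ext
    exact h3
  · apply Subtype.ext
    funext x
    have := h4 x
    simp only [incl, LinearMap.prodMap_apply, Submodule.subtype_apply] at this
    rw [this, h5]
    rfl

theorem bigPi_ThetaM (hT : T = S⁻¹ * U) (d : ↥P × ↥(V0 K x0)) :
    bigPi K S U T (ThetaM K x0 Γ hΓ S U T P hPS hPU hPT d) = 0 := by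
  have hc := psi_isCocycle K x0 Γ hΓ (incl K x0 Γ P d)
  have := hc.map_inv_mul S U
  rw [← hT] at this
  rw [bigPi_apply]
  change psi K x0 Γ hΓ U (incl K x0 Γ P d) - L K T (psi K x0 Γ hΓ S (incl K x0 Γ P d))
    - psi K x0 Γ hΓ T (incl K x0 Γ P d) = 0
  rw [this]
  abel

include x0 hΓ hPS hPU hPT in
/-- **The abstract bound over an arbitrary field.** -/
theorem finrank_add_orbCount_le' (hgen : Subgroup.closure {S, U} = ⊤) (hT : T = S⁻¹ * U) :
    Module.Finite K P ∧
      finrank K P + orbCount X S + orbCount X U + orbCount X T ≤ Nat.card X + 2 := by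
  classical
  haveI : Fintype X := Fintype.ofFinite _
  haveI : Nonempty X := ⟨x0⟩
  have hinj := ThetaM_injective K x0 Γ hΓ S U T P hPS hPU hPT hgen
  haveI : Module.Finite K (↥P × ↥(V0 K x0)) := Module.Finite.of_injective _ hinj
  haveI : Module.Finite K P :=
    Module.Finite.of_surjective (LinearMap.fst K ↥P ↥(V0 K x0)) LinearMap.fst_surjective
  refine ⟨inferInstance, ?_⟩
  haveI : Module.Free K P := Module.Free.of_divisionRing K P
  have h1 : LinearMap.range (ThetaM K x0 Γ hΓ S U T P hPS hPU hPT) ≤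
      LinearMap.ker (bigPi (X := X) K S U T) := by
    rintro _ ⟨d, rfl⟩
    exact bigPi_ThetaM K x0 Γ hΓ S U T P hPS hPU hPT hT d
  have h2 := Submodule.finrank_mono h1
  rw [LinearMap.finrank_range_of_inj hinj, Module.finrank_prod] at h2
  have h3 := LinearMap.finrank_range_add_finrank_ker (bigPi (X := X) K S U T)
  have h4 := Submodule.finrank_mono (ker_sumL_le_range_bigPi (G := G) (X := X) K S U T hgen hT)
  have h5 := finrank_ker_sumL (X := X) K
  have h6 := finrank_V0 K x0
  have h7 := finrank_Tgt (X := X) K S U T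
  have h8 : 0 < Nat.card X := Nat.card_pos
  omega

end Abstract

/-! ### Specialisation to `SL(2, ℤ)` -/

section SL2Z

open Matrix ModularGroup MatrixGroups

variable {A : Type*} [AddCommGroup A] (Γ : Subgroup SL(2, ℤ))

/-- A homomorphism `Γ → A` is *parabolic and elliptic-trivial* if it vanishes on every element of
`Γ` which is conjugate in `SL(2, ℤ)` to a power of `S`, of `S * T` or of `T`. -/
def IsParEll (φ : Additive Γ →+ A) : Prop :=
  ∀ γ : Γ, (∃ (g : SL(2, ℤ)) (n : ℕ), (γ : SL(2, ℤ)) = g⁻¹ * S ^ n * g ∨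
      (γ : SL(2, ℤ)) = g⁻¹ * (S * T) ^ n * g ∨ (γ : SL(2, ℤ)) = g⁻¹ * T ^ n * g) →
    φ (Additive.ofMul γ) = 0

variable (K : Type*) [Field K]

/-- the space of parabolic, elliptic-trivial homomorphisms `Γ → K` -/
def parEllHoms : Submodule K (Additive Γ →+ K) where
  carrier := {φ | IsParEll Γ φ}
  add_mem' := fun {a b} ha hb γ hγ => by
    rw [AddMonoidHom.add_apply, ha γ hγ, hb γ hγ, add_zero]
  zero_mem' := fun γ _ => rfl
  smul_mem' := fun c a ha γ hγ => by
    rw [AddMonoidHom.smul_apply, ha γ hγ, smul_zero]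

theorem mem_parEllHoms {φ : Additive Γ →+ K} : φ ∈ parEllHoms Γ K ↔ IsParEll Γ φ := Iff.rfl

/-- **L1**: the cohomological bound for parabolic, elliptic-trivial homomorphisms of a finite
index subgroup of `SL(2, ℤ)` into an arbitrary field. -/
theorem finite_and_finrank_parEllHoms_le [Γ.FiniteIndex] :
    Module.Finite K (parEllHoms Γ K) ∧
      finrank K (parEllHoms Γ K) + orb Γ S + orb Γ (S * T) + orb Γ T ≤ Γ.index + 2 := by
  haveI : Finite (SL(2, ℤ) ⧸ Γ) := Subgroup.finite_quotient_of_finiteIndex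
  have key := finrank_add_orbCount_le' (G := SL(2, ℤ)) (X := SL(2, ℤ) ⧸ Γ) K
    ((1 : SL(2, ℤ)) : SL(2, ℤ) ⧸ Γ) Γ (mem_iff_smul_one Γ) S (S * T) T
    (parEllHoms Γ K) ?_ ?_ ?_ closure_S_ST (by group)
  · exact key
  · rintro φ hφ γ ⟨g, n, hγ⟩
    exact hφ γ ⟨g, n, Or.inl hγ⟩
  · rintro φ hφ γ ⟨g, n, hγ⟩
    exact hφ γ ⟨g, n, Or.inr (Or.inl hγ)⟩
  · rintro φ hφ γ ⟨g, n, hγ⟩
    exact hφ γ ⟨g, n, Or.inr (Or.inr hγ)⟩

/-- The bound in "genus" form. -/
theorem finrank_parEllHoms_le_of_counts [Γ.FiniteIndex] (hneg : -1 ∈ Γ) {ψ ν₂ ν₃ c : ℕ}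
    (hψ : Γ.index = ψ) (h2 : Nat.card (MulAction.fixedBy (SL(2, ℤ) ⧸ Γ) S) = ν₂)
    (h3 : Nat.card (MulAction.fixedBy (SL(2, ℤ) ⧸ Γ) (S * T)) = ν₃) (hc : orb Γ T = c) :
    (finrank K (parEllHoms Γ K) : ℚ) ≤
      2 * (1 + (ψ : ℚ) / 12 - (ν₂ : ℚ) / 4 - (ν₃ : ℚ) / 3 - (c : ℚ) / 2) := by
  have h := (finite_and_finrank_parEllHoms_le Γ K).2
  have hS := two_mul_orb_S Γ hneg
  have hU := three_mul_orb_ST Γ hneg
  rw [hψ, h2] at hS
  rw [hψ, h3] at hU
  rw [hψ, hc] at h
  have h' : ((finrank K (parEllHoms Γ K) + orb Γ S + orb Γ (S * T) + c : ℕ) : ℚ) ≤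
      ((ψ + 2 : ℕ) : ℚ) := by exact_mod_cast h
  have hS' : (2 : ℚ) * (orb Γ S : ℚ) = (ψ : ℚ) + (ν₂ : ℚ) := by exact_mod_cast hS
  have hU' : (3 : ℚ) * (orb Γ (S * T) : ℚ) = (ψ : ℚ) + 2 * (ν₃ : ℚ) := by exact_mod_cast hU
  push_cast at h'
  linarith

end SL2Z

end Fermat.Agent.S16.Lower.CohomBoundMod

end
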