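/-
S16, lower bound [LB], final glue: the Shimura character `Shimura.psi p` satisfies all the
hypotheses of `LowerHA.hA_of_inputs` for the `U_p`-system `USysInst.uSysInst`:

* `psi_mem_parHomAdd`: `ψ` kills parabolic and elliptic elements (an element of finite order of
  `SL(2, ℤ)` has `trace² ≤ 4`, and `d mod p` is a root of `X² - trace · X + 1`);
* `heckeAdd_psi`: `T_ℓ ψ = (1 + ℓ) ψ` for the transfer operator `heckeAdd` (`ℓ ≠ p`);
* `uN_psi`: `U_p ψ = ψ`;
* `lower`: `φ t = 0 → (eisensteinNumerator p : ℤ) ∣ ε t`, the hypothesis `hA` of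
  `Reduction.card_eq_of_lower_of_upper`, UNCONDITIONALLY.
-/
import Fermat.Agent.S16.Lower.USysInst
import Fermat.Agent.S16.Lower.LowerHA
import Fermat.Agent.S16.Lower.HeckePsi

set_option autoImplicit false

open scoped MatrixGroups

namespace Fermat.Agent.S16.Lower.Final

open CongruenceSubgroup ModularCurve Matrix.SpecialLinearGroup
open P2MW.S_ModularForm_heckeT_slash_eq_self_of_mem_Gamma0.ModularForm.HeckeSlashInvariance
open Fermat.Agent.N4F.Tors.HeckeHom Fermat.Agent.S16.Lower.Shimura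
open Fermat.Agent.S16.Lower.LowerCore Fermat.Agent.S16.Lower.USysInst

/-! ### Elements of finite order of `SL(2, ℤ)` have `trace² ≤ 4` -/

section FiniteOrder

/-- the traces of the powers of an element of trace `≥ 3` increase strictly -/
theorem trace_pow_ge (g : SL(2, ℤ)) (ht : 3 ≤ (g : Matrix (Fin 2) (Fin 2) ℤ).trace) (n : ℕ) :
    2 ≤ ((g : Matrix (Fin 2) (Fin 2) ℤ) ^ n).trace ∧
      ((g : Matrix (Fin 2) (Fin 2) ℤ) ^ n).trace + 1 ≤
        ((g : Matrix (Fin 2) (Fin 2) ℤ) ^ (n + 1)).trace := by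
  induction n with
  | zero =>
    refine ⟨by simp [Matrix.trace_fin_two], ?_⟩
    rw [pow_zero, zero_add, pow_one]
    have : (1 : Matrix (Fin 2) (Fin 2) ℤ).trace = 2 := by simp [Matrix.trace_fin_two]
    rw [this]
    linarith
  | succ n ih =>
    obtain ⟨h1, h2⟩ := ih
    refine ⟨by linarith, ?_⟩
    rw [trace_pow_succ_succ]
    nlinarith

theorem trace_pow_gt_two (g : SL(2, ℤ)) (ht : 3 ≤ (g : Matrix (Fin 2) (Fin 2) ℤ).trace) (n : ℕ)
    (hn : 0 < n) : 2 < ((g : Matrix (Fin 2) (Fin 2) ℤ) ^ n).trace := by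
  obtain ⟨m, rfl⟩ := Nat.exists_eq_succ_of_ne_zero hn.ne'
  have := trace_pow_ge g ht m
  rw [Nat.succ_eq_add_one]
  linarith [this.1, this.2]

theorem not_isOfFinOrder_of_trace_ge (g : SL(2, ℤ))
    (ht : 3 ≤ (g : Matrix (Fin 2) (Fin 2) ℤ).trace) : ¬ IsOfFinOrder g := by
  intro h
  obtain ⟨k, hk, hgk⟩ := h.exists_pow_eq_one
  have h1 := trace_pow_gt_two g ht k hk
  have h2 : ((g : Matrix (Fin 2) (Fin 2) ℤ) ^ k) = 1 := by
    rw [← Matrix.SpecialLinearGroup.coe_pow, hgk, Matrix.SpecialLinearGroup.coe_one]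
  rw [h2] at h1
  simp [Matrix.trace_fin_two] at h1

/-- an element of finite order of `SL(2, ℤ)` has `trace² ≤ 4` -/
theorem trace_sq_le_four_of_isOfFinOrder (g : SL(2, ℤ)) (h : IsOfFinOrder g) :
    (g : Matrix (Fin 2) (Fin 2) ℤ).trace ^ 2 ≤ 4 := by
  by_contra hcon
  rw [not_le] at hcon
  have h2 : ((g ^ 2 : SL(2, ℤ)) : Matrix (Fin 2) (Fin 2) ℤ).trace =
      (g : Matrix (Fin 2) (Fin 2) ℤ).trace ^ 2 - 2 := by
    rw [Matrix.SpecialLinearGroup.coe_pow]
    have := trace_pow_succ_succ g 0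
    rw [zero_add, pow_zero] at this
    rw [this, zero_add, pow_one]
    have h1 : (1 : Matrix (Fin 2) (Fin 2) ℤ).trace = 2 := by simp [Matrix.trace_fin_two]
    rw [h1]
    ring
  exact not_isOfFinOrder_of_trace_ge (g ^ 2) (by rw [h2]; linarith) h.pow

end FiniteOrder

/-! ### The Shimura character kills parabolic and elliptic elements -/

section Psi

variable (p : ℕ) [Fact p.Prime]

/-- `d mod p` is a root of `X² - trace · X + 1` -/
theorem lowerRight_quadratic (γ : ↥(Gamma0 p)) :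
    ((((γ : SL(2, ℤ)) 1 1 : ℤ)) : ZMod p) ^ 2 -
      (((((γ : SL(2, ℤ)) : Matrix (Fin 2) (Fin 2) ℤ).trace : ℤ)) : ZMod p) *
        ((((γ : SL(2, ℤ)) 1 1 : ℤ)) : ZMod p) + 1 = 0 := by
  have h1 := diag_mul_eq_one p γ
  rw [Matrix.trace_fin_two]
  push_cast
  linear_combination (-1 : ZMod p) * h1

theorem psi_eq_zero_of_isParEll (γ : ↥(Gamma0 p)) (hγ : IsParEll (γ : SL(2, ℤ))) :
    psi p (Additive.ofMul γ) = 0 := by
  have hquad := lowerRight_quadratic p γ
  -- in both cases `trace ∈ {-2, …, 2}`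
  have ht : ((γ : SL(2, ℤ)) : Matrix (Fin 2) (Fin 2) ℤ).trace ^ 2 ≤ 4 := by
    rcases hγ with h | h
    · exact h.le
    · exact trace_sq_le_four_of_isOfFinOrder _ h
  set t := ((γ : SL(2, ℤ)) : Matrix (Fin 2) (Fin 2) ℤ).trace with htdef
  have hlo : -2 ≤ t := by nlinarith
  have hhi : t ≤ 2 := by nlinarith
  have htr : (γ : SL(2, ℤ)) 0 0 + (γ : SL(2, ℤ)) 1 1 = t := by
    rw [htdef, Matrix.trace_fin_two]
  -- the element `d` of `ZMod p`
  set d : ZMod p := ((((γ : SL(2, ℤ)) 1 1 : ℤ)) : ZMod p) with hd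
  have hpow : ∀ (h12 : d ^ 12 = 1), psi p (Additive.ofMul γ) = 0 := by
    intro h12
    rw [psi_apply]
    refine chi_eq_zero_of_pow_twelve p _ ?_
    rw [← Units.val_inj, Units.val_pow_eq_pow_val, coe_dHom, Units.val_one]
    exact h12
  interval_cases t
  · exact psi_eq_zero_of_trace_eq_neg_two p γ htr
  · -- `t = -1`: `d² + d + 1 = 0`, `d³ = 1`
    refine hpow ?_
    push_cast at hquad
    linear_combination (d - 1) * (d ^ 9 + d ^ 6 + d ^ 3 + 1) * hquad
  · -- `t = 0`: `d² = -1`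
    refine hpow ?_
    push_cast at hquad
    linear_combination (d ^ 10 - d ^ 8 + d ^ 6 - d ^ 4 + d ^ 2 - 1) * hquad
  · -- `t = 1`: `d² - d + 1 = 0`, `d³ = -1`
    refine hpow ?_
    push_cast at hquad
    linear_combination (d ^ 6 + 1) * (d ^ 3 - 1) * (d + 1) * hquad
  · exact psi_eq_zero_of_trace_eq_two p γ htr

/-- **The Shimura character is a parabolic (and elliptic-trivial) homomorphism.** -/
theorem psi_mem_parHomAdd : psi p ∈ parHomAdd p (ZMod (eisensteinNumerator p)) :=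
  fun γ hγ => psi_eq_zero_of_isParEll p γ hγ

/-- **`T_ℓ ψ = (1 + ℓ) ψ`** for the transfer operator `heckeAdd`, `ℓ ≠ p`. -/
theorem heckeAdd_psi (ℓ : ℕ) [Fact ℓ.Prime] (hℓ : ¬ ℓ ∣ p) :
    heckeAdd p ℓ hℓ (psi p) = ((1 : ℤ) + (ℓ : ℤ)) • psi p := by
  refine AddMonoidHom.ext fun g => ?_
  obtain ⟨γ, rfl⟩ := Additive.ofMul.surjective g
  rw [heckeAdd_apply, AddMonoidHom.smul_apply]
  simp only [psi_apply]
  have hprod := HeckePsi.prod_dHom_eq_pow hℓ γ (heckeCoc p ℓ hℓ γ)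
    (fun x => heckeRep_mul_eq p ℓ hℓ γ x)
  rw [← map_sum, ← ofMul_prod, hprod, ofMul_pow, map_nsmul]
  have : ((1 : ℤ) + (ℓ : ℤ)) = ((ℓ + 1 : ℕ) : ℤ) := by push_cast; ring
  rw [this, natCast_zsmul]

/-- **`U_p ψ = ψ`** for the `U_p`-system `uSysInst`. -/
theorem uN_psi : (uSysInst p (eisensteinNumerator p)).uN (psi p) = psi p := by
  refine uN_eq_self p _ (eisensteinNumerator_dvd p) (psi p) ?_
  intro g h hgh
  refine psi_eq_of_dHom_eq p ?_
  rw [dHom_eq_iff, coe_dHom]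
  exact hgh

/-- **The lower bound of S16**: a Hecke polynomial which vanishes in the Hecke lattice algebra
has Eisenstein evaluation divisible by `eisensteinNumerator p`.  This is hypothesis `hA` of
`Reduction.card_eq_of_lower_of_upper`. -/
theorem lower : ∀ t : HeckeAlg, Reduction.phi p t = 0 →
    ((eisensteinNumerator p : ℕ) : ℤ) ∣ Reduction.eps p t :=
  LowerHA.hA_of_inputs p (uSysInst p (eisensteinNumerator p)) (psi p) (psi_mem_parHomAdd p)
    (LowerHA.hord_of_surjective p (psi p) (psi_surjective p))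
    (fun ℓ _ hℓ => heckeAdd_psi p ℓ hℓ) (uN_psi p)

end Psi

end Fermat.Agent.S16.Lower.Final
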