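import Fermat.Agent.S16.Lower.CohomBoundMod
import Fermat.Agent.M2.ES.S23Cond
import Fermat.Agent.M2.ES.S21Cond
import Fermat.Agent.S20
import Fermat.Agent.S21

/-!
# S16 / lower bound, step L2: parabolic, elliptic-trivial homomorphisms factor through the
period lattice

`lat N` is the weight-2 period lattice of `Γ₀(N)` (the `ℤ`-span of the period functionals
`lam γ : f ↦ ∫_γ f`), and `Lam : Γ₀(N) → lat N` the tautological surjective homomorphism.

* over any field `K`, every parabolic, elliptic-trivial homomorphism `Γ₀(N) → K` is of the form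
  `χ ∘ Lam` (`exists_linearMap_of_parEll`): the injective map `χ ↦ χ ∘ Lam` from
  `Hom(lat, K)` (of dimension `rank lat ≥ 2g`, by the surjectivity half of Eichler–Shimura) to
  `parEllHoms` (of dimension `≤ 2g`, by `CohomBoundMod` and the dimension formula S20) is
  bijective;
* by dévissage the same holds for homomorphisms into any finite abelian group
  (`eq_zero_of_Lam_eq_zero`, `exists_hom_of_parEll`).
-/

set_option autoImplicit false
set_option linter.unusedSectionVars false
set_option linter.style.longLine false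
set_option linter.style.haveILetI false

open CongruenceSubgroup Module
open scoped MatrixGroups

noncomputable section

namespace Fermat.Agent.S16.Lower.Lift

open ModularCurve ModularCurve.Period Fermat.Agent.M2.ES Fermat.Agent.M2.ES.S23Cond
open Fermat.Agent.S16.Lower.CohomBoundMod Fermat.Agent.S22

local notation "conj" => starRingEnd ℂ

variable (N : ℕ) [NeZero N]

local notation "S₂" => CuspForm (Gamma0 N) 2

/-! ### The tautological homomorphism onto the period lattice -/

theorem lam_one : lam N 1 = 0 := by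
  have := lam_mul N 1 1
  rw [mul_one] at this
  exact left_eq_add.mp this

/-- `γ ↦ lam γ`, as a homomorphism onto the period lattice -/
def Lam : Additive (Gamma0 N) →+ lat N where
  toFun γ := ⟨lam N (Additive.toMul γ), lam_mem_lat N _⟩
  map_zero' := Subtype.ext (lam_one N)
  map_add' _ _ := Subtype.ext (lam_mul N _ _)

@[simp] theorem Lam_apply (γ : Gamma0 N) :
    ((Lam N (Additive.ofMul γ) : lat N) : Module.Dual ℂ S₂) = lam N γ := rfl

theorem Lam_surjective : Function.Surjective (Lam N) := by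
  rintro ⟨l, hl⟩
  have hl' : l ∈ Submodule.span ℤ (Set.range (lam N)) := by rw [← lat_eq_span]; exact hl
  have key : ∀ (l : Module.Dual ℂ S₂), l ∈ Submodule.span ℤ (Set.range (lam N)) →
      ∃ γ, ((Lam N γ : lat N) : Module.Dual ℂ S₂) = l := by
    intro l hl'
    induction hl' using Submodule.span_induction with
    | mem x hx =>
      obtain ⟨γ, rfl⟩ := hx
      exact ⟨Additive.ofMul γ, rfl⟩
    | zero => exact ⟨0, by rw [map_zero]; rfl⟩
    | add x y _ _ ihx ihy =>
      obtain ⟨γ, rfl⟩ := ihx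
      obtain ⟨δ, rfl⟩ := ihy
      exact ⟨γ + δ, by rw [map_add]; rfl⟩
    | smul c x _ ihx =>
      obtain ⟨γ, rfl⟩ := ihx
      exact ⟨c • γ, by rw [map_zsmul]; rfl⟩
  obtain ⟨γ, hγ⟩ := key l hl'
  exact ⟨γ, Subtype.ext hγ⟩

theorem lam_pow (γ : Gamma0 N) (m : ℕ) : lam N (γ ^ m) = m • lam N γ := by
  induction m with
  | zero => rw [pow_zero, lam_one, zero_smul]
  | succ m ih => rw [pow_succ, lam_mul, ih, succ_nsmul]

/-- period functionals of elements of finite order vanish -/
theorem lam_eq_zero_of_pow_eq_one (γ : Gamma0 N) (m : ℕ) (hm : 0 < m)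
    (h : ((γ : SL(2, ℤ)) ^ m) = 1) : lam N γ = 0 := by
  have h1 : γ ^ m = 1 := Subtype.ext (by rw [Subgroup.coe_pow, h]; rfl)
  have h2 := lam_pow N γ m
  rw [h1, lam_one] at h2
  have h3 : (m : ℂ) • lam N γ = 0 := by
    rw [Nat.cast_smul_eq_nsmul]; exact h2.symm
  rcases smul_eq_zero.mp h3 with h4 | h4
  · exact absurd (Nat.cast_eq_zero.mp h4) hm.ne'
  · exact h4

/-- period functionals of parabolic elements vanish -/
theorem lam_eq_zero_of_trace (γ : Gamma0 N)
    (h : ((γ : SL(2, ℤ)) : Matrix (Fin 2) (Fin 2) ℤ).trace ^ 2 = 4) : lam N γ = 0 := by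
  ext f
  have := pml_mem_parabolicHoms N f
  rw [mem_parabolicHoms_iff] at this
  simpa using this γ h

theorem inv_conj_pow {G : Type*} [Group G] (g x : G) (m : ℕ) :
    (g⁻¹ * x * g) ^ m = g⁻¹ * x ^ m * g := by
  have := conj_pow (a := g⁻¹) (b := x) (i := m)
  rwa [inv_inv] at this

theorem inv_conj_pow_eq_one {G : Type*} [Group G] (g x : G) (n m : ℕ) (hx : x ^ m = 1) :
    (g⁻¹ * x ^ n * g) ^ m = 1 := by
  rw [inv_conj_pow, ← pow_mul, mul_comm, pow_mul, hx, one_pow, mul_one, inv_mul_cancel]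

open ModularGroup in
/-- `Lam` vanishes on the elements conjugate to a power of `S`, `S * T` or `T`. -/
theorem Lam_eq_zero_of_conj (γ : Gamma0 N)
    (h : ∃ (g : SL(2, ℤ)) (n : ℕ), (γ : SL(2, ℤ)) = g⁻¹ * S ^ n * g ∨
      (γ : SL(2, ℤ)) = g⁻¹ * (S * T) ^ n * g ∨ (γ : SL(2, ℤ)) = g⁻¹ * T ^ n * g) :
    Lam N (Additive.ofMul γ) = 0 := by
  apply Subtype.ext
  show lam N γ = 0
  obtain ⟨g, n, h | h | h⟩ := h
  · refine lam_eq_zero_of_pow_eq_one N γ 4 (by norm_num) ?_
    rw [h]
    exact inv_conj_pow_eq_one g S n 4 CohomBound.S_pow_four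
  · refine lam_eq_zero_of_pow_eq_one N γ 6 (by norm_num) ?_
    rw [h]
    exact inv_conj_pow_eq_one g (S * T) n 6 CohomBound.ST_pow_six
  · refine lam_eq_zero_of_trace N γ ?_
    rw [h, CohomBound.trace_conj_T_pow]
    norm_num

/-! ### The comparison map `χ ↦ χ ∘ Lam` -/

instance latFinite : Module.Finite ℤ (lat N) :=
  Module.Finite.iff_fg.mpr (periodLatticeGamma0_fg N 0)

instance latFree : Module.Free ℤ (lat N) := by
  haveI : Module.IsTorsionFree ℤ (Module.Dual ℂ S₂) := IntAbs.isTorsionFree_int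
  exact Module.free_of_finite_type_torsion_free'

variable (K : Type*) [Field K]

/-- `χ ↦ χ ∘ Lam` -/
def Fmap : (lat N →ₗ[ℤ] K) →ₗ[K] (Additive (Gamma0 N) →+ K) where
  toFun χ := χ.toAddMonoidHom.comp (Lam N)
  map_add' _ _ := rfl
  map_smul' _ _ := rfl

@[simp] theorem Fmap_apply (χ : lat N →ₗ[ℤ] K) (γ : Additive (Gamma0 N)) :
    Fmap N K χ γ = χ (Lam N γ) := rfl

theorem Fmap_injective : Function.Injective (Fmap N K) := by
  intro χ χ' h
  ext l
  obtain ⟨γ, rfl⟩ := Lam_surjective N l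
  exact DFunLike.congr_fun h γ

theorem range_Fmap_le : LinearMap.range (Fmap N K) ≤ parEllHoms (Gamma0 N) K := by
  rintro _ ⟨χ, rfl⟩ γ hγ
  rw [Fmap_apply, Lam_eq_zero_of_conj N γ hγ, map_zero]

theorem finrank_range_Fmap :
    finrank K (LinearMap.range (Fmap N K)) = finrank ℤ (lat N) := by
  rw [LinearMap.finrank_range_of_inj (Fmap_injective N K), Module.finrank_linearMap_self]

/-- the dimension of the parabolic cohomology is `2g` (Eichler–Shimura, S21) -/
theorem finrank_parabolicHoms :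
    finrank ℂ (parabolicHoms ℂ (Gamma0 N) ℂ) = 2 * finrank ℂ S₂ := by
  obtain ⟨hinj, hrange⟩ := Fermat.Agent.S21.result N
  haveI : Module.Finite ℂ S₂ := S21Cond.finite_cuspForm_two N
  rw [← hrange, LinearMap.finrank_range_of_inj hinj, Module.finrank_prod]
  ring

/-- every parabolic homomorphism `Γ₀(N) → ℂ` factors through the period lattice -/
theorem parabolicHoms_le_range_Fmap :
    parabolicHoms ℂ (Gamma0 N) ℂ ≤ LinearMap.range (Fmap N ℂ) := by
  intro ψ hψ
  obtain ⟨u, v, huv⟩ := exists_forms_of_parabolic N (Fermat.Agent.S21.result N).2 ψ hψ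
  refine ⟨((Xi N u v).toAddMonoidHom.comp (lat N).subtype.toAddMonoidHom).toIntLinearMap, ?_⟩
  refine AddMonoidHom.ext fun γ => ?_
  obtain ⟨γ, rfl⟩ := Additive.ofMul.surjective γ
  rw [Fmap_apply, huv γ]
  rfl

/-- `2g ≤ rank lat` -/
theorem two_mul_finrank_le_finrank_lat : 2 * finrank ℂ S₂ ≤ finrank ℤ (lat N) := by
  rw [← finrank_parabolicHoms, ← finrank_range_Fmap N ℂ]
  haveI : Module.Finite ℂ (lat N →ₗ[ℤ] ℂ) := inferInstance
  haveI : Module.Finite ℂ (LinearMap.range (Fmap N ℂ)) := Module.Finite.range _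
  exact Submodule.finrank_mono (parabolicHoms_le_range_Fmap N)

/-- `dim parEllHoms ≤ 2g`, over any field (L1 + S20 + coset combinatorics of `Γ₀(N)`) -/
theorem finrank_parEllHoms_le : finrank K (parEllHoms (Gamma0 N) K) ≤ 2 * finrank ℂ S₂ := by
  have hneg : (-1 : SL(2, ℤ)) ∈ Gamma0 N := by
    rw [Gamma0_mem]; simp
  have h := finrank_parEllHoms_le_of_counts (Gamma0 N) K hneg
    (Fermat.Agent.M2.P1.index_Gamma0 N (NeZero.ne N)) Fermat.Agent.M2.P1.card_fixedBy_S_coset
    Fermat.Agent.M2.P1.card_fixedBy_ST_coset Fermat.Agent.M2.P1.card_orbits_T_coset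
  have h20 := Fermat.Agent.S20.result N
  unfold ModularCurve.genusFormula at h20
  have : ((finrank K (parEllHoms (Gamma0 N) K) : ℕ) : ℚ) ≤ ((2 * finrank ℂ S₂ : ℕ) : ℚ) := by
    push_cast
    rw [h20]
    linarith
  exact_mod_cast this

/-- **Every parabolic, elliptic-trivial homomorphism into a field factors through the period
lattice.** -/
theorem range_Fmap_eq : LinearMap.range (Fmap N K) = parEllHoms (Gamma0 N) K := by
  haveI : Module.Finite K (parEllHoms (Gamma0 N) K) :=
    (finite_and_finrank_parEllHoms_le (Gamma0 N) K).1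
  refine Submodule.eq_of_le_of_finrank_le (range_Fmap_le N K) ?_
  rw [finrank_range_Fmap]
  exact (finrank_parEllHoms_le N K).trans (two_mul_finrank_le_finrank_lat N)

theorem exists_linearMap_of_parEll (φ : Additive (Gamma0 N) →+ K) (hφ : IsParEll (Gamma0 N) φ) :
    ∃ χ : lat N →ₗ[ℤ] K, ∀ γ, φ γ = χ (Lam N γ) := by
  have : φ ∈ LinearMap.range (Fmap N K) := by
    rw [range_Fmap_eq]; exact hφ
  obtain ⟨χ, rfl⟩ := this
  exact ⟨χ, fun γ => rfl⟩

theorem eq_zero_of_Lam_eq_zero_field (φ : Additive (Gamma0 N) →+ K)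
    (hφ : IsParEll (Gamma0 N) φ) (γ : Additive (Gamma0 N)) (hγ : Lam N γ = 0) : φ γ = 0 := by
  obtain ⟨χ, hχ⟩ := exists_linearMap_of_parEll N K φ hφ
  rw [hχ, hγ, map_zero]

/-! ### Dévissage: finite abelian coefficient groups -/

/-- a homomorphism killing `ker Lam` factors through `Lam` -/
theorem exists_hom_of_ker_le {A : Type*} [AddCommGroup A] (φ : Additive (Gamma0 N) →+ A)
    (h : ∀ γ, Lam N γ = 0 → φ γ = 0) : ∃ χ : lat N →+ A, ∀ γ, χ (Lam N γ) = φ γ := by
  have hle : (Lam N).ker ≤ φ.ker := fun γ hγ => h γ hγ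
  refine ⟨(Lam N).liftOfRightInverse (Function.surjInv (Lam_surjective N))
    (Function.rightInverse_surjInv (Lam_surjective N)) ⟨φ, hle⟩, fun γ => ?_⟩
  exact (Lam N).liftOfRightInverse_comp_apply _ _ ⟨φ, hle⟩ γ

theorem isParEll_comp {A B : Type*} [AddCommGroup A] [AddCommGroup B] (f : A →+ B)
    {φ : Additive (Gamma0 N) →+ A} (hφ : IsParEll (Gamma0 N) φ) :
    IsParEll (Gamma0 N) (f.comp φ) := fun γ hγ => by
  rw [AddMonoidHom.comp_apply, hφ γ hγ, map_zero]

theorem isParEll_comp_Lam {A : Type*} [AddCommGroup A] (χ : lat N →+ A) :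
    IsParEll (Gamma0 N) (χ.comp (Lam N)) := fun γ hγ => by
  rw [AddMonoidHom.comp_apply, Lam_eq_zero_of_conj N γ hγ, map_zero]

/-- additive characters separate the points of an elementary abelian `ℓ`-group -/
theorem eq_zero_of_forall_hom_zmod {Q : Type*} [AddCommGroup Q] (ℓ : ℕ) [Fact ℓ.Prime]
    (hQ : ∀ q : Q, ℓ • q = 0) (q : Q) (h : ∀ f : Q →+ ZMod ℓ, f q = 0) : q = 0 := by
  letI inst : Module (ZMod ℓ) Q := AddCommGroup.zmodModule hQ
  have h1 : Module.Free (ZMod ℓ) Q := Module.Free.of_divisionRing (ZMod ℓ) Q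
  have h2 : Module.Projective (ZMod ℓ) Q := @Module.Projective.of_free (ZMod ℓ) _ Q _ inst h1
  by_contra hne
  obtain ⟨f, hf⟩ := @Module.Projective.exists_dual_ne_zero Q _ (ZMod ℓ) _ inst h2 q hne
  exact hf (h f.toAddMonoidHom)

/-- **L2**: a parabolic, elliptic-trivial homomorphism of `Γ₀(N)` into a finite abelian group
kills the kernel of `Lam`. -/
theorem eq_zero_of_Lam_eq_zero_aux : ∀ (k : ℕ) {A : Type} [AddCommGroup A] [Finite A],
    Nat.card A = k → ∀ (φ : Additive (Gamma0 N) →+ A), IsParEll (Gamma0 N) φ →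
      ∀ γ, Lam N γ = 0 → φ γ = 0 := by
  intro k
  induction k using Nat.strong_induction_on with
  | _ k ih =>
  intro A _ _ hk φ hφ γ hγ
  by_cases hk1 : k = 1
  · haveI : Subsingleton A := (Nat.card_eq_one_iff_unique.mp (hk.trans hk1)).1
    exact Subsingleton.elim _ _
  have hkpos : 0 < k := hk ▸ Nat.card_pos
  -- a prime divisor of the order
  obtain ⟨ℓ, hℓ, hℓk⟩ := Nat.exists_prime_and_dvd hk1
  haveI : Fact ℓ.Prime := ⟨hℓ⟩
  -- the subgroup `ℓ A` and the quotient
  let B : AddSubgroup A := (nsmulAddMonoidHom (α := A) ℓ).range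
  let π : A →+ A ⧸ B := QuotientAddGroup.mk' B
  have hπ : Function.Surjective π := QuotientAddGroup.mk'_surjective B
  have hQ : ∀ q : A ⧸ B, ℓ • q = 0 := by
    intro q
    obtain ⟨a, rfl⟩ := hπ q
    rw [← map_nsmul]
    exact (QuotientAddGroup.eq_zero_iff _).mpr ⟨a, rfl⟩
  -- step 1: `π ∘ φ` kills `ker Lam`
  have step1 : ∀ δ, Lam N δ = 0 → π (φ δ) = 0 := by
    intro δ hδ
    refine eq_zero_of_forall_hom_zmod ℓ hQ _ fun f => ?_
    exact eq_zero_of_Lam_eq_zero_field N (ZMod ℓ) ((f.comp π).comp φ)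
      (isParEll_comp N _ hφ) δ hδ
  -- factor `π ∘ φ` through the lattice and lift to `A`
  obtain ⟨χbar, hχbar⟩ := exists_hom_of_ker_le N (π.comp φ) step1
  obtain ⟨χl, hχl⟩ := Module.projective_lifting_property π.toIntLinearMap χbar.toIntLinearMap hπ
  let χ : lat N →+ A := χl.toAddMonoidHom
  have hχ : ∀ l, π (χ l) = χbar l := fun l => LinearMap.congr_fun hχl l
  -- the corrected homomorphism lands in `B`
  let φ' : Additive (Gamma0 N) →+ A := φ - χ.comp (Lam N)
  have hφ'B : ∀ δ, φ' δ ∈ B := by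
    intro δ
    rw [← QuotientAddGroup.eq_zero_iff]
    show π (φ δ - χ (Lam N δ)) = 0
    rw [map_sub, hχ, hχbar]
    exact sub_self _
  let φ'' : Additive (Gamma0 N) →+ B := φ'.codRestrict B hφ'B
  have hφ'' : IsParEll (Gamma0 N) φ'' := by
    intro δ hδ
    apply Subtype.ext
    show φ (Additive.ofMul δ) - χ (Lam N (Additive.ofMul δ)) = 0
    rw [hφ δ hδ, Lam_eq_zero_of_conj N δ hδ, map_zero, sub_zero]
  -- `B` is smaller than `A`
  have hcard : Nat.card B < k := by
    obtain ⟨a, ha⟩ := exists_prime_addOrderOf_dvd_card' (G := A) ℓ (hk ▸ hℓk)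
    have hne : B ≠ ⊤ := by
      intro htop
      have hsurj : Function.Surjective (nsmulAddMonoidHom (α := A) ℓ) :=
        AddMonoidHom.range_eq_top.mp htop
      have hinj := Finite.injective_iff_surjective.mpr hsurj
      have h0 : (nsmulAddMonoidHom (α := A) ℓ) a = (nsmulAddMonoidHom (α := A) ℓ) 0 := by
        rw [map_zero]
        show ℓ • a = 0
        rw [← ha]
        exact addOrderOf_nsmul_eq_zero a
      have ha0 := hinj h0
      rw [ha0, addOrderOf_zero] at ha
      exact hℓ.one_lt.ne ha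
    have hle : Nat.card B ≤ Nat.card A := AddSubgroup.card_le_card_addGroup B
    rcases hle.lt_or_eq with h | h
    · exact hk ▸ h
    · exact absurd (AddSubgroup.card_eq_iff_eq_top B |>.mp h) hne
  have h2 := ih (Nat.card B) hcard rfl φ'' hφ'' γ hγ
  have h3 : φ' γ = 0 := congrArg Subtype.val h2
  have h4 : φ γ = φ' γ + χ (Lam N γ) := by
    show φ γ = (φ γ - χ (Lam N γ)) + χ (Lam N γ)
    abel
  rw [h4, h3, hγ, map_zero, add_zero]

theorem eq_zero_of_Lam_eq_zero {A : Type} [AddCommGroup A] [Finite A]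
    (φ : Additive (Gamma0 N) →+ A) (hφ : IsParEll (Gamma0 N) φ) (γ : Additive (Gamma0 N))
    (hγ : Lam N γ = 0) : φ γ = 0 :=
  eq_zero_of_Lam_eq_zero_aux N _ rfl φ hφ γ hγ

/-- **L2, final form**: every parabolic, elliptic-trivial homomorphism of `Γ₀(N)` into a finite
abelian group factors through the period lattice. -/
theorem exists_hom_of_parEll {A : Type} [AddCommGroup A] [Finite A]
    (φ : Additive (Gamma0 N) →+ A) (hφ : IsParEll (Gamma0 N) φ) :
    ∃ χ : lat N →+ A, ∀ γ, χ (Lam N γ) = φ γ :=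
  exists_hom_of_ker_le N φ (eq_zero_of_Lam_eq_zero N φ hφ)

end Fermat.Agent.S16.Lower.Lift

end
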